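import Fermat.Agent.LT.TwNorm
import Fermat.Agent.LT.Level
import Fermat.Agent.LT.Sttf.Classes

/-!
# The dictionary between `PGL₂` and `2 × 2` matrices

`PG F = GL₂(F) / centre`, the twisted classes, the norm and the stabilisers
(`L / K` cyclic of degree three).
-/

set_option autoImplicit false

noncomputable section

namespace Fermat.Agent.LT.Dict

open Matrix

/-! ### `PGL₂` -/

section PG

variable {F F' F'' : Type*} [Field F] [Field F'] [Field F'']

/-- the projection `GL₂(F) → PGL₂(F)` -/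
def pmk : GL (Fin 2) F →* PG F := QuotientGroup.mk' _

theorem pmk_surjective : Function.Surjective (pmk : GL (Fin 2) F → PG F) :=
  QuotientGroup.mk'_surjective _

theorem pmk_eq_mk (g : GL (Fin 2) F) : pmk g = (QuotientGroup.mk g : PG F) := rfl

@[simp] theorem pmk_smul {X : Type*} [MulAction (GL (Fin 2) F) X] [TrivScalar F X]
    (g : GL (Fin 2) F) (x : X) : pmk g • x = g • x := rfl

theorem det_coe_ne_zero (g : GL (Fin 2) F) : (g : M2 F).det ≠ 0 :=
  (Matrix.isUnits_det_units g).ne_zero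

/-- an element of `GL₂` from a matrix -/
def mkG (M : M2 F) (h : M.det ≠ 0) : GL (Fin 2) F := GeneralLinearGroup.mkOfDetNeZero M h

@[simp] theorem coe_mkG (M : M2 F) (h : M.det ≠ 0) : (mkG M h : M2 F) = M := rfl

theorem mem_center_iff {g : GL (Fin 2) F} :
    g ∈ Subgroup.center (GL (Fin 2) F) ↔ ∃ z : F, z ≠ 0 ∧ (g : M2 F) = z • (1 : M2 F) := by
  rw [GeneralLinearGroup.center_eq_range_scalar]
  constructor
  · rintro ⟨u, rfl⟩
    refine ⟨u, u.ne_zero, ?_⟩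
    rw [GeneralLinearGroup.coe_scalar, Matrix.smul_one_eq_diagonal]
    rfl
  · rintro ⟨z, hz, hg⟩
    refine ⟨Units.mk0 z hz, ?_⟩
    apply Units.ext
    rw [GeneralLinearGroup.coe_scalar, hg, Matrix.smul_one_eq_diagonal]
    rfl

theorem pmk_eq_iff {g h : GL (Fin 2) F} :
    pmk g = pmk h ↔ ∃ z : F, z ≠ 0 ∧ (g : M2 F) = z • (h : M2 F) := by
  rw [pmk_eq_mk, pmk_eq_mk, QuotientGroup.eq, mem_center_iff]
  constructor
  · rintro ⟨z, hz, hgh⟩
    refine ⟨z⁻¹, inv_ne_zero hz, ?_⟩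
    have h1 : (h : M2 F) = z • (g : M2 F) := by
      have h2 : (h : M2 F) = (g : M2 F) * ((g⁻¹ * h : GL (Fin 2) F) : M2 F) := by
        rw [← Units.val_mul, mul_inv_cancel_left]
      rw [h2, hgh, mul_smul_comm, mul_one]
    rw [h1, smul_smul, inv_mul_cancel₀ hz, one_smul]
  · rintro ⟨z, hz, hgh⟩
    refine ⟨z⁻¹, inv_ne_zero hz, ?_⟩
    have h1 : (h : M2 F) = z⁻¹ • (g : M2 F) := by
      rw [hgh, smul_smul, inv_mul_cancel₀ hz, one_smul]
    rw [Units.val_mul, h1, mul_smul_comm, ← Units.val_mul, inv_mul_cancel, Units.val_one]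

theorem coe_map (φ : F →+* F') (g : GL (Fin 2) F) :
    (GeneralLinearGroup.map φ g : M2 F') = (g : M2 F).map φ := rfl

theorem map_center_le (φ : F →+* F') :
    Subgroup.center (GL (Fin 2) F) ≤
      (Subgroup.center (GL (Fin 2) F')).comap (GeneralLinearGroup.map φ) := by
  intro g hg
  rw [mem_center_iff] at hg
  rw [Subgroup.mem_comap, mem_center_iff]
  obtain ⟨z, hz, hg⟩ := hg
  refine ⟨φ z, (map_ne_zero φ).mpr hz, ?_⟩
  rw [coe_map, hg]
  ext i j
  fin_cases i <;> fin_cases j <;> simp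

/-- functoriality of `PGL₂` -/
def pmap (φ : F →+* F') : PG F →* PG F' :=
  QuotientGroup.map _ _ (GeneralLinearGroup.map φ) (map_center_le φ)

@[simp] theorem pmap_pmk (φ : F →+* F') (g : GL (Fin 2) F) :
    pmap φ (pmk g) = pmk (GeneralLinearGroup.map φ g) := rfl

theorem pmap_pmap (φ : F →+* F') (ψ : F' →+* F'') (x : PG F) :
    pmap ψ (pmap φ x) = pmap (ψ.comp φ) x := by
  obtain ⟨g, rfl⟩ := pmk_surjective x
  rfl

theorem pmap_id (x : PG F) : pmap (RingHom.id F) x = x := by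
  obtain ⟨g, rfl⟩ := pmk_surjective x
  rw [pmap_pmk]
  congr 1

theorem pmap_injective (φ : F →+* F') : Function.Injective (pmap φ) := by
  rw [injective_iff_map_eq_one]
  intro x hx
  obtain ⟨g, rfl⟩ := pmk_surjective x
  have h1 : pmk (GeneralLinearGroup.map φ g) = pmk 1 := by rw [← pmap_pmk, hx, map_one]
  rw [pmk_eq_iff] at h1
  obtain ⟨z, hz, h⟩ := h1
  have e : ∀ i j, φ ((g : M2 F) i j) = z * (1 : M2 F') i j := by
    intro i j
    have := congrFun (congrFun h i) j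
    simpa [coe_map] using this
  have h00 := e 0 0
  have h01 := e 0 1
  have h10 := e 1 0
  have h11 := e 1 1
  simp only [Matrix.one_apply_eq, mul_one, ne_eq, zero_ne_one, not_false_eq_true,
    Matrix.one_apply_ne, one_ne_zero, mul_zero, map_eq_zero] at h00 h01 h10 h11
  rw [← map_one (pmk : GL (Fin 2) F →* PG F), pmk_eq_iff]
  refine ⟨(g : M2 F) 0 0, ?_, ?_⟩
  · intro h0
    rw [h0, map_zero] at h00
    exact hz h00.symm
  · have h3 : (g : M2 F) 1 1 = (g : M2 F) 0 0 := φ.injective (by rw [h00, h11])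
    ext i j
    fin_cases i <;> fin_cases j <;> simp [h01, h10, h3]

end PG

/-! ### Twisted conjugation -/

section Tw

variable {G : Type*} [Group G] {σ : G ≃* G}

theorem tw_mem_orbit_iff' {d e : G} :
    Tw.of σ e ∈ MulAction.orbit G (Tw.of σ d) ↔ ∃ g : G, d * σ g = g * e := by
  rw [Tw.of_mem_orbit_iff]
  constructor
  · rintro ⟨g, rfl⟩
    refine ⟨g⁻¹, ?_⟩
    rw [map_inv]
    simp only [mul_assoc, inv_mul_cancel_left]
  · rintro ⟨g, hg⟩
    refine ⟨g⁻¹, ?_⟩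
    rw [map_inv, inv_inv, mul_assoc, hg, inv_mul_cancel_left]

theorem tw_mem_orbit_refl_iff {d e : G} :
    Tw.of (MulEquiv.refl G) e ∈ MulAction.orbit G (Tw.of (MulEquiv.refl G) d) ↔ IsConj d e := by
  rw [Tw.of_mem_orbit_iff, isConj_iff]
  rfl

theorem tw_stabilizer_refl (d : G) :
    MulAction.stabilizer G (Tw.of (MulEquiv.refl G) d) = Subgroup.centralizer {d} := by
  ext g
  rw [Tw.mem_stabilizer, Subgroup.mem_centralizer_singleton_iff]
  rfl

end Tw

/-! ### The dictionary -/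

section Dictionary

variable {K L : Type*} [Field K] [Field L] [Algebra K L]

/-- `PGL₂(K) → PGL₂(L)` -/
def pup (L : Type*) [Field L] [Algebra K L] : PG K →* PG L := pmap (algebraMap K L)

theorem pup_injective : Function.Injective (pup L : PG K → PG L) := pmap_injective _

/-- the image in `GL₂(L)` of an element of `GL₂(K)` -/
abbrev gup (L : Type*) [Field L] [Algebra K L] : GL (Fin 2) K →* GL (Fin 2) L :=
  GeneralLinearGroup.map (algebraMap K L)

@[simp] theorem coe_gup (g : GL (Fin 2) K) : (gup L g : M2 L) = up L (g : M2 K) := rfl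

@[simp] theorem pup_pmk (g : GL (Fin 2) K) : pup L (pmk g) = pmk (gup L g) := rfl

/-- the action of `τ` on `GL₂(L)` -/
abbrev gt (τ : L ≃ₐ[K] L) : GL (Fin 2) L →* GL (Fin 2) L :=
  GeneralLinearGroup.map (τ : L →+* L)

@[simp] theorem coe_gt (τ : L ≃ₐ[K] L) (g : GL (Fin 2) L) : (gt τ g : M2 L) = mt τ (g : M2 L) :=
  rfl

/-- the action of `τ` on `PGL₂(L)` -/
def pt (τ : L ≃ₐ[K] L) : PG L ≃* PG L :=
  MulEquiv.ofBijective (pmap (τ : L →+* L)) <| by
    refine ⟨pmap_injective _, fun x => ⟨pmap (τ.symm : L →+* L) x, ?_⟩⟩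
    rw [pmap_pmap]
    have h : ((τ : L →+* L).comp (τ.symm : L →+* L)) = RingHom.id L := by
      ext y
      simp
    rw [h, pmap_id]

@[simp] theorem pt_pmk (τ : L ≃ₐ[K] L) (g : GL (Fin 2) L) : pt τ (pmk g) = pmk (gt τ g) := rfl

@[simp] theorem pt_pup (τ : L ≃ₐ[K] L) (x : PG K) : pt τ (pup L x) = pup L x := by
  obtain ⟨g, rfl⟩ := pmk_surjective x
  rw [pup_pmk, pt_pmk]
  congr 1
  apply Units.ext
  rw [coe_gt, coe_gup, mt_up]

/-- **Twisted classes.** -/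
theorem mem_orbit_iff_twConj {τ : L ≃ₐ[K] L} {d e : GL (Fin 2) L} :
    Tw.of (pt τ) (pmk e) ∈ MulAction.orbit (PG L) (Tw.of (pt τ) (pmk d)) ↔
      TwConj τ (d : M2 L) (e : M2 L) := by
  rw [tw_mem_orbit_iff']
  constructor
  · rintro ⟨x, hx⟩
    obtain ⟨g, rfl⟩ := pmk_surjective x
    rw [pt_pmk, ← map_mul, ← map_mul, pmk_eq_iff] at hx
    obtain ⟨z, hz, h⟩ := hx
    exact ⟨z, g, hz, det_coe_ne_zero g, by simpa only [Units.val_mul, coe_gt] using h⟩
  · rintro ⟨z, g, hz, hg, h⟩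
    refine ⟨pmk (mkG g hg), ?_⟩
    rw [pt_pmk, ← map_mul, ← map_mul, pmk_eq_iff]
    exact ⟨z, hz, by simpa only [Units.val_mul, coe_gt, coe_mkG] using h⟩

/-- **Conjugacy classes.** -/
theorem isConj_iff_pConj {F : Type*} [Field F] {d e : GL (Fin 2) F} :
    IsConj (pmk d) (pmk e) ↔ PConj (d : M2 F) (e : M2 F) := by
  constructor
  · intro h
    obtain ⟨x, hx⟩ := isConj_iff.mp h
    obtain ⟨g, rfl⟩ := pmk_surjective x
    have h1 : pmk (d * g⁻¹) = pmk (g⁻¹ * e) := by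
      rw [map_mul, map_mul, ← hx, map_inv]
      simp only [mul_assoc, inv_mul_cancel_left]
    rw [pmk_eq_iff] at h1
    obtain ⟨z, hz, h2⟩ := h1
    refine ⟨z, ((g⁻¹ : GL (Fin 2) F) : M2 F), hz, det_coe_ne_zero _, ?_⟩
    simpa only [Units.val_mul] using h2
  · rintro ⟨z, g, hz, hg, h⟩
    rw [isConj_iff]
    refine ⟨(pmk (mkG g hg))⁻¹, ?_⟩
    have h1 : pmk (d * mkG g hg) = pmk (mkG g hg * e) := by
      rw [pmk_eq_iff]
      exact ⟨z, hz, by simpa only [Units.val_mul, coe_mkG] using h⟩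
    rw [map_mul, map_mul] at h1
    rw [inv_inv, mul_assoc, h1, inv_mul_cancel_left]

theorem mem_orbit_iff_pConj {F : Type*} [Field F] {d e : GL (Fin 2) F} :
    Tw.of (MulEquiv.refl (PG F)) (pmk e) ∈
      MulAction.orbit (PG F) (Tw.of (MulEquiv.refl (PG F)) (pmk d)) ↔
      PConj (d : M2 F) (e : M2 F) := by
  rw [tw_mem_orbit_refl_iff, isConj_iff_pConj]

/-! ### Elliptic elements -/

theorem ell_smul {F : Type*} [Field F] {γ : M2 F} {c : F} (hc : c ≠ 0) (h : Ell γ) :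
    Ell (c • γ) := by
  intro a ha
  refine h (a / c) ?_
  rw [Matrix.trace_smul, Matrix.det_smul, Fintype.card_fin, smul_eq_mul] at ha
  field_simp
  linear_combination ha

/-- elliptic elements of `PGL₂(F)` of non-zero trace -/
def PEll {F : Type*} [Field F] (x : PG F) : Prop :=
  ∃ g : GL (Fin 2) F, pmk g = x ∧ Ell (g : M2 F) ∧ (g : M2 F).trace ≠ 0

theorem pell_pmk {F : Type*} [Field F] {g : GL (Fin 2) F} :
    PEll (pmk g) ↔ Ell (g : M2 F) ∧ (g : M2 F).trace ≠ 0 := by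
  constructor
  · rintro ⟨h, hh, h1, h2⟩
    rw [eq_comm, pmk_eq_iff] at hh
    obtain ⟨z, hz, e⟩ := hh
    rw [e]
    refine ⟨ell_smul hz h1, ?_⟩
    rw [Matrix.trace_smul, smul_eq_mul]
    exact mul_ne_zero hz h2
  · rintro ⟨h1, h2⟩
    exact ⟨g, rfl, h1, h2⟩

theorem ell_of_pconj {F : Type*} [Field F] {M N : M2 F} (h : PConj M N) (hN : Ell N) :
    Ell M := by
  obtain ⟨z, g, hz, hg, e⟩ := h
  intro a ha
  rw [PConj.trace hg e, PConj.det hg e] at ha
  refine hN (a / z) ?_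
  field_simp
  linear_combination ha

theorem trace_ne_zero_of_pconj {F : Type*} [Field F] {M N : M2 F} (h : PConj M N)
    (hN : N.trace ≠ 0) : M.trace ≠ 0 := by
  obtain ⟨z, g, hz, hg, e⟩ := h
  rw [PConj.trace hg e]
  exact mul_ne_zero hz hN

theorem PEll.of_isConj {F : Type*} [Field F] {x y : PG F} (h : IsConj x y) (hy : PEll y) :
    PEll x := by
  obtain ⟨g, rfl⟩ := pmk_surjective x
  obtain ⟨k, rfl⟩ := pmk_surjective y
  rw [isConj_iff_pConj] at h
  rw [pell_pmk] at hy ⊢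
  exact ⟨ell_of_pconj h hy.1, trace_ne_zero_of_pconj h hy.2⟩

theorem commute_iff_of_pell {F : Type*} [Field F] {g h : GL (Fin 2) F}
    (hg : (g : M2 F).trace ≠ 0) :
    pmk h * pmk g = pmk g * pmk h ↔ (h : M2 F) * g = (g : M2 F) * h := by
  rw [← map_mul, ← map_mul]
  constructor
  · intro e
    rw [eq_comm, pmk_eq_iff] at e
    obtain ⟨z, hz, e⟩ := e
    rw [Units.val_mul, Units.val_mul] at e
    exact commute_of_conj_smul (K := F) (γ := (g : M2 F)) (g := (h : M2 F)) hg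
      (det_coe_ne_zero h) e
  · intro e
    congr 1
    apply Units.ext
    rw [Units.val_mul, Units.val_mul, e]

/-! ### The norm -/

/-- `N x = x · τ x · τ² x` on `GL₂(L)` -/
def gnm (τ : L ≃ₐ[K] L) (d : GL (Fin 2) L) : GL (Fin 2) L := d * gt τ d * gt τ (gt τ d)

@[simp] theorem coe_gnm (τ : L ≃ₐ[K] L) (d : GL (Fin 2) L) :
    (gnm τ d : M2 L) = nm τ (d : M2 L) := rfl

/-- `N x = x · τ x · τ² x` on `PGL₂(L)` -/
def pnm (τ : L ≃ₐ[K] L) (x : PG L) : PG L := x * pt τ x * pt τ (pt τ x)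

@[simp] theorem pnm_pmk (τ : L ≃ₐ[K] L) (d : GL (Fin 2) L) : pnm τ (pmk d) = pmk (gnm τ d) := rfl

variable {τ : L ≃ₐ[K] L} (hτ : Cyc3 τ)
include hτ

theorem pell_pup (x : PG K) : PEll (pup L x) ↔ PEll x := by
  obtain ⟨g, rfl⟩ := pmk_surjective x
  rw [pup_pmk, pell_pmk, pell_pmk, coe_gup]
  have h2 : (up L (g : M2 K)).trace ≠ 0 ↔ (g : M2 K).trace ≠ 0 := by
    rw [trace_up]
    simp
  rw [h2]
  refine and_congr_left fun _ => ⟨fun h a ha => ?_, fun h => hτ.ell_up h⟩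
  apply h (algebraMap K L a)
  rw [trace_up, det_up, ← map_pow, ← map_mul, ← map_sub, ← map_add, ha, map_zero]

/-- the norm of a twisted class is a conjugacy class -/
theorem isConj_pnm {x y : PG L}
    (h : Tw.of (pt τ) y ∈ MulAction.orbit (PG L) (Tw.of (pt τ) x)) :
    IsConj (pnm τ x) (pnm τ y) := by
  obtain ⟨d, rfl⟩ := pmk_surjective x
  obtain ⟨e, rfl⟩ := pmk_surjective y
  rw [mem_orbit_iff_twConj] at h
  rw [pnm_pmk, pnm_pmk, isConj_iff_pConj, coe_gnm, coe_gnm]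
  exact hτ.pconj_nm h

/-- **Injectivity of the norm on twisted classes.** -/
theorem mem_orbit_iff_isConj {x y : PG L} (hx : PEll (pnm τ x)) :
    Tw.of (pt τ) y ∈ MulAction.orbit (PG L) (Tw.of (pt τ) x) ↔
      IsConj (pnm τ x) (pnm τ y) := by
  obtain ⟨d, rfl⟩ := pmk_surjective x
  obtain ⟨e, rfl⟩ := pmk_surjective y
  rw [pnm_pmk, pell_pmk, coe_gnm] at hx
  rw [mem_orbit_iff_twConj, pnm_pmk, pnm_pmk, isConj_iff_pConj, coe_gnm, coe_gnm]
  exact hτ.twConj_iff (det_coe_ne_zero d) (det_coe_ne_zero e) hx.1 hx.2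

/-- **The norm comes from `K`.** -/
theorem exists_isConj_pup {x : PG L} (hx : PEll (pnm τ x)) :
    ∃ γ : PG K, PEll γ ∧ IsConj (pnm τ x) (pup L γ) := by
  obtain ⟨d, rfl⟩ := pmk_surjective x
  rw [pnm_pmk, pell_pmk, coe_gnm] at hx
  obtain ⟨γ, h1, h2, h3⟩ := hτ.exists_pconj_up (det_coe_ne_zero d) hx.1 hx.2
  refine ⟨pmk (mkG γ h1.det_ne_zero'), ?_, ?_⟩
  · rw [pell_pmk, coe_mkG]
    exact ⟨h1, h2⟩
  · rw [pnm_pmk, pup_pmk, isConj_iff_pConj, coe_gnm, coe_gup, coe_mkG]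
    exact h3

omit hτ in
/-- Conjugacy over `L` of elements of `PGL₂(K)` descends. -/
theorem isConj_pup_iff {γ γ' : PG K} (hγ : PEll γ) (hγ' : PEll γ') :
    IsConj (pup L γ) (pup L γ') ↔ IsConj γ γ' := by
  obtain ⟨g, rfl⟩ := pmk_surjective γ
  obtain ⟨h, rfl⟩ := pmk_surjective γ'
  rw [pell_pmk] at hγ hγ'
  rw [pup_pmk, pup_pmk, isConj_iff_pConj, isConj_iff_pConj, coe_gup, coe_gup]
  exact pconj_up_iff hγ.1.not_isScal hγ'.1.not_isScal hγ'.2

/-- An element whose norm is `γ ∈ PGL₂(K)`: the scalar is in `K`. -/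
theorem exists_scalar {d : GL (Fin 2) L} {g : GL (Fin 2) K} (hg : (g : M2 K).trace ≠ 0)
    (h : pnm τ (pmk d) = pup L (pmk g)) :
    ∃ c : K, c ≠ 0 ∧ nm τ (d : M2 L) = up L (c • (g : M2 K)) := by
  rw [pnm_pmk, pup_pmk, pmk_eq_iff, coe_gnm, coe_gup] at h
  obtain ⟨z, hz, h⟩ := h
  obtain ⟨b, hb⟩ := hτ.trace_nm_mem (det_coe_ne_zero d)
  have h0 : algebraMap K L (g : M2 K).trace ≠ 0 := by simpa using hg
  have h1 : z = algebraMap K L (b / (g : M2 K).trace) := by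
    rw [map_div₀, hb, h, Matrix.trace_smul, trace_up, smul_eq_mul]
    field_simp
  refine ⟨b / (g : M2 K).trace, ?_, ?_⟩
  · intro h2
    rw [h2, map_zero] at h1
    exact hz h1
  · rw [h, up_smul, ← h1]

/-- An element whose norm is `γ ∈ PGL₂(K)` commutes with `γ`. -/
theorem commute_of_pnm_eq {d : GL (Fin 2) L} {g : GL (Fin 2) K} (hg : (g : M2 K).trace ≠ 0)
    (h : pnm τ (pmk d) = pup L (pmk g)) :
    (d : M2 L) * up L (g : M2 K) = up L (g : M2 K) * (d : M2 L) := by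
  obtain ⟨c, hc, hN⟩ := exists_scalar hτ hg h
  have h1 := hτ.mul_mt_nm (d : M2 L)
  have hc' : algebraMap K L c ≠ 0 := by simpa using hc
  rw [hN, mt_up, up_smul, mul_smul_comm, smul_mul_assoc] at h1
  have h2 := congrArg (fun M => (algebraMap K L c)⁻¹ • M) h1
  simpa only [smul_smul, inv_mul_cancel₀ hc', one_smul] using h2

/-- **The twisted stabiliser** of `x` with `N x = γ ∈ PGL₂(K)` is the centraliser of `γ` in
`PGL₂(K)`. -/
theorem stabilizer_eq_map {x : PG L} {γ : PG K} (hγ : PEll γ) (h : pnm τ x = pup L γ) :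
    MulAction.stabilizer (PG L) (Tw.of (pt τ) x) =
      (Subgroup.centralizer {γ}).map (pup L) := by
  obtain ⟨d, rfl⟩ := pmk_surjective x
  obtain ⟨g, rfl⟩ := pmk_surjective γ
  rw [pell_pmk] at hγ
  obtain ⟨c, hc, hN⟩ := exists_scalar hτ hγ.2 h
  have hcom := commute_of_pnm_eq hτ hγ.2 h
  have hell : Ell (c • (g : M2 K)) := ell_smul hc hγ.1
  have htr : (c • (g : M2 K)).trace ≠ 0 := by
    rw [Matrix.trace_smul, smul_eq_mul]
    exact mul_ne_zero hc hγ.2
  ext y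
  rw [Tw.mem_stabilizer, Subgroup.mem_map]
  constructor
  · intro hy
    obtain ⟨k, rfl⟩ := pmk_surjective y
    rw [pt_pmk, ← map_mul, ← map_mul, eq_comm, pmk_eq_iff] at hy
    obtain ⟨z, hz, hy⟩ := hy
    rw [Units.val_mul, Units.val_mul, coe_gt] at hy
    obtain ⟨w, e, hw, he, hec, hk⟩ := hτ.stab hell htr (det_coe_ne_zero d) hN
      (det_coe_ne_zero k) hy
    refine ⟨pmk (mkG e he), ?_, ?_⟩
    · rw [Subgroup.mem_centralizer_singleton_iff]
      rw [commute_iff_of_pell hγ.2, coe_mkG]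
      rw [mul_smul_comm, smul_mul_assoc] at hec
      have h2 := congrArg (fun M => c⁻¹ • M) hec
      simpa only [smul_smul, inv_mul_cancel₀ hc, one_smul] using h2
    · rw [pup_pmk, eq_comm, pmk_eq_iff, coe_gup, coe_mkG]
      exact ⟨w, hw, hk⟩
  · rintro ⟨u, hu, rfl⟩
    obtain ⟨e, rfl⟩ := pmk_surjective u
    rw [Subgroup.mem_centralizer_singleton_iff] at hu
    rw [commute_iff_of_pell hγ.2] at hu
    rw [pt_pup, pup_pmk, ← map_mul, ← map_mul]
    congr 1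
    apply Units.ext
    rw [Units.val_mul, Units.val_mul, coe_gup]
    have hs : ¬ IsScal (up L (g : M2 K)) := (hτ.ell_up hγ.1).not_isScal
    refine commute_of_commute hs ?_ hcom
    rw [← up_mul, ← up_mul, hu]

/-- **Representatives with a prescribed norm.** -/
theorem exists_rep_pnm {x : PG L} {γ : PG K} (hγ : PEll γ)
    (h : IsConj (pnm τ x) (pup L γ)) :
    ∃ y : PG L, Tw.of (pt τ) y ∈ MulAction.orbit (PG L) (Tw.of (pt τ) x) ∧
      pnm τ y = pup L γ := by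
  obtain ⟨d, rfl⟩ := pmk_surjective x
  obtain ⟨g, rfl⟩ := pmk_surjective γ
  rw [pell_pmk] at hγ
  rw [pnm_pmk, pup_pmk, isConj_iff_pConj, coe_gnm, coe_gup] at h
  obtain ⟨c, e, hc, he, h1, h2, h3⟩ := hτ.exists_rep' (det_coe_ne_zero d) hγ.1 hγ.2 h
  refine ⟨pmk (mkG e he), ?_, ?_⟩
  · rw [mem_orbit_iff_twConj, coe_mkG]
    exact h1
  · rw [pnm_pmk, pup_pmk, pmk_eq_iff, coe_gnm, coe_gup, coe_mkG]
    exact ⟨_, by simpa using hc, h2⟩

omit hτ in
/-- `γ ∈ PGL₂(K)` is a norm -/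
theorem isNm_iff_exists_isConj {g : GL (Fin 2) K} :
    IsNm τ (g : M2 K) ↔ ∃ x : PG L, IsConj (pnm τ x) (pup L (pmk g)) := by
  constructor
  · rintro ⟨d, hd, h⟩
    refine ⟨pmk (mkG d hd), ?_⟩
    rw [pnm_pmk, pup_pmk, isConj_iff_pConj, coe_gnm, coe_gup, coe_mkG]
    exact h
  · rintro ⟨x, hx⟩
    obtain ⟨d, rfl⟩ := pmk_surjective x
    rw [pnm_pmk, pup_pmk, isConj_iff_pConj, coe_gnm, coe_gup] at hx
    exact ⟨d, det_coe_ne_zero d, hx⟩

end Dictionary

end Fermat.Agent.LT.Dict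

end
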