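import Fermat.Agent.LT.Tr.PushProd
import Fermat.Agent.LT.H3.Radial

/-!
# The transferred kernel at infinity is radial

`kerDown κ e` (a product of three radial kernels of `L` in the `H3` of `K`) is the radial kernel
`kap0 (kap0 κ₀ κ₁) κ₂`.
-/

set_option autoImplicit false

noncomputable section

open MeasureTheory MulAction NumberField Matrix
open scoped ENNReal

namespace Fermat.Agent.LT.Dict

open H3

theorem integrable_three {k₀ k₁ k₂ : ℝ → ℂ} (h₀ : IsKer k₀) (h₁ : IsKer k₁) (h₂ : IsKer k₂)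
    (P Q : H3) :
    Integrable (fun yz : H3 × H3 => k₀ (cu P yz.1) * k₁ (cu yz.1 yz.2) * k₂ (cu yz.2 Q))
      ((volume : Measure H3).prod volume) := by
  obtain ⟨C₀, hC₀⟩ := h₀.bdd
  obtain ⟨C₂, hC₂⟩ := h₂.bdd
  refine integrable_of_support
    (K := {W : H3 | cu P W ≤ C₀} ×ˢ {W : H3 | cu W Q ≤ C₂}) ?_
    ((isCompact_ball P C₀).prod (isCompact_ball_left Q C₂)) ?_
  · refine ((h₀.cont.comp (continuous_cu' continuous_const continuous_fst)).mul
      (h₁.cont.comp (continuous_cu' continuous_fst continuous_snd))).mul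
      (h₂.cont.comp (continuous_cu' continuous_snd continuous_const))
  · rintro ⟨y, z⟩ hyz
    change k₀ (cu P y) * k₁ (cu y z) * k₂ (cu z Q) = 0
    by_cases hy : cu P y ≤ C₀
    · by_cases hz : cu z Q ≤ C₂
      · exact absurd ⟨hy, hz⟩ hyz
      · rw [hC₂ _ (le_of_lt (not_le.mp hz)), mul_zero]
    · rw [hC₀ _ (le_of_lt (not_le.mp hy)), zero_mul, zero_mul]

/-- **The product of three radial kernels is radial.** -/
theorem kcomp3_rk {k₀ k₁ k₂ : ℝ → ℂ} (h₀ : IsKer k₀) (h₁ : IsKer k₁) (h₂ : IsKer k₂)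
    (P Q : H3) :
    kcomp3 volume (rk k₀) (rk k₁) (rk k₂) P Q = kap0 (kap0 k₀ k₁) k₂ (cu P Q) := by
  rw [← kap_eq_kap0, kap, kcomp3]
  unfold rk
  rw [integral_prod_symm _ (integrable_three h₀ h₁ h₂ P Q)]
  refine integral_congr_ae (Filter.Eventually.of_forall fun z => ?_)
  change ∫ y : H3, k₀ (cu P y) * k₁ (cu y z) * k₂ (cu z Q) = kap0 k₀ k₁ (cu P z) * k₂ (cu z Q)
  rw [integral_mul_const, ← kap_eq_kap0, kap]

variable {K L : Type*} [Field K] [Field L] [Algebra K L]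

/-- the transferred radial kernel -/
def kDown (κ : InfinitePlace L → ℝ → ℂ) (e : Fin 3 ≃ InfinitePlace L) : ℝ → ℂ :=
  kap0 (kap0 (κ (e 0)) (κ (e 1))) (κ (e 2))

omit [Field K] [Algebra K L] in
theorem isKer_kDown {κ : InfinitePlace L → ℝ → ℂ} (hκ : ∀ w, IsKer (κ w))
    (e : Fin 3 ≃ InfinitePlace L) : IsKer (kDown κ e) :=
  isKer_kap0 (isKer_kap0 (hκ _) (hκ _)) (hκ _)

omit [Algebra K L] in
/-- **`kerDown` is a radial kernel.** -/
theorem kerDown_eq_kerXi [Unique (InfinitePlace K)] [NumberField K]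
    {κ : InfinitePlace L → ℝ → ℂ} (hκ : ∀ w, IsKer (κ w)) (e : Fin 3 ≃ InfinitePlace L) :
    kerDown (K := K) κ e = kerXi fun _ => kDown κ e := by
  funext y y'
  unfold kerDown kerXi
  rw [kcomp3_rk (hκ _) (hκ _) (hκ _)]
  have h : (Finset.univ : Finset (InfinitePlace K)) = {default} := by
    ext v
    simp [Subsingleton.elim v default]
  rw [h, Finset.prod_singleton]
  rfl

section main

variable [NumberField K] [NumberField L]
  {A B : Type*} [MulAction (GL (Fin 2) L) A] [TrivScalar L A] [MulAction (GL (Fin 2) K) B]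
  [TrivScalar K B] [Countable A] [MeasurableSpace A] [MeasurableSingletonClass A] [Countable B]
  [MeasurableSpace B] [MeasurableSingletonClass B] [Countable (PG L)] [Countable (PG K)]
  {τ : L ≃ₐ[K] L} {w : Xi L × A → ℝ≥0∞} {w' : Xi K × B → ℝ≥0∞}

/-- **Comparison of the geometric sides for product kernels**, radial form on both sides. -/
theorem integral_aut_eq_radial [IsTotallyComplex L] [Unique (InfinitePlace K)] (hτ : Cyc3 τ)
    {e : Fin 3 ≃ InfinitePlace L} (he : CycPlaces τ e)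
    (hw : IsWeight (PG L) w) (hw' : IsWeight (PG K) w')
    {κ : InfinitePlace L → ℝ → ℂ} (hκ : ∀ w, IsKer (κ w)) {a : A → A → ℂ} {b : B → B → ℂ}
    {tA : A → A} (htA : ∀ (g : PG L) d, tA (g • d) = pt τ g • tA d)
    (ha : ∀ (g : PG L) x y, a (g • x) (g • y) = a x y)
    (hb : ∀ (g : PG K) x y, b (g • x) (g • y) = b x y)
    (hfin : ∫⁻ z, ∑' δ : PG L,
      ‖pker (kerXi κ) a z (δ • Prod.map (Xi.tau (τ : L ≃+* L)) tA z)‖ₑ
      ∂(muZ L A).withDensity w ≠ ∞)
    (hfin' : ∫⁻ z, ∑' δ : PG K, ‖pker (kerXi fun _ => kDown κ e) b z (δ • z)‖ₑ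
      ∂(muZ K B).withDensity w' ≠ ∞)
    (hL : ∀ x : PG L, ¬ PEll (pnm τ x) → ∀ z : Xi L × A,
      pker (kerXi κ) a z (x • Prod.map (Xi.tau (τ : L ≃+* L)) tA z) = 0)
    (hK : ∀ γ : PG K, ¬ PEll γ → ∀ z : Xi K × B,
      pker (kerXi fun _ => kDown κ e) b z (γ • z) = 0)
    (hK' : ∀ γ : PG K, PEll γ → ¬ IsPNorm τ γ → ∀ z : Xi K × B,
      pker (kerXi fun _ => kDown κ e) b z (γ • z) = 0)
    (hD : ∀ (x₀ : PG L) (γ : PG K), PEll γ → pnm τ x₀ = pup L γ →
      ∃ p : A → B, PushD (L := L) γ p (fun d => a d (x₀ • tA d)) fun d => b d (γ • d)) :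
    ∫ z, aut (PG L) (pker (kerXi κ) a) z (Prod.map (Xi.tau (τ : L ≃+* L)) tA z)
        ∂(muZ L A).withDensity w =
      ∫ z, aut (PG K) (pker (kerXi fun _ => kDown κ e) b) z z ∂(muZ K B).withDensity w' := by
  have hd := kerDown_eq_kerXi (K := K) hκ e
  rw [← hd] at hfin' hK hK' ⊢
  exact integral_aut_eq_prod hτ he hw hw' (fun w => (hκ w).cont.measurable) htA ha hb hfin hfin'
    hL hK hK' hD

end main

end Fermat.Agent.LT.Dict

end
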