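import Fermat.Agent.LT.Tr.Sym
import Fermat.Agent.LT.Auto.Sym
import Fermat.Agent.LT.Tr.Down

/-!
# The semigroup of kernels at infinity (helper37)

`kerSg F` : `Kinf F` as a semigroup of full kernels on `Xi F`, in the form of `Auto/Sym.lean`;
`kerSgOf i` : the same for any semigroup mapping to `Kinf F`. The kernel of a symbol is `kfull`,
and the transferred kernel is the one of `Tr/Down.lean`.
-/

set_option autoImplicit false

noncomputable section

open MeasureTheory Set NumberField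
open scoped ENNReal

namespace Fermat.Agent.LT.Tr

open H3

variable {F : Type*} [Field F] [NumberField F]

theorem fullHyp (k : Kinf F) : ∃ C, FullHyp (PG F) (volume : Measure (Xi F)) k.ker C := by
  obtain ⟨C, hC, h1, h2⟩ := k.exists_row_bound
  exact ⟨C, k.measurable_ker, k.ker_psmul, hC, h1, h2⟩

/-- A semigroup of kernels at infinity. -/
def kerSgOf {𝒦 : Type*} [Mul 𝒦] (i : 𝒦 → Kinf F) (hi : ∀ k l, i (k * l) = i k * i l) :
    KerSg (PG F) (volume : Measure (Xi F)) 𝒦 where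
  kap k := (i k).ker
  hyp k := fullHyp (i k)
  mul k l x x'' := by rw [hi, Kinf.ker_mul]

variable (F) in
/-- The semigroup of all kernels at infinity. -/
def kerSg : KerSg (PG F) (volume : Measure (Xi F)) (Kinf F) := kerSgOf id fun _ _ => rfl

theorem kerSgOf_kap {𝒦 : Type*} [Mul 𝒦] (i : 𝒦 → Kinf F) (hi : ∀ k l, i (k * l) = i k * i l)
    (k : 𝒦) : (kerSgOf i hi).kap k = (i k).ker := rfl

theorem kerSgOf_star {𝒦 : Type*} [Mul 𝒦] [Star 𝒦] (i : 𝒦 → Kinf F)
    (hi : ∀ k l, i (k * l) = i k * i l) (hs : ∀ k, i (star k) = star (i k)) (k : 𝒦)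
    (x x' : Xi F) : (kerSgOf i hi).kap (star k) x x' =
      starRingEnd ℂ ((kerSgOf i hi).kap k x' x) := by
  rw [kerSgOf_kap, kerSgOf_kap, hs, Kinf.ker_star, Kinf.ker_comm]

theorem kerSgOf_bounded {𝒦 : Type*} [Mul 𝒦] (i : 𝒦 → Kinf F)
    (hi : ∀ k l, i (k * l) = i k * i l) (k : 𝒦) :
    ∃ M : ℝ, 0 ≤ M ∧ ∀ x x' : Xi F, ‖(kerSgOf i hi).kap k x x'‖ ≤ M := (i k).exists_bound

theorem kerSgOf_support {𝒦 : Type*} [Mul 𝒦] (i : 𝒦 → Kinf F)
    (hi : ∀ k l, i (k * l) = i k * i l) (k : 𝒦) : ∃ R : ℝ, 0 < R ∧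
    ∀ x x' : Xi F, (kerSgOf i hi).kap k x x' ≠ 0 → ∀ w, cu (x w) (x' w) ≤ R :=
  (i k).exists_support

section level

variable {D : Type*} [MulAction (GL (Fin 2) F) D] [TrivScalar F D]

theorem sker_kerSgOf {𝒦 : Type*} [Mul 𝒦] (i : 𝒦 → Kinf F) (hi : ∀ k l, i (k * l) = i k * i l)
    (k : 𝒦) (a : HK (PG F) D) : sker (kerSgOf i hi) k a = kfull (i k) a := rfl

theorem sker_kerSg (k : Kinf F) (a : HK (PG F) D) : sker (kerSg F) k a = kfull k a := rfl

theorem kfull_eq_pker (k : Kinf F) (a : HK (PG F) D) :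
    kfull k a = Dict.pker (Dict.kerXi fun w => (k w).fn) a.ker := rfl

end level

/-- the transfer, when `L` has exactly the three places `e i` -/
def tinf3 {K L : Type*} [Field K] [Field L] (e : Fin 3 ≃ InfinitePlace L) (k : Kinf L) : Kinf K :=
  tinf (fun p => e p.1) k

theorem tinf3_mul {K L : Type*} [Field K] [Field L] (e : Fin 3 ≃ InfinitePlace L)
    (k l : Kinf L) : (tinf3 e (k * l) : Kinf K) = tinf3 e k * tinf3 e l := tinf_mul _ _ _

theorem tinf3_apply {K L : Type*} [Field K] [Field L] (e : Fin 3 ≃ InfinitePlace L) (k : Kinf L)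
    (v : InfinitePlace K) : (tinf3 e k : Kinf K) v = k (e 0) * k (e 1) * k (e 2) := rfl

theorem fn_tinf3 {K L : Type*} [Field K] [Field L] (e : Fin 3 ≃ InfinitePlace L) (k : Kinf L)
    (v : InfinitePlace K) : ((tinf3 e k : Kinf K) v).fn = Dict.kDown (fun w => (k w).fn) e := rfl

theorem kfull_tinf3 {K L : Type*} [Field K] [Field L] [NumberField K] {D : Type*}
    [MulAction (GL (Fin 2) K) D] [TrivScalar K D] (e : Fin 3 ≃ InfinitePlace L) (k : Kinf L)
    (a : HK (PG K) D) : kfull (tinf3 e k : Kinf K) a =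
      Dict.pker (Dict.kerXi fun _ => Dict.kDown (fun w => (k w).fn) e) a.ker := rfl

end Fermat.Agent.LT.Tr

end
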