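import Fermat.Agent.LT.Tr.PushInf

/-!
# The infinite places: `K` imaginary quadratic, `L / K` cyclic of degree three
-/

set_option autoImplicit false

noncomputable section

open NumberField Matrix

namespace Fermat.Agent.LT.Dict

variable {K L : Type*} [Field K] [Field L] [Algebra K L] [NumberField L]

/-- A totally complex field of degree two has one infinite place. -/
@[reducible] def uniquePlace (K : Type*) [Field K] [NumberField K] [IsTotallyComplex K]
    (h : Module.finrank ℚ K = 2) : Unique (InfinitePlace K) := by
  classical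
  have h1 := InfinitePlace.card_add_two_mul_card_eq_rank K
  have h2 : InfinitePlace.nrRealPlaces K = 0 := nrRealPlaces_eq_zero_iff.mpr inferInstance
  have h3 := InfinitePlace.card_eq_nrRealPlaces_add_nrComplexPlaces K
  have h4 : Fintype.card (InfinitePlace K) = 1 := by omega
  have e : InfinitePlace K ≃ Unit := Fintype.equivOfCardEq (by rw [h4]; rfl)
  exact e.unique

theorem card_places (h : Module.finrank ℚ L = 6) [IsTotallyComplex L] :
    Fintype.card (InfinitePlace L) = 3 := by
  classical
  have h1 := InfinitePlace.card_add_two_mul_card_eq_rank L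
  have h2 : InfinitePlace.nrRealPlaces L = 0 := nrRealPlaces_eq_zero_iff.mpr inferInstance
  have h3 := InfinitePlace.card_eq_nrRealPlaces_add_nrComplexPlaces L
  omega

variable {τ : L ≃ₐ[K] L}

/-- the action on the places -/
def cm (τ : L ≃ₐ[K] L) (w : InfinitePlace L) : InfinitePlace L :=
  w.comap ((τ : L ≃+* L) : L →+* L)

omit [NumberField L] in
theorem cm_three (hτ : Cyc3 τ) (w : InfinitePlace L) : cm τ (cm τ (cm τ w)) = w := by
  apply InfinitePlace.ext
  intro x
  show w (τ (τ (τ x))) = w x
  rw [hτ.cube]

omit [NumberField L] in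
theorem cm_ne (hτ : Cyc3 τ) (w : InfinitePlace L) : cm τ w ≠ w := by
  intro h
  have h1 : InfinitePlace.mk (w.embedding.comp ((τ : L ≃+* L) : L →+* L)) =
      InfinitePlace.mk w.embedding := by
    rw [← InfinitePlace.comap_mk, InfinitePlace.mk_embedding]
    exact h
  obtain ⟨x, hx⟩ := hτ.ne
  rcases InfinitePlace.mk_eq_iff.mp h1 with h2 | h2
  · have h3 := RingHom.congr_fun h2 x
    exact hx (w.embedding.injective h3)
  · -- `conj (φ (τ x)) = φ x`
    have h3 : ∀ y, (starRingEnd ℂ) (w.embedding (τ y)) = w.embedding y := fun y =>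
      RingHom.congr_fun h2 y
    have h4 : ∀ y, w.embedding (τ (τ y)) = w.embedding y := by
      intro y
      rw [← h3 y, ← h3 (τ y), Complex.conj_conj]
    have h5 : τ (τ x) = x := w.embedding.injective (h4 x)
    have h6 := hτ.cube x
    rw [h5] at h6
    exact hx h6

/-- **The three places of `L`, permuted cyclically.** -/
theorem exists_cycPlaces (hτ : Cyc3 τ) (h : Module.finrank ℚ L = 6) [IsTotallyComplex L] :
    ∃ e : Fin 3 ≃ InfinitePlace L, CycPlaces τ e := by
  classical
  have hcard := card_places (L := L) h
  obtain ⟨w⟩ : Nonempty (InfinitePlace L) := by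
    rw [← Fintype.card_pos_iff, hcard]
    norm_num
  let f : Fin 3 → InfinitePlace L := ![w, cm τ w, cm τ (cm τ w)]
  have h01 : w ≠ cm τ w := (cm_ne hτ w).symm
  have h12 : cm τ w ≠ cm τ (cm τ w) := (cm_ne hτ _).symm
  have h20 : cm τ (cm τ w) ≠ w := by
    intro h
    have h3 := cm_three hτ w
    rw [h] at h3
    exact cm_ne hτ w h3
  have hf : Function.Injective f := by
    intro i j hij
    fin_cases i <;> fin_cases j
    · rfl
    · exact absurd hij h01
    · exact absurd hij.symm h20
    · exact absurd hij.symm h01
    · rfl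
    · exact absurd hij h12
    · exact absurd hij h20
    · exact absurd hij.symm h12
    · rfl
  have hb : Function.Bijective f := by
    rw [Fintype.bijective_iff_injective_and_card]
    exact ⟨hf, by rw [hcard, Fintype.card_fin]⟩
  refine ⟨Equiv.ofBijective f hb, ⟨fun i => ?_⟩⟩
  fin_cases i
  · rfl
  · rfl
  · show cm τ (cm τ (cm τ w)) = w
    exact cm_three hτ w

end Fermat.Agent.LT.Dict

end
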