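import Fermat.Agent.LT.Tr.Dict

/-!
# Comparison of sums over twisted classes of `PGL₂(L)` and classes of `PGL₂(K)`
-/

set_option autoImplicit false

noncomputable section

namespace Fermat.Agent.LT.Dict

open Matrix

variable {K L : Type*} [Field K] [Field L] [Algebra K L]

/-- twisted classes of a group -/
abbrev TwCls {G : Type*} [Group G] (σ : G ≃* G) : Type _ :=
  Quotient (MulAction.orbitRel G (Tw σ))

/-- the twisted class of an element -/
def tcl {G : Type*} [Group G] (σ : G ≃* G) (x : G) : TwCls σ := Quotient.mk'' (Tw.of σ x)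

theorem tcl_surjective {G : Type*} [Group G] (σ : G ≃* G) : Function.Surjective (tcl σ) := by
  intro c
  induction c using Quotient.inductionOn' with
  | h a => exact ⟨(Tw.of σ).symm a, rfl⟩

theorem tcl_eq_iff {G : Type*} [Group G] {σ : G ≃* G} {x y : G} :
    tcl σ x = tcl σ y ↔ Tw.of σ x ∈ MulAction.orbit G (Tw.of σ y) := by
  rw [tcl, tcl, Quotient.eq'']
  rfl

/-- classes of `PGL₂(K)` which are elliptic with non-zero trace and norms from `L` -/
def IsPNorm (τ : L ≃ₐ[K] L) (γ : PG K) : Prop := ∃ x : PG L, IsConj (pnm τ x) (pup L γ)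

variable {τ : L ≃ₐ[K] L} (hτ : Cyc3 τ)
include hτ

/-- **Comparison of class sums.**  `OL` is a function on the twisted classes of `PGL₂(L)` which
vanishes at the classes with non-elliptic norm, `OK` a function on the conjugacy classes of
`PGL₂(K)` which vanishes outside the elliptic norm classes; matching values. -/
theorem hasSum_classes_iff {OL : TwCls (pt τ) → ℂ} {OK : TwCls (MulEquiv.refl (PG K)) → ℂ}
    (hL : ∀ x : PG L, ¬ PEll (pnm τ x) → OL (tcl (pt τ) x) = 0)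
    (hK : ∀ γ : PG K, ¬ PEll γ → OK (tcl (MulEquiv.refl (PG K)) γ) = 0)
    (hK' : ∀ γ : PG K, PEll γ → ¬ IsPNorm τ γ → OK (tcl (MulEquiv.refl (PG K)) γ) = 0)
    (hLK : ∀ (x : PG L) (γ : PG K), PEll γ → pnm τ x = pup L γ →
      OL (tcl (pt τ) x) = OK (tcl (MulEquiv.refl (PG K)) γ)) (a : ℂ) :
    HasSum OK a ↔ HasSum OL a := by
  classical
  have hrepL : ∀ ω : TwCls (pt τ), OL ω ≠ 0 →
      ∃ (x : PG L) (γ : PG K), tcl (pt τ) x = ω ∧ PEll γ ∧ pnm τ x = pup L γ := by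
    intro ω hω
    obtain ⟨x, rfl⟩ := tcl_surjective _ ω
    have hx : PEll (pnm τ x) := by
      by_contra h
      exact hω (hL x h)
    obtain ⟨γ, hγ, hc⟩ := exists_isConj_pup hτ hx
    obtain ⟨y, hy, hyγ⟩ := exists_rep_pnm hτ hγ hc
    exact ⟨y, γ, tcl_eq_iff.mpr hy, hγ, hyγ⟩
  choose! X Γ hX hΓ hXΓ using hrepL
  let i : Function.support OL → TwCls (MulEquiv.refl (PG K)) :=
    fun ω => tcl (MulEquiv.refl (PG K)) (Γ ω)
  have hval : ∀ ω : Function.support OL, OK (i ω) = OL ω := by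
    intro ω
    have h1 := hLK (X ω) (Γ ω) (hΓ _ ω.2) (hXΓ _ ω.2)
    rw [hX _ ω.2] at h1
    exact h1.symm
  refine hasSum_iff_hasSum_of_ne_zero_bij i ?_ ?_ hval
  · -- injectivity
    rintro ⟨ω, hω⟩ ⟨ω', hω'⟩ h
    simp only [i] at h
    rw [tcl_eq_iff, tw_mem_orbit_refl_iff] at h
    apply Subtype.ext
    change ω = ω'
    have h1 : IsConj (pup L (Γ ω')) (pup L (Γ ω)) := (pup L).map_isConj h
    rw [← hXΓ _ hω, ← hXΓ _ hω'] at h1
    have h2 : PEll (pnm τ (X ω')) := by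
      rw [hXΓ _ hω', pell_pup hτ]
      exact hΓ _ hω'
    rw [← mem_orbit_iff_isConj hτ h2, ← tcl_eq_iff] at h1
    rw [← hX _ hω, ← hX _ hω', h1]
  · -- range
    intro c hc
    obtain ⟨γ, rfl⟩ := tcl_surjective _ c
    have hc' : OK (tcl (MulEquiv.refl (PG K)) γ) ≠ 0 := hc
    have hγ : PEll γ := by
      by_contra h
      exact hc' (hK γ h)
    obtain ⟨x₀, hx₀⟩ : IsPNorm τ γ := by
      by_contra h
      exact hc' (hK' γ hγ h)
    obtain ⟨x, -, hx⟩ := exists_rep_pnm hτ hγ hx₀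
    have h1 : OL (tcl (pt τ) x) ≠ 0 := by
      rw [hLK x γ hγ hx]
      exact hc'
    refine ⟨⟨tcl (pt τ) x, h1⟩, ?_⟩
    simp only [i]
    rw [tcl_eq_iff, tw_mem_orbit_refl_iff, ← isConj_pup_iff (L := L) hγ (hΓ _ h1), ← hXΓ _ h1, ← hx]
    have h2 : PEll (pnm τ x) := by
      rw [hx, pell_pup hτ]
      exact hγ
    rw [← mem_orbit_iff_isConj hτ h2, ← tcl_eq_iff, hX _ h1]

theorem tsum_classes_eq {OL : TwCls (pt τ) → ℂ} {OK : TwCls (MulEquiv.refl (PG K)) → ℂ}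
    (hL : ∀ x : PG L, ¬ PEll (pnm τ x) → OL (tcl (pt τ) x) = 0)
    (hK : ∀ γ : PG K, ¬ PEll γ → OK (tcl (MulEquiv.refl (PG K)) γ) = 0)
    (hK' : ∀ γ : PG K, PEll γ → ¬ IsPNorm τ γ → OK (tcl (MulEquiv.refl (PG K)) γ) = 0)
    (hLK : ∀ (x : PG L) (γ : PG K), PEll γ → pnm τ x = pup L γ →
      OL (tcl (pt τ) x) = OK (tcl (MulEquiv.refl (PG K)) γ)) :
    ∑' ω, OL ω = ∑' c, OK c := by
  by_cases h : Summable OL
  · exact ((hasSum_classes_iff hτ hL hK hK' hLK _).mpr h.hasSum).tsum_eq.symm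
  · have h' : ¬ Summable OK := fun ⟨a, ha⟩ => h ⟨a, (hasSum_classes_iff hτ hL hK hK' hLK a).mp ha⟩
    rw [tsum_eq_zero_of_not_summable h, tsum_eq_zero_of_not_summable h']

end Fermat.Agent.LT.Dict

end
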