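import Fermat.Agent.LT.H3.Radial
import Fermat.Agent.LT.H3.Pi
import Fermat.Agent.LT.Space
import Fermat.Agent.LT.Kernel
import Fermat.Agent.LT.HK.Basic

/-!
# Symbols: the bookkeeping of Hecke words and radial kernels (helper37)

* `Rad`: radial kernels of compact support on `H3`, a commutative semigroup under composition;
* `Kinf F`: one radial kernel for every infinite place; `Kinf.ker` its kernel on `Xi F`;
* `Sym F D`: the monoid `WithOne (Kinf F) × HK (PG F) D`;
* `kfull k a`: the kernel `k ⊗ a` on `Xi F × D`, `kcomp_kfull`: composition.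
-/

set_option autoImplicit false

noncomputable section

open MeasureTheory Set
open scoped ENNReal

namespace Fermat.Agent.LT.Tr

open H3

/-! ### Radial kernels -/

/-- Radial kernels of bounded support, normalised to be constant for `t ≤ 1`. -/
def Rad : Type := {k : ℝ → ℂ // IsKer k ∧ ∀ t ≤ 1, k t = k 1}

namespace Rad

/-- the function `cosh r ↦ k` -/
def fn (k : Rad) : ℝ → ℂ := k.1

theorem isKer (k : Rad) : IsKer k.fn := k.2.1

theorem fn_of_le (k : Rad) {t : ℝ} (ht : t ≤ 1) : k.fn t = k.fn 1 := k.2.2 t ht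

theorem continuous (k : Rad) : Continuous k.fn := k.isKer.cont

theorem ext_Ici {k l : Rad} (h : EqOn k.fn l.fn (Ici 1)) : k = l := by
  refine Subtype.ext (funext fun t => ?_)
  rcases le_total t 1 with ht | ht
  · change k.fn t = l.fn t
    rw [k.fn_of_le ht, l.fn_of_le ht]
    exact h (mem_Ici.mpr le_rfl)
  · exact h ht

@[ext]
theorem ext_fn {k l : Rad} (h : k.fn = l.fn) : k = l := Subtype.ext h

theorem ext_abel {k l : Rad} (h : abel k.fn = abel l.fn) : k = l := by
  obtain ⟨C, hC⟩ := k.isKer.bdd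
  obtain ⟨C', hC'⟩ := l.isKer.bdd
  exact ext_Ici (eqOn_of_abel_eq k.continuous hC l.continuous hC' h)

/-- normalisation of a kernel -/
def of (k : ℝ → ℂ) (h : IsKer k) : Rad :=
  ⟨fun t => k (max t 1), ⟨h.cont.comp (continuous_id.max continuous_const), by
    obtain ⟨C, hC⟩ := h.bdd
    exact ⟨C, fun t ht => hC _ (ht.trans (le_max_left _ _))⟩⟩, fun t ht => by
      change k (max t 1) = k (max 1 1)
      rw [max_eq_right ht, max_eq_right le_rfl]⟩

theorem of_fn {k : ℝ → ℂ} (h : IsKer k) {t : ℝ} (ht : 1 ≤ t) : (of k h).fn t = k t := by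
  change k (max t 1) = k t
  rw [max_eq_left ht]

theorem of_cu {k : ℝ → ℂ} (h : IsKer k) (P Q : H3) : (of k h).fn (cu P Q) = k (cu P Q) :=
  of_fn h (one_le_cu P Q)

theorem abel_of {k : ℝ → ℂ} (h : IsKer k) : abel (of k h).fn = abel k := by
  funext r
  unfold abel
  congr 1
  refine setIntegral_congr_fun measurableSet_Ioi fun t ht => ?_
  exact of_fn h ((Real.one_le_cosh r).trans (le_of_lt ht))

instance : Mul Rad := ⟨fun k l => ⟨kap0 k.fn l.fn, isKer_kap0 k.isKer l.isKer, fun t ht => by
  unfold kap0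
  rw [max_eq_right ht, max_eq_right le_rfl]⟩⟩

theorem mul_fn (k l : Rad) : (k * l).fn = kap0 k.fn l.fn := rfl

theorem abel_mul (k l : Rad) : abel (k * l).fn = cv (abel k.fn) (abel l.fn) :=
  abel_kap0 k.isKer l.isKer

/-- composition of radial kernels -/
theorem mul_cu (k l : Rad) (P Q : H3) :
    (k * l).fn (cu P Q) = ∫ W : H3, k.fn (cu P W) * l.fn (cu W Q) :=
  (kap_eq_kap0 P Q).symm

theorem cv_assoc {f g h : ℝ → ℂ} (hf : Continuous f) (hfs : HasCompactSupport f)
    (hg : Continuous g) (hgs : HasCompactSupport g) (hh : Continuous h)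
    : cv (cv f g) h = cv f (cv g h) := by
  funext x
  rw [cv_eq, cv_eq, cv_eq, cv_eq]
  refine convolution_assoc (L := ContinuousLinearMap.mul ℝ ℂ)
    (L₂ := ContinuousLinearMap.mul ℝ ℂ) (L₃ := ContinuousLinearMap.mul ℝ ℂ)
    (L₄ := ContinuousLinearMap.mul ℝ ℂ) (fun a b c => ?_) hf.aestronglyMeasurable
    hg.aestronglyMeasurable hh.aestronglyMeasurable ?_ ?_ ?_
  · simp only [ContinuousLinearMap.mul_apply', mul_assoc]
  · refine Filter.Eventually.of_forall fun y => ?_
    exact HasCompactSupport.convolutionExists_left (L := ContinuousLinearMap.mul ℝ ℂ) (μ := volume)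
      (f := f) (g := g) hfs hf hg.locallyIntegrable y
  · refine Filter.Eventually.of_forall fun y => ?_
    exact HasCompactSupport.convolutionExists_left (L := ContinuousLinearMap.mul ℝ ℝ) (μ := volume)
      (f := fun x => ‖g x‖) (g := fun x => ‖h x‖) hgs.norm hg.norm hh.norm.locallyIntegrable y
  · refine HasCompactSupport.convolutionExists_left (L := ContinuousLinearMap.mul ℝ ℝ) (μ := volume)
      (f := fun x => ‖f x‖) hfs.norm hf.norm ?_ x
    exact (HasCompactSupport.continuous_convolution_left (L := ContinuousLinearMap.mul ℝ ℝ)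
      (μ := volume) hgs.norm hg.norm hh.norm.locallyIntegrable).locallyIntegrable

instance : CommSemigroup Rad where
  mul_assoc k l m := by
    refine ext_abel ?_
    rw [abel_mul, abel_mul, abel_mul, abel_mul]
    exact cv_assoc k.isKer.contDiff_abel.continuous k.isKer.hasCompactSupport_abel
      l.isKer.contDiff_abel.continuous l.isKer.hasCompactSupport_abel
      m.isKer.contDiff_abel.continuous
  mul_comm k l := by
    refine ext_abel ?_
    rw [abel_mul, abel_mul, cv_comm]

instance : Zero Rad := ⟨⟨fun _ => 0, ⟨continuous_const, 0, fun _ _ => rfl⟩, fun _ _ => rfl⟩⟩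

instance : Inhabited Rad := ⟨0⟩

/-- complex conjugation -/
instance : Star Rad := ⟨fun k => ⟨fun t => starRingEnd ℂ (k.fn t), k.isKer.star, fun t ht => by
  change starRingEnd ℂ (k.fn t) = starRingEnd ℂ (k.fn 1)
  rw [k.fn_of_le ht]⟩⟩

theorem star_fn (k : Rad) (t : ℝ) : (star k).fn t = starRingEnd ℂ (k.fn t) := rfl

theorem star_mul' (k l : Rad) : star (k * l) = star k * star l := by
  refine ext_Ici fun t ht => ?_
  have ht' : 1 ≤ t := ht
  obtain ⟨P, Q, h⟩ : ∃ P Q : H3, cu P Q = t :=
    ⟨hgt 0, hgt (Real.arcosh t), by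
      rw [cu_hgt, zero_sub, Real.cosh_neg, Real.cosh_arcosh ht']⟩
  subst h
  rw [star_fn, mul_cu, mul_cu, ← integral_conj]
  refine integral_congr_ae (Filter.Eventually.of_forall fun W => ?_)
  simp only [star_fn, map_mul]

theorem exists_bound (k : Rad) : ∃ M : ℝ, 0 ≤ M ∧ ∀ t, ‖k.fn t‖ ≤ M := by
  obtain ⟨C, hC⟩ := k.isKer.bdd
  obtain ⟨M, hM⟩ := (isCompact_Icc (a := (1 : ℝ)) (b := max C 1)).exists_bound_of_continuousOn
    k.continuous.continuousOn
  refine ⟨max M 0, le_max_right _ _, fun t => ?_⟩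
  rcases le_total t 1 with ht | ht
  · rw [k.fn_of_le ht]
    exact (hM 1 ⟨le_rfl, le_max_right _ _⟩).trans (le_max_left _ _)
  · rcases le_total t (max C 1) with h | h
    · exact (hM t ⟨ht, h⟩).trans (le_max_left _ _)
    · rw [hC t ((le_max_left _ _).trans h), norm_zero]
      exact le_max_right _ _

end Rad

/-! ### Kernels at infinity -/

/-- One radial kernel for every infinite place. -/
def Kinf (F : Type*) [Field F] : Type _ := NumberField.InfinitePlace F → Rad

namespace Kinf

variable {F : Type*} [Field F]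

instance : CommSemigroup (Kinf F) := inferInstanceAs (CommSemigroup (_ → Rad))

instance : Star (Kinf F) := ⟨fun k w => star (k w)⟩

instance : Inhabited (Kinf F) := ⟨fun _ => 0⟩

theorem mul_apply (k l : Kinf F) (w : NumberField.InfinitePlace F) : (k * l) w = k w * l w := rfl

theorem star_apply (k : Kinf F) (w : NumberField.InfinitePlace F) : (star k) w = star (k w) := rfl

theorem star_mul' (k l : Kinf F) : star (k * l) = star k * star l :=
  funext fun w => Rad.star_mul' (k w) (l w)

variable [NumberField F]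

/-- the kernel on `Xi F` -/
def ker (k : Kinf F) (x x' : Xi F) : ℂ := pk (fun w => (k w).fn) x x'

theorem ker_def (k : Kinf F) (x x' : Xi F) : k.ker x x' = ∏ w, (k w).fn (cu (x w) (x' w)) := rfl

theorem ker_smul (k : Kinf F) (g : GL (Fin 2) F) (x x' : Xi F) :
    k.ker (g • x) (g • x') = k.ker x x' := by
  unfold ker pk
  refine Finset.prod_congr rfl fun w _ => ?_
  rw [Xi.smul_apply, Xi.smul_apply, cu_smul]

theorem ker_psmul (k : Kinf F) (g : PG F) (x x' : Xi F) :
    k.ker (g • x) (g • x') = k.ker x x' := by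
  obtain ⟨g, rfl⟩ := QuotientGroup.mk_surjective g
  exact k.ker_smul g x x'

theorem ker_comm (k : Kinf F) (x x' : Xi F) : k.ker x x' = k.ker x' x := pk_comm _ _ _

theorem continuous_ker (k : Kinf F) : Continuous (Function.uncurry k.ker) :=
  continuous_pk (k := fun w => (k w).fn) fun w => (k w).continuous

theorem measurable_ker (k : Kinf F) : Measurable (Function.uncurry k.ker) :=
  k.continuous_ker.measurable

theorem ker_star (k : Kinf F) (x x' : Xi F) : (star k).ker x x' = starRingEnd ℂ (k.ker x x') := by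
  rw [ker_def, ker_def, map_prod]
  rfl

theorem ker_mul (k l : Kinf F) (x x'' : Xi F) :
    (k * l).ker x x'' = ∫ x' : Xi F, k.ker x x' * l.ker x' x'' := by
  have h : ∀ x' : Xi F, k.ker x x' * l.ker x' x'' =
      ∏ w, ((k w).fn (cu (x w) (x' w)) * (l w).fn (cu (x' w) (x'' w))) := fun x' => by
    rw [ker_def, ker_def, Finset.prod_mul_distrib]
  simp_rw [h]
  rw [ker_def]
  simp_rw [mul_apply, Rad.mul_cu]
  symm
  exact integral_fintype_prod_volume_eq_prod (𝕜 := ℂ) (ι := NumberField.InfinitePlace F)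
    (E := fun _ => H3)
    fun w (P : H3) => (k w).fn (cu (x w) P) * (l w).fn (cu P (x'' w))

theorem exists_support (k : Kinf F) : ∃ R : ℝ, 0 < R ∧
    ∀ x x' : Xi F, k.ker x x' ≠ 0 → ∀ w, cu (x w) (x' w) ≤ R := by
  choose C hC using fun w => (k w).isKer.bdd
  refine ⟨1 + ∑ w, |C w|, by positivity, fun x x' h w => ?_⟩
  by_contra hw
  push Not at hw
  refine h (Finset.prod_eq_zero (Finset.mem_univ w) (hC w _ ?_))
  have h1 : |C w| ≤ ∑ w, |C w| := Finset.single_le_sum (f := fun w => |C w|)
    (fun _ _ => abs_nonneg _) (Finset.mem_univ w)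
  linarith [le_abs_self (C w)]

theorem exists_bound (k : Kinf F) : ∃ M : ℝ, 0 ≤ M ∧ ∀ x x' : Xi F, ‖k.ker x x'‖ ≤ M := by
  choose M hM0 hM using fun w => (k w).exists_bound
  refine ⟨∏ w, M w, Finset.prod_nonneg fun w _ => hM0 w, fun x x' => ?_⟩
  rw [ker_def, norm_prod]
  exact Finset.prod_le_prod (fun _ _ => norm_nonneg _) fun w _ => hM w _

theorem continuous_ker_right (k : Kinf F) (x : Xi F) : Continuous fun x' : Xi F => k.ker x x' := by
  have h1 : Continuous (Function.uncurry k.ker) := k.continuous_ker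
  exact h1.uncurry_left x

omit [NumberField F] in
theorem hasCompactSupport_of_cu (x : Xi F) (R : ℝ) (f : Xi F → ℂ)
    (h : ∀ x', f x' ≠ 0 → ∀ w, cu (x w) (x' w) ≤ R) : HasCompactSupport f := by
  have hc : IsCompact {x' : Xi F | ∀ w, cu (x w) (x' w) ≤ R} :=
    isCompact_pi_ball (ι := NumberField.InfinitePlace F) x fun _ => R
  refine HasCompactSupport.intro hc fun x' hx' => ?_
  by_contra h'
  exact hx' (h x' h')

theorem hasCompactSupport_ker (k : Kinf F) (x : Xi F) : HasCompactSupport (k.ker x) := by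
  obtain ⟨R, _, hR⟩ := k.exists_support
  exact hasCompactSupport_of_cu x R (k.ker x) fun x' h => hR x x' h

theorem integrable_ker (k : Kinf F) (x : Xi F) : Integrable fun x' : Xi F => k.ker x x' :=
  (k.continuous_ker_right x).integrable_of_hasCompactSupport (k.hasCompactSupport_ker x)

/-- the row integrals of `‖k‖` do not depend on the point. -/
theorem integral_norm_ker (k : Kinf F) (x : Xi F) : ∫ x' : Xi F, ‖k.ker x x'‖ =
    ∏ w, ∫ P : H3, ‖(k w).fn (cu (x w) P)‖ := by
  have h : ∀ x' : Xi F, ‖k.ker x x'‖ = ∏ w, ‖(k w).fn (cu (x w) (x' w))‖ := fun x' => by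
    rw [ker_def, norm_prod]
  simp_rw [h]
  exact integral_fintype_prod_volume_eq_prod (𝕜 := ℝ) (ι := NumberField.InfinitePlace F)
    (E := fun _ => H3) fun w (P : H3) => ‖(k w).fn (cu (x w) P)‖

theorem exists_row_bound (k : Kinf F) : ∃ C : ℝ≥0∞, C ≠ ∞ ∧
    (∀ x : Xi F, ∫⁻ x' : Xi F, ‖k.ker x x'‖ₑ ≤ C) ∧
    ∀ x : Xi F, ∫⁻ x' : Xi F, ‖k.ker x' x‖ₑ ≤ C := by
  have h1 : ∀ x : Xi F, ∫⁻ x' : Xi F, ‖k.ker x x'‖ₑ =
      ENNReal.ofReal (∏ w, ∫ P : H3, ‖(k w).fn (cu ((default : Xi F) w) P)‖) := fun x => by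
    rw [← ofReal_integral_norm_eq_lintegral_enorm (k.integrable_ker x), integral_norm_ker]
    congr 1
    exact Finset.prod_congr rfl fun w _ => integral_radial_eq (fun t => ‖(k w).fn t‖) _ _
  refine ⟨_, ENNReal.ofReal_ne_top, fun x => (h1 x).le, fun x => ?_⟩
  simp_rw [k.ker_comm _ x]
  exact (h1 x).le

end Kinf

/-! ### Full kernels -/

section full

variable {F : Type*} [Field F] [NumberField F] {D : Type*} [MulAction (GL (Fin 2) F) D]
  [TrivScalar F D]

/-- The kernel `k ⊗ a` on `Xi F × D`. -/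
def kfull (k : Kinf F) (a : HK (PG F) D) (z z' : Xi F × D) : ℂ := k.ker z.1 z'.1 * a.ker z.2 z'.2

theorem kfull_smul (k : Kinf F) (a : HK (PG F) D) (g : PG F) (z z' : Xi F × D) :
    kfull k a (g • z) (g • z') = kfull k a z z' := by
  unfold kfull
  rw [Prod.smul_fst, Prod.smul_fst, Prod.smul_snd, Prod.smul_snd, k.ker_psmul, a.ker_smul_smul]

theorem kfull_star (k : Kinf F) (a : HK (PG F) D) (z z' : Xi F × D) :
    kfull (star k) (star a) z z' = starRingEnd ℂ (kfull k a z' z) := by
  unfold kfull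
  rw [k.ker_star, k.ker_comm, HK.ker_star, map_mul]
  rfl

theorem kfull_smul_right (k : Kinf F) (c : ℂ) (a : HK (PG F) D) (z z' : Xi F × D) :
    kfull k (c • a) z z' = c * kfull k a z z' := by
  unfold kfull
  rw [HK.ker_smul]
  ring

theorem kfull_add_right (k : Kinf F) (a b : HK (PG F) D) (z z' : Xi F × D) :
    kfull k (a + b) z z' = kfull k a z z' + kfull k b z z' := by
  unfold kfull
  rw [HK.ker_add]
  ring

section meas

variable [MeasurableSpace D] [MeasurableSingletonClass D] [Countable D]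

theorem measurable_kfull (k : Kinf F) (a : HK (PG F) D) :
    Measurable (Function.uncurry (kfull k a)) := by
  have h1 : Measurable fun p : D × D => a.ker p.1 p.2 := Measurable.of_discrete
  exact (k.measurable_ker.comp ((measurable_fst.comp measurable_fst).prodMk
    (measurable_fst.comp measurable_snd))).mul
    (h1.comp ((measurable_snd.comp measurable_fst).prodMk (measurable_snd.comp measurable_snd)))

/-- **Composition** of full kernels. -/
theorem kcomp_kfull (k l : Kinf F) (a b : HK (PG F) D) :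
    kcomp (muZ F D) (kfull k a) (kfull l b) = kfull (k * l) (a * b) := by
  funext z z''
  unfold kcomp kfull muZ
  have h1 : ∀ z' : Xi F × D, k.ker z.1 z'.1 * a.ker z.2 z'.2 * (l.ker z'.1 z''.1 * b.ker z'.2 z''.2) =
      (k.ker z.1 z'.1 * l.ker z'.1 z''.1) * (a.ker z.2 z'.2 * b.ker z'.2 z''.2) := fun z' => by ring
  simp_rw [h1]
  rw [integral_prod_mul (fun x' : Xi F => k.ker z.1 x' * l.ker x' z''.1)
    (fun d' : D => a.ker z.2 d' * b.ker d' z''.2), k.ker_mul l, HK.ker_mul_tsum]
  congr 1
  have hs : Summable fun d' : D => a.ker z.2 d' * b.ker d' z''.2 :=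
    summable_of_hasFiniteSupport ((a.finite_row z.2).subset fun y hy => left_ne_zero_of_mul hy)
  have hi : Integrable (fun d' : D => a.ker z.2 d' * b.ker d' z''.2) Measure.count := by
    rw [integrable_count_iff]
    exact hs.norm
  rw [integral_countable hi]
  refine tsum_congr fun d' => ?_
  rw [measureReal_def, Measure.count_singleton]
  simp

end meas

theorem exists_support_kfull (k : Kinf F) (a : HK (PG F) D) : ∃ (R : ℝ) (Nb : D → Finset D), 0 < R ∧
    ∀ z z' : Xi F × D, kfull k a z z' ≠ 0 → (∀ w, cu (z.1 w) (z'.1 w) ≤ R) ∧ z'.2 ∈ Nb z.2 := by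
  obtain ⟨R, hR0, hR⟩ := k.exists_support
  refine ⟨R, fun d => (a.finite_row d).toFinset, hR0, fun z z' h => ⟨?_, ?_⟩⟩
  · exact hR _ _ (left_ne_zero_of_mul h)
  · rw [Set.Finite.mem_toFinset]
    exact right_ne_zero_of_mul h

omit [NumberField F] in
/-- A Hecke kernel on a level is bounded. -/
theorem exists_bound_hk {T : Finset D} (hT : ∀ d, ∃ g : GL (Fin 2) F, g • d ∈ T)
    (a : HK (PG F) D) : ∃ M : ℝ, 0 ≤ M ∧ ∀ d d', ‖a.ker d d'‖ ≤ M := by
  classical
  refine ⟨∑ t ∈ T, ∑ d' ∈ (a.finite_row t).toFinset, ‖a.ker t d'‖, Finset.sum_nonneg fun t _ =>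
    Finset.sum_nonneg fun _ _ => norm_nonneg _, fun d d' => ?_⟩
  obtain ⟨g, hg⟩ := hT d
  rw [← a.ker_smul_smul (QuotientGroup.mk g : PG F) d d', pg_smul, pg_smul]
  by_cases h : a.ker (g • d) (g • d') = 0
  · rw [h, norm_zero]
    exact Finset.sum_nonneg fun t _ => Finset.sum_nonneg fun _ _ => norm_nonneg _
  · refine le_trans (Finset.single_le_sum (f := fun d' => ‖a.ker (g • d) d'‖)
      (fun _ _ => norm_nonneg _) ((a.finite_row (g • d)).mem_toFinset.mpr h)) ?_
    exact Finset.single_le_sum (f := fun t => ∑ d' ∈ (a.finite_row t).toFinset, ‖a.ker t d'‖)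
      (fun _ _ => Finset.sum_nonneg fun _ _ => norm_nonneg _) hg

theorem exists_bound_kfull {T : Finset D} (hT : ∀ d, ∃ g : GL (Fin 2) F, g • d ∈ T)
    (k : Kinf F) (a : HK (PG F) D) : ∃ M : ℝ, 0 ≤ M ∧ ∀ z z', ‖kfull k a z z'‖ ≤ M := by
  obtain ⟨M, hM0, hM⟩ := k.exists_bound
  obtain ⟨M', hM0', hM'⟩ := exists_bound_hk hT a
  refine ⟨M * M', mul_nonneg hM0 hM0', fun z z' => ?_⟩
  unfold kfull
  rw [norm_mul]
  exact mul_le_mul (hM _ _) (hM' _ _) (norm_nonneg _) hM0

end full

/-! ### Symbols -/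

/-- The monoid of symbols: an optional full kernel at infinity and a Hecke kernel. -/
abbrev Sym (F : Type*) [Field F] (D : Type*) [MulAction (GL (Fin 2) F) D] [TrivScalar F D] :
    Type _ := WithOne (Kinf F) × HK (PG F) D

/-- The transfer at infinity, `p (i, v)` are the three places above `v`. -/
def tinf {K L : Type*} [Field K] [Field L]
    (p : Fin 3 × NumberField.InfinitePlace K → NumberField.InfinitePlace L) (k : Kinf L) :
    Kinf K := fun v => k (p (0, v)) * k (p (1, v)) * k (p (2, v))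

theorem tinf_mul {K L : Type*} [Field K] [Field L]
    (p : Fin 3 × NumberField.InfinitePlace K → NumberField.InfinitePlace L) (k l : Kinf L) :
    tinf p (k * l) = tinf p k * tinf p l := by
  funext v
  change k (p (0, v)) * l (p (0, v)) * (k (p (1, v)) * l (p (1, v))) *
    (k (p (2, v)) * l (p (2, v))) = (k (p (0, v)) * k (p (1, v)) * k (p (2, v))) *
    (l (p (0, v)) * l (p (1, v)) * l (p (2, v)))
  generalize k (p (0, v)) = k0
  generalize k (p (1, v)) = k1
  generalize k (p (2, v)) = k2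
  generalize l (p (0, v)) = l0
  generalize l (p (1, v)) = l1
  generalize l (p (2, v)) = l2
  ac_rfl

theorem tinf_star {K L : Type*} [Field K] [Field L]
    (p : Fin 3 × NumberField.InfinitePlace K → NumberField.InfinitePlace L) (k : Kinf L) :
    tinf p (star k) = star (tinf p k) := by
  funext v
  rw [Kinf.star_apply]
  change star (k (p (0, v))) * star (k (p (1, v))) * star (k (p (2, v))) = star (_ * _ * _)
  rw [Rad.star_mul', Rad.star_mul']

end Fermat.Agent.LT.Tr

end
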