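import Fermat.Agent.LT.Tr.Down
import Fermat.Agent.LT.Tr.Sym
import Fermat.Agent.LT.TauXi3

/-!
# The geometric comparison in the language of symbols (helper37's `Kinf`, `kfull`, `tinf`)
-/

set_option autoImplicit false
set_option linter.unusedSectionVars false

noncomputable section

open MeasureTheory MulAction NumberField Matrix
open scoped ENNReal

namespace Fermat.Agent.LT.Dict

open H3 Tr

section places

variable {K L : Type*} [Field K] [Field L] [Algebra K L] [NumberField K] [NumberField L]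
  [IsGalois K L] [IsTotallyComplex K] (h3 : Module.finrank K L = 3) {τ : L ≃ₐ[K] L} (hτ : τ ≠ 1)
  {s : InfinitePlace K → InfinitePlace L} (hs : Xi.IsAbove (algebraMap K L) s)

/-- the three places of `L` when `K` has one place -/
def placesE [Unique (InfinitePlace K)] : Fin 3 ≃ InfinitePlace L :=
  (Equiv.prodUnique (Fin 3) (InfinitePlace K)).symm.trans (Xi3.plEquiv h3 hτ hs)

theorem placesE_apply [Unique (InfinitePlace K)] (i : Fin 3) :
    placesE h3 hτ hs i = Xi3.pl τ s (i, default) := rfl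

theorem comap_mul_pl (w : InfinitePlace L) (σ ρ : L ≃ₐ[K] L) :
    (w.comap ((σ : L ≃+* L) : L →+* L)).comap ((ρ : L ≃+* L) : L →+* L) =
      w.comap (((σ * ρ : L ≃ₐ[K] L) : L ≃+* L) : L →+* L) := by
  rw [← InfinitePlace.comap_comp]
  rfl

theorem cycPlaces_placesE [Unique (InfinitePlace K)] : CycPlaces τ (placesE h3 hτ hs) where
  comap i := by
    rw [placesE_apply, placesE_apply, Xi3.pl, Xi3.pl, comap_mul_pl, ← Xi3.pow_add_one h3]

end places

section kernels

variable {F : Type*} [Field F] [NumberField F]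

theorem kinf_ker_eq (k : Kinf F) : k.ker = kerXi fun w => (k w).fn := rfl

variable {D : Type*} [MulAction (GL (Fin 2) F) D] [TrivScalar F D]

theorem kfull_eq_pker (k : Kinf F) (a : HK (PG F) D) :
    kfull k a = pker (kerXi fun w => (k w).fn) a.ker := rfl

variable {K L : Type*} [Field K] [Field L] [Algebra K L] [NumberField K] [NumberField L]
  [IsGalois K L] [IsTotallyComplex K] (h3 : Module.finrank K L = 3) {τ : L ≃ₐ[K] L} (hτ : τ ≠ 1)
  {s : InfinitePlace K → InfinitePlace L} (hs : Xi.IsAbove (algebraMap K L) s)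

theorem tinf_fn [Unique (InfinitePlace K)] (k : Kinf L) (v : InfinitePlace K) :
    (tinf (Xi3.pl τ s) k v).fn = kDown (fun w => (k w).fn) (placesE h3 hτ hs) := by
  rw [Subsingleton.elim v default]
  rfl

theorem ker_tinf [Unique (InfinitePlace K)] (k : Kinf L) :
    (tinf (Xi3.pl τ s) k).ker =
      kerXi fun _ => kDown (fun w => (k w).fn) (placesE h3 hτ hs) := by
  rw [kinf_ker_eq]
  congr 1
  funext v
  exact tinf_fn h3 hτ hs k v

end kernels

section main

variable {K L : Type*} [Field K] [Field L] [Algebra K L] [NumberField K] [NumberField L]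
  [IsGalois K L]
  {A B : Type*} [MulAction (GL (Fin 2) L) A] [TrivScalar L A] [MulAction (GL (Fin 2) K) B]
  [TrivScalar K B] [Countable A] [MeasurableSpace A] [MeasurableSingletonClass A] [Countable B]
  [MeasurableSpace B] [MeasurableSingletonClass B] [Countable (PG L)] [Countable (PG K)]
  {τ : L ≃ₐ[K] L} {w : Xi L × A → ℝ≥0∞} {w' : Xi K × B → ℝ≥0∞}

/-- **Comparison of the geometric sides for symbols** `(k, a)` over `L`, `(tinf k, b)` over `K`. -/
theorem integral_aut_kfull_eq [IsTotallyComplex K] [IsTotallyComplex L] [Unique (InfinitePlace K)]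
    (h3 : Module.finrank K L = 3) (hτ1 : τ ≠ 1) {s : InfinitePlace K → InfinitePlace L}
    (hs : Xi.IsAbove (algebraMap K L) s) (hτ : Cyc3 τ)
    (hw : IsWeight (PG L) w) (hw' : IsWeight (PG K) w')
    (k : Kinf L) (a : HK (PG L) A) (b : HK (PG K) B)
    {tA : A → A} (htA : ∀ (g : PG L) d, tA (g • d) = pt τ g • tA d)
    (hfin : ∫⁻ z, ∑' δ : PG L,
      ‖kfull k a z (δ • Prod.map (Xi.tau (τ : L ≃+* L)) tA z)‖ₑ
      ∂(muZ L A).withDensity w ≠ ∞)
    (hfin' : ∫⁻ z, ∑' δ : PG K, ‖kfull (tinf (Xi3.pl τ s) k) b z (δ • z)‖ₑ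
      ∂(muZ K B).withDensity w' ≠ ∞)
    (hL : ∀ x : PG L, ¬ PEll (pnm τ x) → ∀ z : Xi L × A,
      kfull k a z (x • Prod.map (Xi.tau (τ : L ≃+* L)) tA z) = 0)
    (hK : ∀ γ : PG K, ¬ PEll γ → ∀ z : Xi K × B,
      kfull (tinf (Xi3.pl τ s) k) b z (γ • z) = 0)
    (hK' : ∀ γ : PG K, PEll γ → ¬ IsPNorm τ γ → ∀ z : Xi K × B,
      kfull (tinf (Xi3.pl τ s) k) b z (γ • z) = 0)
    (hD : ∀ (x₀ : PG L) (γ : PG K), PEll γ → pnm τ x₀ = pup L γ →
      ∃ p : A → B, PushD (L := L) γ p (fun d => a.ker d (x₀ • tA d)) fun d => b.ker d (γ • d)) :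
    ∫ z, aut (PG L) (kfull k a) z (Prod.map (Xi.tau (τ : L ≃+* L)) tA z)
        ∂(muZ L A).withDensity w =
      ∫ z, aut (PG K) (kfull (tinf (Xi3.pl τ s) k) b) z z ∂(muZ K B).withDensity w' := by
  have h1 : kfull (tinf (Xi3.pl τ s) k) b =
      pker (kerXi fun _ => kDown (fun w => (k w).fn) (placesE h3 hτ1 hs)) b.ker := by
    rw [← ker_tinf h3 hτ1 hs k]
    rfl
  have h2 := kfull_eq_pker k a
  rw [h1] at hfin' hK hK' ⊢
  rw [h2] at hfin hL ⊢
  exact integral_aut_eq_radial hτ (cycPlaces_placesE h3 hτ1 hs) hw hw'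
    (fun w => (k w).isKer) htA (fun g x y => a.ker_smul_smul g x y)
    (fun g x y => b.ker_smul_smul g x y) hfin hfin' hL hK hK' hD

end main

end Fermat.Agent.LT.Dict

end
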