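import Fermat.Agent.LT.Tr.SymKer
import Fermat.Agent.LT.Red.CuspKer
import Fermat.Agent.LT.Red.Eigen
import Fermat.Agent.LT.Aleph.LKerSym
import Fermat.Agent.LT.Auto.Pack

/-!
# The semigroup of Lipschitz kernels at infinity

`KinfL F`: families of radial kernels, one for every infinite place, which are Lipschitz for the
hyperbolic distance. It is an ideal of `Kinf F`; `kdatL F D : KDat F D (KinfL F)`.
-/

set_option autoImplicit false

noncomputable section

open MeasureTheory Set NumberField
open scoped ENNReal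

namespace Fermat.Agent.LT.Tr

open H3

/-! ### Lipschitz radial kernels form an ideal -/

namespace Rad

theorem lKer_congr {k l : ℝ → ℂ} (hk : LKer k) (hl : IsKer l) (h : ∀ P Q, l (cu P Q) = k (cu P Q)) :
    LKer l := by
  obtain ⟨L, hL0, hL⟩ := hk.lip
  refine ⟨hl, L, hL0, fun P Q Q' => ?_⟩
  rw [h, h]
  exact hL P Q Q'

/-- An arbitrary kernel times a Lipschitz one is Lipschitz. -/
theorem lKer_mul_left (k : Rad) {l : Rad} (hl : LKer l.fn) : LKer (k * l).fn := by
  obtain ⟨L, hL0, hL⟩ := hl.lip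
  obtain ⟨C, hC⟩ := k.isKer.bdd
  have hint : ∀ P : H3, Integrable fun W : H3 => k.fn (cu P W) := fun P =>
    integrable_of_support (k.isKer.cont.comp (continuous_cu_right P)) (isCompact_ball P C)
      fun W hW => hC _ (not_le.1 hW).le
  have hmass : ∀ P : H3, ∫ W : H3, ‖k.fn (cu P W)‖ = ∫ W : H3, ‖k.fn (cu j W)‖ := fun P =>
    integral_radial_eq (fun t => ‖k.fn t‖) P j
  have hint2 : ∀ P Q : H3, Integrable fun W : H3 => k.fn (cu P W) * l.fn (cu W Q) := fun P Q => by
    refine integrable_of_support ((k.isKer.cont.comp (continuous_cu_right P)).mul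
      (l.isKer.cont.comp ?_)) (isCompact_ball P C) fun W hW => ?_
    · simp_rw [cu_comm _ Q]
      exact continuous_cu_right Q
    · rw [hC _ (not_le.1 hW).le, zero_mul]
  refine ⟨(k * l).isKer, (∫ W : H3, ‖k.fn (cu j W)‖) * L,
    mul_nonneg (integral_nonneg fun _ => norm_nonneg _) hL0, fun P Q Q' => ?_⟩
  rw [mul_cu, mul_cu, ← integral_sub (hint2 P Q) (hint2 P Q')]
  calc ‖∫ W : H3, (k.fn (cu P W) * l.fn (cu W Q) - k.fn (cu P W) * l.fn (cu W Q'))‖
      ≤ ∫ W : H3, ‖k.fn (cu P W)‖ * (L * √(cu Q Q' - 1)) := by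
        refine norm_integral_le_of_norm_le ((hint P).norm.mul_const _)
          (Filter.Eventually.of_forall fun W => ?_)
        rw [← mul_sub, norm_mul]
        exact mul_le_mul_of_nonneg_left (hL W Q Q') (norm_nonneg _)
    _ = (∫ W : H3, ‖k.fn (cu j W)‖) * L * √(cu Q Q' - 1) := by
        rw [integral_mul_const, hmass, mul_assoc]

/-- A Lipschitz kernel times an arbitrary one is Lipschitz. -/
theorem lKer_mul_right {k : Rad} (hk : LKer k.fn) (l : Rad) : LKer (k * l).fn := by
  rw [mul_comm]
  exact lKer_mul_left l hk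

theorem lKer_star {k : Rad} (hk : LKer k.fn) : LKer (star k).fn := by
  obtain ⟨L, hL0, hL⟩ := hk.lip
  refine ⟨(star k).isKer, L, hL0, fun P Q Q' => ?_⟩
  rw [star_fn, star_fn, ← map_sub, RCLike.norm_conj]
  exact hL P Q Q'

theorem lKer_of {k : ℝ → ℂ} (hk : LKer k) : LKer (of k hk.toIsKer).fn :=
  lKer_congr hk (of k hk.toIsKer).isKer fun P Q => of_cu hk.toIsKer P Q

theorem lKer_of' {k : ℝ → ℂ} (hk : LKer k) (h : IsKer k) : LKer (of k h).fn := lKer_of hk

theorem star_star' (k : Rad) : star (star k) = k := by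
  refine ext_fn ?_
  funext t
  rw [star_fn, star_fn, RCLike.conj_conj]

end Rad

/-! ### The semigroup -/

/-- Families of Lipschitz radial kernels. -/
def KinfL (F : Type*) [Field F] : Type _ := {k : Kinf F // ∀ w, LKer (k w).fn}

namespace KinfL

variable {F : Type*} [Field F]

/-- the inclusion in the semigroup of all families -/
def i (k : KinfL F) : Kinf F := k.1

theorem lker (k : KinfL F) (w : InfinitePlace F) : LKer (k.i w).fn := k.2 w

theorem i_injective : Function.Injective (i : KinfL F → Kinf F) := Subtype.val_injective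

@[ext]
theorem ext {k l : KinfL F} (h : k.i = l.i) : k = l := i_injective h

/-- the ideal property -/
def mulR (k : KinfL F) (l : Kinf F) : KinfL F :=
  ⟨k.i * l, fun w => Rad.lKer_mul_right (k.lker w) (l w)⟩

/-- the ideal property -/
def mulL (l : Kinf F) (k : KinfL F) : KinfL F :=
  ⟨l * k.i, fun w => Rad.lKer_mul_left (l w) (k.lker w)⟩

theorem i_mulR (k : KinfL F) (l : Kinf F) : (mulR k l).i = k.i * l := rfl

theorem i_mulL (l : Kinf F) (k : KinfL F) : (mulL l k).i = l * k.i := rfl

instance : CommSemigroup (KinfL F) where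
  mul k l := mulR k l.i
  mul_assoc k l m := ext (mul_assoc k.i l.i m.i)
  mul_comm k l := ext (mul_comm k.i l.i)

theorem i_mul (k l : KinfL F) : (k * l).i = k.i * l.i := rfl

instance : StarMul (KinfL F) where
  star k := ⟨star k.i, fun w => Rad.lKer_star (k.lker w)⟩
  star_involutive k := ext (funext fun w => Rad.star_star' (k.i w))
  star_mul k l := by
    refine ext ?_
    change star (k.i * l.i) = star l.i * star k.i
    rw [Kinf.star_mul', mul_comm]

theorem i_star (k : KinfL F) : (star k).i = star k.i := rfl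

theorem i_star_apply (k : KinfL F) (w : InfinitePlace F) : (star k).i w = star (k.i w) := rfl

theorem star_eq_iff {k : KinfL F} : star k = k ↔ ∀ w, star (k.i w) = k.i w :=
  ⟨fun h w => congrFun (congrArg i h) w, fun h => ext (funext h)⟩

/-- a family of kernels -/
def of (k : InfinitePlace F → ℝ → ℂ) (hk : ∀ w, LKer (k w)) : KinfL F :=
  ⟨fun w => Rad.of (k w) (hk w).toIsKer, fun w => Rad.lKer_of (hk w)⟩

theorem i_of (k : InfinitePlace F → ℝ → ℂ) (hk : ∀ w, LKer (k w)) (w : InfinitePlace F) :
    (of k hk).i w = Rad.of (k w) (hk w).toIsKer := rfl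

theorem of_cu (k : InfinitePlace F → ℝ → ℂ) (hk : ∀ w, LKer (k w)) (w : InfinitePlace F)
    (P Q : H3) : ((of k hk).i w).fn (cu P Q) = k w (cu P Q) := Rad.of_cu (hk w).toIsKer P Q

theorem star_of {k : InfinitePlace F → ℝ → ℂ} (hk : ∀ w, LKer (k w))
    (hr : ∀ w t, starRingEnd ℂ (k w t) = k w t) : star (of k hk) = of k hk := by
  refine star_eq_iff.mpr fun w => Rad.ext_fn (funext fun t => ?_)
  rw [Rad.star_fn]
  exact hr w _

/-- the kernels of the operator `ℵ` -/
def ofSym {h : InfinitePlace F → ℝ → ℂ} (hh : ∀ w, Aleph.IsTest (h w)) (t : InfinitePlace F → ℝ) :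
    KinfL F :=
  of (fun w => Aleph.symKer (h w) (t w)) fun w => (hh w).lKer (t w)

theorem i_ofSym {h : InfinitePlace F → ℝ → ℂ} (hh : ∀ w, Aleph.IsTest (h w))
    (t : InfinitePlace F → ℝ) (w : InfinitePlace F) :
    (ofSym hh t).i w = Rad.of (Aleph.symKer (h w) (t w)) ((hh w).isKer (t w)) := rfl

theorem star_ofSym {h : InfinitePlace F → ℝ → ℂ} (hh : ∀ w, Aleph.IsTest (h w))
    (t : InfinitePlace F → ℝ) : star (ofSym hh t) = ofSym hh t :=
  star_of _ fun w u => (hh w).conj_symKer (t w) u

/-- one kernel at all places -/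
def const (k : Rad) (hk : LKer k.fn) : KinfL F := ⟨fun _ => k, fun _ => hk⟩

theorem i_const (k : Rad) (hk : LKer k.fn) (w : InfinitePlace F) : (const k hk : KinfL F).i w = k :=
  rfl

instance : Inhabited (KinfL F) := ⟨const (Rad.of (Aleph.symKer (fun _ => 0) 0)
  ((⟨contDiff_const, HasCompactSupport.zero, fun _ => rfl, fun _ => map_zero _⟩ :
    Aleph.IsTest fun _ => 0).isKer 0)) (Rad.lKer_of'
  ((⟨contDiff_const, HasCompactSupport.zero, fun _ => rfl, fun _ => map_zero _⟩ :
    Aleph.IsTest fun _ => 0).lKer 0) _)⟩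

end KinfL

/-! ### The transfer -/

section Down

variable {K L : Type*} [Field K] [Field L]

/-- The transfer at infinity. -/
def tinfL (p : Fin 3 × InfinitePlace K → InfinitePlace L) (k : KinfL L) : KinfL K :=
  ⟨tinf p k.i, fun v => Rad.lKer_mul_left _ (k.lker (p (2, v)))⟩

theorem i_tinfL (p : Fin 3 × InfinitePlace K → InfinitePlace L) (k : KinfL L) :
    (tinfL p k).i = tinf p k.i := rfl

theorem tinfL_mul (p : Fin 3 × InfinitePlace K → InfinitePlace L) (k l : KinfL L) :
    tinfL p (k * l) = tinfL p k * tinfL p l := KinfL.ext (tinf_mul p k.i l.i)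

theorem tinfL_star (p : Fin 3 × InfinitePlace K → InfinitePlace L) (k : KinfL L) :
    tinfL p (star k) = star (tinfL p k) := KinfL.ext (tinf_star p k.i)

theorem tinfL_const (p : Fin 3 × InfinitePlace K → InfinitePlace L) (k : Rad) (hk : LKer k.fn) :
    tinfL p (KinfL.const k hk) =
      KinfL.const k hk * KinfL.const k hk * KinfL.const k hk := rfl

/-- the transfer, when `L` has exactly the three places `e i` -/
def tinf3L (e : Fin 3 ≃ InfinitePlace L) (k : KinfL L) : KinfL K := tinfL (fun p => e p.1) k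

theorem i_tinf3L (e : Fin 3 ≃ InfinitePlace L) (k : KinfL L) :
    (tinf3L e k : KinfL K).i = tinf3 e k.i := rfl

end Down

/-! ### The package of block B4 -/

section Pack

variable (F : Type*) [Field F] [NumberField F]

/-- The semigroup of Lipschitz kernels. -/
def kerSgL : KerSg (PG F) (volume : Measure (Xi F)) (KinfL F) := kerSgOf KinfL.i KinfL.i_mul

theorem kerSgL_kap (k : KinfL F) : (kerSgL F).kap k = k.i.ker := rfl

theorem sker_kerSgL {D : Type*} [MulAction (GL (Fin 2) F) D] [TrivScalar F D] (k : KinfL F)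
    (a : HK (PG F) D) : sker (kerSgL F) k a = kfull k.i a := rfl

variable [IsTotallyComplex F] (D : Type*) [MeasurableSpace D] [MulAction (GL (Fin 2) F) D]

theorem isCKer_kerSgL (k : KinfL F) : Red.IsCKer F D ((kerSgL F).kap k) := by
  obtain ⟨R, Λ, hκ⟩ := LKer.hKer k.lker
  exact Red.isCKer_of hκ k.i.ker_smul fun _ hf hi hc hl => IsCusp.opK hκ hf hi hc hl

variable [DiscreteMeasurableSpace D] [Countable D] [IsLevel F D]

/-- **The Lipschitz kernels as input of block B4.** -/
def kdatL : KDat F D (KinfL F) :=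
  KDat.ofCKer (kerSgL F) (fun k x x' => kerSgOf_star KinfL.i KinfL.i_mul KinfL.i_star k x x')
    (isCKer_kerSgL F D)

theorem kdatL_toKerSg : (kdatL F D).toKerSg = kerSgL F := rfl

theorem kdatL_kap (k : KinfL F) : (kdatL F D).kap k = k.i.ker := rfl

theorem kdatL_m : (kdatL F D).m = Fintype.card (InfinitePlace F) + 1 := rfl

end Pack

end Fermat.Agent.LT.Tr

end
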