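import Fermat.Agent.LT.Tr.Side
import Fermat.Agent.LT.Desc.Cube
import Fermat.Agent.LT.B7.Pten

/-!
# The comparison of the traces

`HT_main` : the hypotheses `t`, `t'`, `HT` of `Desc.descent` for `P = mulW P₁ P₂`, from
* `GoodP` for `P₁`, `P₂` on both sides;
* the geometric comparison `hG` word by word.
-/

set_option autoImplicit false
set_option linter.unusedSectionVars false

noncomputable section

open MeasureTheory ENNReal MulAction ProbabilityTheory NumberField Matrix IsDedekindDomain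
open scoped InnerProductSpace ComplexConjugate WithZero Pointwise

namespace Fermat.Agent.LT.Tr

open Fermat.Agent.LT.Desc Fermat.Agent.LT.Iso Fermat.Agent.LT.Sttf Fermat.Agent.LT.Lvl
open Fermat.Agent.LT.HK Fermat.Agent.LT.Iwa Fermat.Agent.LT.Ext Fermat.Agent.LT.B7
open Fermat.Agent.CFT.SUnits

/-! ### Bounds for the kernels of `kdatL` -/

section Bd

variable (F : Type*) [Field F] [NumberField F] [IsTotallyComplex F] (D : Type*)
  [MeasurableSpace D] [DiscreteMeasurableSpace D] [Countable D] [MulAction (GL (Fin 2) F) D]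
  [IsLevel F D]

theorem kdatL_bdd (k : KinfL F) :
    ∃ M : ℝ, ∀ x x' : Xi F, ‖(kdatL F D).kap k x x'‖ ≤ M := by
  obtain ⟨M, _, hM⟩ := k.i.exists_bound
  exact ⟨M, hM⟩

theorem kdatL_supp (k : KinfL F) :
    ∃ R : ℝ, ∀ x x' : Xi F, (kdatL F D).kap k x x' ≠ 0 → ∀ w, H3.cu (x w) (x' w) ≤ R := by
  obtain ⟨R, _, hR⟩ := k.i.exists_support
  exact ⟨R, hR⟩

end Bd

/-! ### The full part of a word on the two sides -/

section Full

variable {K L : Type*} [Field K] [NumberField K] [Field L] [NumberField L] [Algebra K L]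
  {τ : L ≃ₐ[K] L} {U : Lev L} (X : SetL τ U) {UK : Lev K} (Y : SetK UK)

/-- the transfer at infinity as a homomorphism -/
def tinfHom (p : Fin 3 × InfinitePlace K → InfinitePlace L) :
    WithOne (KinfL L) →* WithOne (KinfL K) :=
  WithOne.mapMulHom ⟨tinfL p, tinfL_mul p⟩

theorem tinfHom_coe (p : Fin 3 × InfinitePlace K → InfinitePlace L) (k : KinfL L) :
    tinfHom p (k : WithOne (KinfL L)) = ((tinfL p k : KinfL K) : WithOne (KinfL K)) := rfl

/-- The full parts of the words correspond. -/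
theorem fst_symK (q : ℝ) (hdown : ∀ w : HeightOneSpectrum (𝓞 L), U.U w = GLO (vF w) →
      UK.U (under K w) = GLO (vF (under K w)))
    (p : Fin 3 × InfinitePlace K → InfinitePlace L)
    (l : List (WPl τ U ⊕ RealK (KinfL L))) :
    (symK Y (Subtype.val : RealK (KinfL K) → KinfL K) q hdown (tI p) l).1 =
      tinfHom p (symL X (Subtype.val : RealK (KinfL L) → KinfL L) l).1 := by
  induction l with
  | nil => exact (map_one (tinfHom p)).symm
  | cons c l ih =>
    have e1 : symK Y (Subtype.val : RealK (KinfL K) → KinfL K) q hdown (tI p) (c :: l) =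
        (Y.lett q).sym (Subtype.val : RealK (KinfL K) → KinfL K) (aK hdown (tI p) c) *
          symK Y (Subtype.val : RealK (KinfL K) → KinfL K) q hdown (tI p) l := rfl
    have e2 : symL X (Subtype.val : RealK (KinfL L) → KinfL L) (c :: l) =
        X.lett.sym (Subtype.val : RealK (KinfL L) → KinfL L) (aL c) *
          symL X (Subtype.val : RealK (KinfL L) → KinfL L) l := rfl
    rw [e1, e2, Prod.fst_mul, Prod.fst_mul, map_mul, ih]
    congr 1
    rcases c with w | x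
    · exact (map_one (tinfHom p)).symm
    · rfl

theorem symL_append (l m : List (WPl τ U ⊕ RealK (KinfL L))) :
    symL X (Subtype.val : RealK (KinfL L) → KinfL L) (l ++ m) =
      symL X Subtype.val l * symL X Subtype.val m :=
  X.lett.symW_append _ _ l m

theorem symK_append (q : ℝ) (hdown : ∀ w : HeightOneSpectrum (𝓞 L), U.U w = GLO (vF w) →
      UK.U (under K w) = GLO (vF (under K w)))
    (p : Fin 3 × InfinitePlace K → InfinitePlace L)
    (l m : List (WPl τ U ⊕ RealK (KinfL L))) :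
    symK Y (Subtype.val : RealK (KinfL K) → KinfL K) q hdown (tI p) (l ++ m) =
      symK Y Subtype.val q hdown (tI p) l * symK Y Subtype.val q hdown (tI p) m :=
  (Y.lett q).symW_append _ _ l m

end Full

/-! ### `τ` on `V` -/

section Tau

variable {K L : Type*} [Field K] [NumberField K] [Field L] [NumberField L] [Algebra K L]
  [IsTotallyComplex L] {τ : L ≃ₐ[K] L} {U : Lev L} (X : SetL τ U)
  {𝒦 : Type*} [CommSemigroup 𝒦] [StarMul 𝒦] (Kd : KDat L (D U) 𝒦)
  {w : Xi L × D U → ℝ≥0∞} (hw : IsWeight (PG L) w) (φ : Equiv.Perm 𝒦)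
  (hφ : ∀ k x x', Kd.kap (φ k) x x' = Kd.kap k (Xi.tau (τ : L ≃+* L).symm x)
    (Xi.tau (τ : L ≃+* L).symm x'))

include hφ in
theorem stabOp_tau_symm :
    StabOp (Kd.stabV hw).le ((tauHyp_tauZE (pg_tauD X)).tauL hw) :=
  stabOp_mainPart_cusp (κ := Kd.toKerSg) (φ := φ.symm) (pg_tauD X) (fun k x x' => by
    have h1 := hφ (φ.symm k) (Xi.tau (τ : L ≃+* L) x) (Xi.tau (τ : L ≃+* L) x')
    rw [φ.apply_symm_apply, Xi.tau_symm_tau, Xi.tau_symm_tau] at h1
    exact h1.symm) (Kd.stabC hw)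

theorem coe_tauV_symm (v : Kd.V hw) :
    ((tauV X Kd hw φ hφ v : Kd.V hw) :
      Lp ℂ 2 ((muXD (volume : Measure (Xi L)) (D U)).withDensity w)) =
      (tauHyp_tauZE (pg_tauD X)).symm.tauL hw ⟨v, (Kd.stabV hw).le v.2⟩ := by
  rw [tauL_symm_eq (pg_tauD X)]
  rfl

end Tau

/-! ### The comparison -/

section Main

variable {K : Type} {L : Type*} [Field K] [Field L] [NumberField K] [NumberField L] [Algebra K L]
  [IsTotallyComplex K] [IsTotallyComplex L] [Unique (InfinitePlace K)] [IsGalois K L]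
  {τ : L ≃ₐ[K] L} {U : Lev L} {UK : Lev K} (X : SetL τ U) (Y : SetK UK)

/-- **One word**: convergence and equality, for the kernels of the symbols. -/
theorem word_eq_of_geom (hdown : ∀ w : HeightOneSpectrum (𝓞 L), U.U w = GLO (vF w) →
      UK.U (under K w) = GLO (vF (under K w)))
    {s : InfinitePlace K → InfinitePlace L}
    {w : Xi L × D U → ℝ≥0∞} (hwL : IsWeight (PG L) w)
    {w' : Xi K × D UK → ℝ≥0∞} (hwK : IsWeight (PG K) w')
    {l : List (WPl τ U ⊕ RealK (KinfL L))} {k : KinfL L} {A₀ : HK (PG L) (D U)}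
    (hk : symL X (Subtype.val : RealK (KinfL L) → KinfL L) l =
      ((k : WithOne (KinfL L)), A₀))
    {A : HK (PG L) (D U)} {B : HK (PG K) (D UK)}
    (hG : GeomEq X.hU τ s k.i
      ((symL X (Subtype.val : RealK (KinfL L) → KinfL L) l).2 * A)
      ((symK Y (Subtype.val : RealK (KinfL K) → KinfL K) X.q hdown (tI (Xi3.pl τ s)) l).2 * B)) :
    ∫⁻ z, ∑' g : PG L, ‖skerS (kdatL L (D U)).toKerSg
        (symL X (Subtype.val : RealK (KinfL L) → KinfL L) l * (1, A)) z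
          (g • tauZ (τ : L ≃+* L) (tauDEquiv X.hU τ) z)‖ₑ ∂(muZ L (D U)).withDensity w ≠ ∞ ∧
      ∫⁻ z, ∑' g : PG K, ‖skerS (kdatL K (D UK)).toKerSg
        (symK Y (Subtype.val : RealK (KinfL K) → KinfL K) X.q hdown (tI (Xi3.pl τ s)) l *
          (1, B)) z (g • z)‖ₑ ∂(muZ K (D UK)).withDensity w' ≠ ∞ ∧
      ∫ z, aut (PG L) (skerS (kdatL L (D U)).toKerSg
        (symL X (Subtype.val : RealK (KinfL L) → KinfL L) l * (1, A))) z
          (tauZ (τ : L ≃+* L) (tauDEquiv X.hU τ) z) ∂(muZ L (D U)).withDensity w =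
        ∫ z, aut (PG K) (skerS (kdatL K (D UK)).toKerSg
        (symK Y (Subtype.val : RealK (KinfL K) → KinfL K) X.q hdown (tI (Xi3.pl τ s)) l *
          (1, B))) z z ∂(muZ K (D UK)).withDensity w' := by
  have h1 := fst_symK X Y X.q hdown (Xi3.pl τ s) l
  rw [hk] at h1 hG ⊢
  set t := symK Y (Subtype.val : RealK (KinfL K) → KinfL K) X.q hdown (tI (Xi3.pl τ s)) l
    with ht
  have h2 : t = (((tinfL (Xi3.pl τ s) k : KinfL K) : WithOne (KinfL K)), t.2) :=
    Prod.ext h1 rfl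
  rw [h2] at hG ⊢
  exact hG hwL hwK

variable (hdown : ∀ w : HeightOneSpectrum (𝓞 L), U.U w = GLO (vF w) →
      UK.U (under K w) = GLO (vF (under K w)))
  {s : InfinitePlace K → InfinitePlace L}
  {w : Xi L × D U → ℝ≥0∞} (hwL : IsWeight (PG L) w)
  {w' : Xi K × D UK → ℝ≥0∞} (hwK : IsWeight (PG K) w')
  {P₁ P₂ : List (WPl τ U ⊕ RealK (KinfL L)) →₀ ℂ}

/-- **The comparison of the traces.** -/
theorem HT_main
    (h₁ : GoodP (kdatL L (D U)) hwL
      (symL X (Subtype.val : RealK (KinfL L) → KinfL L)) P₁)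
    (h₂ : GoodP (kdatL L (D U)) hwL
      (symL X (Subtype.val : RealK (KinfL L) → KinfL L)) P₂)
    (h₁' : GoodP (kdatL K (D UK)) hwK
      (symK Y (Subtype.val : RealK (KinfL K) → KinfL K) X.q hdown (tI (Xi3.pl τ s))) P₁)
    (h₂' : GoodP (kdatL K (D UK)) hwK
      (symK Y (Subtype.val : RealK (KinfL K) → KinfL K) X.q hdown (tI (Xi3.pl τ s))) P₂)
    (hG : ∀ (k : Kinf L) (l : List (WPl τ U ⊕ RealK (KinfL L))), ∃ n₀ : ℕ, ∀ n ≥ n₀,
      GeomEq X.hU τ s k
        ((symL X (Subtype.val : RealK (KinfL L) → KinfL L) l).2 *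
          (uAt (X.iw 0) (datum (X.u 0)) ^ n * X.s))
        ((symK Y (Subtype.val : RealK (KinfL K) → KinfL K) X.q hdown
          (tI (Xi3.pl τ s)) l).2 * (uAt Y.iw (datum Y.u) ^ n * Y.s)))
    (φ : Equiv.Perm (KinfL L)) (hφ : ∀ k x x', (kdatL L (D U)).kap (φ k) x x' =
      (kdatL L (D U)).kap k (Xi.tau (τ : L ≃+* L).symm x) (Xi.tau (τ : L ≃+* L).symm x'))
    (diag : IsDiag fun i => (repV (kdatL L (D U)) hwL).R
      (X.lett.sym (Subtype.val : RealK (KinfL L) → KinfL L) i))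
    (diag' : IsDiag fun i => (repV (kdatL K (D UK)) hwK).R
      ((Y.lett X.q).sym (Subtype.val : RealK (KinfL K) → KinfL K) i)) :
    (∀ n, diag.Tr (opWL X (Subtype.val : RealK (KinfL L) → KinfL L)
      (repV (kdatL L (D U)) hwL) (mulW P₁ P₂) [] n * tauV X (kdatL L (D U)) hwL φ hφ)) ∧
    (∀ n, diag'.Tr (opWK Y (Subtype.val : RealK (KinfL K) → KinfL K)
      (repV (kdatL K (D UK)) hwK) X.q hdown (tI (Xi3.pl τ s)) (mulW P₁ P₂) [] n)) ∧
    ∀ l : List (WPl τ U ⊕ RealK (KinfL L)), ∃ n₀ : ℕ, ∀ n, n₀ ≤ n →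
      diag.tr (opWL X (Subtype.val : RealK (KinfL L) → KinfL L)
        (repV (kdatL L (D U)) hwL) (mulW P₁ P₂) l n * tauV X (kdatL L (D U)) hwL φ hφ) =
      diag'.tr (opWK Y (Subtype.val : RealK (KinfL K) → KinfL K)
        (repV (kdatL K (D UK)) hwK) X.q hdown (tI (Xi3.pl τ s)) (mulW P₁ P₂) l n) := by
  have sumL : ∀ (l : List (WPl τ U ⊕ RealK (KinfL L))) (n : ℕ),
      HasSum (fun i => ⟪diag.adapted i, (opWL X (Subtype.val : RealK (KinfL L) → KinfL L)
        (repV (kdatL L (D U)) hwL) (mulW P₁ P₂) l n * tauV X (kdatL L (D U)) hwL φ hφ)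
          (diag.adapted i)⟫_ℂ)
      (∫ z, aut (PG L) (kerP (kdatL L (D U))
        (symL X (Subtype.val : RealK (KinfL L) → KinfL L)) P₁ P₂ l
          (uAt (X.iw 0) (datum (X.u 0)) ^ n * X.s)) z
            (tauZ (τ : L ≃+* L) (tauDEquiv X.hU τ) z) ∂(muZ L (D U)).withDensity w) :=
    fun l n => h₁.hasSum_tau h₂ (symL_append X) l _ (kdatL_bdd L (D U)) (kdatL_supp L (D U))
      (pg_tauD X) (stabOp_tau_symm X (kdatL L (D U)) hwL φ hφ)
      (coe_tauV_symm X (kdatL L (D U)) hwL φ hφ) diag.adapted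
  have sumK : ∀ (l : List (WPl τ U ⊕ RealK (KinfL L))) (n : ℕ),
      HasSum (fun i => ⟪diag'.adapted i, (opWK Y (Subtype.val : RealK (KinfL K) → KinfL K)
        (repV (kdatL K (D UK)) hwK) X.q hdown (tI (Xi3.pl τ s)) (mulW P₁ P₂) l n)
          (diag'.adapted i)⟫_ℂ)
      (∫ z, aut (PG K) (kerP (kdatL K (D UK))
        (symK Y (Subtype.val : RealK (KinfL K) → KinfL K) X.q hdown (tI (Xi3.pl τ s)))
          P₁ P₂ l (uAt Y.iw (datum Y.u) ^ n * Y.s)) z z ∂(muZ K (D UK)).withDensity w') :=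
    fun l n => h₁'.hasSum_id h₂' (symK_append Y X.q hdown (Xi3.pl τ s)) l _
      (kdatL_bdd K (D UK)) (kdatL_supp K (D UK)) diag'.adapted
  refine ⟨fun n => (sumL [] n).summable, fun n => (sumK [] n).summable, fun l => ?_⟩
  -- the bound
  have hword : ∀ m₁ ∈ P₁.support, ∀ m₂ : List (WPl τ U ⊕ RealK (KinfL L)),
      ∃ (k : KinfL L) (A₀ : HK (PG L) (D U)),
        symL X (Subtype.val : RealK (KinfL L) → KinfL L) (l ++ (m₁ ++ m₂)) =
          ((k : WithOne (KinfL L)), A₀) := by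
    intro m₁ hm₁ m₂
    refine exists_of_mem_fullS ?_
    rw [symL_append, symL_append]
    exact mul_mem_fullS_left _ (mul_mem_fullS _ (h₁.full m₁ hm₁))
  have hex : ∀ p : List (WPl τ U ⊕ RealK (KinfL L)) × List (WPl τ U ⊕ RealK (KinfL L)),
      ∃ n₀ : ℕ, p.1 ∈ P₁.support → ∀ n ≥ n₀,
        ∫⁻ z, ∑' g : PG L, ‖skerS (kdatL L (D U)).toKerSg
          (symL X (Subtype.val : RealK (KinfL L) → KinfL L) (l ++ (p.1 ++ p.2)) *
            (1, uAt (X.iw 0) (datum (X.u 0)) ^ n * X.s)) z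
            (g • tauZ (τ : L ≃+* L) (tauDEquiv X.hU τ) z)‖ₑ ∂(muZ L (D U)).withDensity w ≠ ∞ ∧
        ∫⁻ z, ∑' g : PG K, ‖skerS (kdatL K (D UK)).toKerSg
          (symK Y (Subtype.val : RealK (KinfL K) → KinfL K) X.q hdown (tI (Xi3.pl τ s))
            (l ++ (p.1 ++ p.2)) * (1, uAt Y.iw (datum Y.u) ^ n * Y.s)) z (g • z)‖ₑ
              ∂(muZ K (D UK)).withDensity w' ≠ ∞ ∧
        ∫ z, aut (PG L) (skerS (kdatL L (D U)).toKerSg
          (symL X (Subtype.val : RealK (KinfL L) → KinfL L) (l ++ (p.1 ++ p.2)) *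
            (1, uAt (X.iw 0) (datum (X.u 0)) ^ n * X.s))) z
            (tauZ (τ : L ≃+* L) (tauDEquiv X.hU τ) z) ∂(muZ L (D U)).withDensity w =
          ∫ z, aut (PG K) (skerS (kdatL K (D UK)).toKerSg
          (symK Y (Subtype.val : RealK (KinfL K) → KinfL K) X.q hdown (tI (Xi3.pl τ s))
            (l ++ (p.1 ++ p.2)) * (1, uAt Y.iw (datum Y.u) ^ n * Y.s))) z z
              ∂(muZ K (D UK)).withDensity w' := by
    intro p
    by_cases hp : p.1 ∈ P₁.support
    · obtain ⟨k, A₀, hk⟩ := hword p.1 hp p.2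
      obtain ⟨n₀, hn₀⟩ := hG k.i (l ++ (p.1 ++ p.2))
      exact ⟨n₀, fun _ n hn => word_eq_of_geom X Y hdown hwL hwK hk (hn₀ n hn)⟩
    · exact ⟨0, fun h => absurd h hp⟩
  choose N hN using hex
  refine ⟨(P₁.support ×ˢ P₂.support).sup N, fun n hn => ?_⟩
  have hle : ∀ m₁ ∈ P₁.support, ∀ m₂ ∈ P₂.support, N (m₁, m₂) ≤ n := fun m₁ h m₂ h' =>
    (Finset.le_sup (f := N) (Finset.mk_mem_product h h')).trans hn
  have e1 : diag.tr (opWL X (Subtype.val : RealK (KinfL L) → KinfL L)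
      (repV (kdatL L (D U)) hwL) (mulW P₁ P₂) l n * tauV X (kdatL L (D U)) hwL φ hφ) = _ :=
    (sumL l n).tsum_eq
  have e2 : diag'.tr (opWK Y (Subtype.val : RealK (KinfL K) → KinfL K)
      (repV (kdatL K (D UK)) hwK) X.q hdown (tI (Xi3.pl τ s)) (mulW P₁ P₂) l n) = _ :=
    (sumK l n).tsum_eq
  rw [e1, e2]
  have i1 := integral_kerP (Kd := kdatL L (D U)) (P₁ := P₁) (P₂ := P₂) (symL_append X) l
    (uAt (X.iw 0) (datum (X.u 0)) ^ n * X.s) (kdatL_bdd L (D U)) (kdatL_supp L (D U))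
    (ν := (muZ L (D U)).withDensity w) (T := tauZ (τ : L ≃+* L) (tauDEquiv X.hU τ))
    (tauZE (τ : L ≃+* L) (tauDEquiv X.hU τ)).measurable
    (fun m₁ hm₁ m₂ hm₂ => (hN (m₁, m₂) hm₁ n (hle m₁ hm₁ m₂ hm₂)).1)
  have i2 := integral_kerP (Kd := kdatL K (D UK)) (P₁ := P₁) (P₂ := P₂)
    (symK_append Y X.q hdown (Xi3.pl τ s)) l
    (uAt Y.iw (datum Y.u) ^ n * Y.s) (kdatL_bdd K (D UK)) (kdatL_supp K (D UK))
    (ν := (muZ K (D UK)).withDensity w') (T := fun z => z) measurable_id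
    (fun m₁ hm₁ m₂ hm₂ => (hN (m₁, m₂) hm₁ n (hle m₁ hm₁ m₂ hm₂)).2.1)
  rw [i1, i2]
  refine Finset.sum_congr rfl fun m₁ hm₁ => Finset.sum_congr rfl fun m₂ hm₂ => ?_
  rw [(hN (m₁, m₂) hm₁ n (hle m₁ hm₁ m₂ hm₂)).2.2]

end Main

end Fermat.Agent.LT.Tr

end
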