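import Fermat.Agent.LT.Tr.SymGeom
import Fermat.Agent.LT.Sttf.Conv
import Fermat.Agent.LT.Red.Weight

/-!
# Absolute convergence of the twisted diagonal for every weight

`lintegral_twist_ne_top`: from helper66's bound on a Siegel set (regularity: no upper triangular
`δ` on the support) to the hypotheses `hfin`, `hfin'` of the geometric comparison.
-/

set_option autoImplicit false
set_option linter.unusedSectionVars false

noncomputable section

open MeasureTheory MulAction NumberField Matrix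
open scoped ENNReal

namespace Fermat.Agent.LT.Dict

open H3 Tr Sttf

section general

variable {F : Type*} [Field F] [NumberField F] [IsTotallyComplex F] {D : Type*}
  [MulAction (GL (Fin 2) F) D] [IsLevel F D]

/-- the twisted diagonal sum of norms is invariant -/
theorem tsum_twist_smul {φ : Xi F × D → Xi F × D → ℂ}
    (hinv : ∀ (g : PG F) z z', φ (g • z) (g • z') = φ z z') {T : Xi F × D → Xi F × D}
    {σ : PG F ≃* PG F} (hT : ∀ (g : PG F) z, T (g • z) = σ g • T z) (g : PG F)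
    (z : Xi F × D) :
    ∑' δ : PG F, ‖φ (g • z) (δ • T (g • z))‖ₑ = ∑' δ : PG F, ‖φ z (δ • T z)‖ₑ := by
  rw [← (Equiv.mulLeft g⁻¹).tsum_eq (fun δ : PG F => ‖φ z (δ • T z)‖ₑ),
    ← (Equiv.mulRight (σ g)).tsum_eq (fun δ : PG F => ‖φ z (Equiv.mulLeft g⁻¹ δ • T z)‖ₑ)]
  refine tsum_congr fun δ => ?_
  have h1 : φ z (Equiv.mulLeft g⁻¹ (Equiv.mulRight (σ g) δ) • T z) =
      φ (g • z) (δ • T (g • z)) := by
    rw [← hinv g z, Equiv.coe_mulRight, Equiv.coe_mulLeft, hT, smul_smul, smul_smul,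
      mul_inv_cancel_left]
  rw [h1]

/-- **Uniform bound** for the twisted diagonal sum of norms. -/
theorem exists_bound_twist_all {U : ℝ} (hU : 0 < U) {Nb : D → Finset D}
    {φ : Xi F × D → Xi F × D → ℂ} (hφ : SuppIn U Nb φ) {B : ℝ≥0∞} (hB : B ≠ ∞)
    (hφB : ∀ z z', ‖φ z z'‖ₑ ≤ B) (hinv : ∀ (g : PG F) z z', φ (g • z) (g • z') = φ z z')
    (τ : F ≃+* F) {τD : D → D} (hτD : ∀ (g : PG F) d, τD (g • d) = PG.tau τ g • τD d)
    (hreg : ∀ (g : GL (Fin 2) F) (z : Xi F × D), φ z (g • tauZ τ τD z) ≠ 0 → g 1 0 ≠ 0) :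
    ∃ M : ℝ≥0∞, M ≠ ∞ ∧ ∀ z, ∑' δ : PG F, ‖φ z (δ • tauZ τ τD z)‖ₑ ≤ M := by
  obtain ⟨c, T, _, hcT⟩ := exists_siegel F D
  obtain ⟨M, hM, hMT⟩ := exists_bound_twist c T hU hφ hB hφB τ τD hreg
  refine ⟨M, hM, fun z => ?_⟩
  obtain ⟨g, hg⟩ := hcT z
  have hT : ∀ (g : PG F) z, tauZ τ τD (g • z) = PG.tau τ g • tauZ τ τD z := fun g z =>
    Prod.ext (PG.xi_tau_smul τ g z.1) (hτD g z.2)
  rw [← tsum_twist_smul hinv hT (QuotientGroup.mk g : PG F) z]
  refine hMT _ ?_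
  rw [Sieg_eq_siegelSet] at hg
  exact hg

variable [MeasurableSpace D] [DiscreteMeasurableSpace D] [Countable D]

/-- **Absolute convergence** of the twisted diagonal, for every weight. -/
theorem lintegral_twist_ne_top {w : Xi F × D → ℝ≥0∞} (hw : IsWeight (PG F) w) {U : ℝ}
    (hU : 0 < U) {Nb : D → Finset D}
    {φ : Xi F × D → Xi F × D → ℂ} (hφ : SuppIn U Nb φ) {B : ℝ≥0∞} (hB : B ≠ ∞)
    (hφB : ∀ z z', ‖φ z z'‖ₑ ≤ B) (hinv : ∀ (g : PG F) z z', φ (g • z) (g • z') = φ z z')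
    (τ : F ≃+* F) {τD : D → D} (hτD : ∀ (g : PG F) d, τD (g • d) = PG.tau τ g • τD d)
    (hreg : ∀ (g : GL (Fin 2) F) (z : Xi F × D), φ z (g • tauZ τ τD z) ≠ 0 → g 1 0 ≠ 0) :
    ∫⁻ z, ∑' δ : PG F, ‖φ z (δ • tauZ τ τD z)‖ₑ ∂(muZ F D).withDensity w ≠ ∞ := by
  obtain ⟨M, hM, h⟩ := exists_bound_twist_all hU hφ hB hφB hinv τ hτD hreg
  have : IsFiniteMeasure ((muZ F D).withDensity w) := isFiniteMeasure_weight F D hw
  refine ne_top_of_le_ne_top ?_ (lintegral_mono h)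
  rw [lintegral_const]
  exact ENNReal.mul_ne_top hM (measure_ne_top _ _)

/-- **Absolute convergence for symbols**, twisted form. -/
theorem lintegral_kfull_twist_ne_top {w : Xi F × D → ℝ≥0∞} (hw : IsWeight (PG F) w)
    (k : Kinf F) (a : HK (PG F) D) (τ : F ≃+* F) {τD : D → D}
    (hτD : ∀ (g : PG F) d, τD (g • d) = PG.tau τ g • τD d)
    (hreg : ∀ (g : GL (Fin 2) F) (z : Xi F × D),
      kfull k a z (g • Prod.map (Xi.tau τ) τD z) ≠ 0 → g 1 0 ≠ 0) :
    ∫⁻ z, ∑' δ : PG F, ‖kfull k a z (δ • Prod.map (Xi.tau τ) τD z)‖ₑ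
      ∂(muZ F D).withDensity w ≠ ∞ := by
  obtain ⟨R, Nb, hR, hs⟩ := exists_support_kfull k a
  obtain ⟨T, hT⟩ := IsLevel.finite_orbits (F := F) (D := D)
  obtain ⟨M, hM0, hM⟩ := exists_bound_kfull hT k a
  refine lintegral_twist_ne_top hw hR (fun z z' h => hs z z' h) (B := ENNReal.ofReal M)
    ENNReal.ofReal_ne_top (fun z z' => ?_) (fun g z z' => kfull_smul k a g z z') τ hτD hreg
  rw [← ofReal_norm]
  exact ENNReal.ofReal_le_ofReal (hM z z')

/-- **Absolute convergence for symbols**, untwisted form. -/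
theorem lintegral_kfull_ne_top {w : Xi F × D → ℝ≥0∞} (hw : IsWeight (PG F) w)
    (k : Kinf F) (a : HK (PG F) D)
    (hreg : ∀ (g : GL (Fin 2) F) (z : Xi F × D), kfull k a z (g • z) ≠ 0 → g 1 0 ≠ 0) :
    ∫⁻ z, ∑' δ : PG F, ‖kfull k a z (δ • z)‖ₑ ∂(muZ F D).withDensity w ≠ ∞ := by
  have hid : ∀ z : Xi F × D, Prod.map (Xi.tau (RingEquiv.refl F)) id z = z := fun z =>
    Prod.ext (Xi.tau_refl z.1) rfl
  have h := lintegral_kfull_twist_ne_top hw k a (RingEquiv.refl F) (τD := id)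
    (fun g d => by
      obtain ⟨g, rfl⟩ := QuotientGroup.mk_surjective g
      have : PG.tau (RingEquiv.refl F) (QuotientGroup.mk g : PG F) = QuotientGroup.mk g := by
        rw [PG.tau_mk]
        rfl
      rw [this]
      rfl)
    (fun g z hz => by
      rw [hid] at hz
      exact hreg g z hz)
  simpa only [hid] using h

end general

section upper

/-- an upper triangular matrix is not elliptic -/
theorem not_pell_of_upper {F : Type*} [Field F] {g : GL (Fin 2) F} (h : g 1 0 = 0) :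
    ¬ PEll (pmk g) := by
  rw [pell_pmk]
  rintro ⟨h1, -⟩
  refine h1 (g 0 0) ?_
  have h10 : (g : M2 F) 1 0 = 0 := h
  rw [Matrix.trace_fin_two, Matrix.det_fin_two, h10]
  ring

variable {K L : Type*} [Field K] [Field L] [Algebra K L]

theorem gnm_upper (τ : L ≃ₐ[K] L) {g : GL (Fin 2) L} (h : g 1 0 = 0) : gnm τ g 1 0 = 0 := by
  have e1 : ∀ d : GL (Fin 2) L, d 1 0 = 0 → gt τ d 1 0 = 0 := fun d hd => by
    change τ (d 1 0) = 0
    rw [hd, map_zero]
  have e2 : ∀ d d' : GL (Fin 2) L, d 1 0 = 0 → d' 1 0 = 0 → (d * d') 1 0 = 0 :=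
    fun d d' hd hd' => by
      have : (d * d') 1 0 = d 1 0 * d' 0 0 + d 1 1 * d' 1 0 := by
        rw [Units.val_mul, Matrix.mul_apply, Fin.sum_univ_two]
      rw [this, hd, hd', zero_mul, mul_zero, add_zero]
  exact e2 _ _ (e2 _ _ h (e1 _ h)) (e1 _ (e1 _ h))

end upper

section main

variable {K L : Type*} [Field K] [Field L] [Algebra K L] [NumberField K] [NumberField L]
  [IsGalois K L] [IsTotallyComplex K] [IsTotallyComplex L] [Unique (InfinitePlace K)]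
  {A B : Type*} [MulAction (GL (Fin 2) L) A] [IsLevel L A] [MulAction (GL (Fin 2) K) B]
  [IsLevel K B] [Countable A] [MeasurableSpace A] [DiscreteMeasurableSpace A] [Countable B]
  [MeasurableSpace B] [DiscreteMeasurableSpace B]
  {τ : L ≃ₐ[K] L} {w : Xi L × A → ℝ≥0∞} {w' : Xi K × B → ℝ≥0∞}

/-- `hfin` follows from the regularity `hL` -/
theorem hfin_of_reg (hw : IsWeight (PG L) w) (k : Kinf L) (a : HK (PG L) A)
    {tA : A → A} (htA : ∀ (g : PG L) d, tA (g • d) = pt τ g • tA d)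
    (hL : ∀ x : PG L, ¬ PEll (pnm τ x) → ∀ z : Xi L × A,
      kfull k a z (x • Prod.map (Xi.tau (τ : L ≃+* L)) tA z) = 0) :
    ∫⁻ z, ∑' δ : PG L,
      ‖kfull k a z (δ • Prod.map (Xi.tau (τ : L ≃+* L)) tA z)‖ₑ
      ∂(muZ L A).withDensity w ≠ ∞ :=
  lintegral_kfull_twist_ne_top hw k a (τ : L ≃+* L)
    (fun g d => by rw [htA, pt_eq_tau]) fun g z hz h10 => hz (by
      refine hL (pmk g) ?_ z
      rw [pnm_pmk]
      exact not_pell_of_upper (gnm_upper τ h10))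

/-- `hfin'` follows from the regularity `hK` -/
theorem hfin_of_reg' (hw' : IsWeight (PG K) w') (k : Kinf K) (b : HK (PG K) B)
    (hK : ∀ γ : PG K, ¬ PEll γ → ∀ z : Xi K × B, kfull k b z (γ • z) = 0) :
    ∫⁻ z, ∑' δ : PG K, ‖kfull k b z (δ • z)‖ₑ ∂(muZ K B).withDensity w' ≠ ∞ :=
  lintegral_kfull_ne_top hw' k b fun g z hz h10 => hz (hK (pmk g) (not_pell_of_upper h10) z)

/-- **Comparison of the geometric sides for symbols**: only regularity (`hL`, `hK`), vanishing at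
the `γ` which are no norms (`hK'`) and the local push-forwards (`hD`). -/
theorem integral_aut_kfull_eq_of_reg
    (h3 : Module.finrank K L = 3) (hτ1 : τ ≠ 1) {s : InfinitePlace K → InfinitePlace L}
    (hs : Xi.IsAbove (algebraMap K L) s) (hτ : Cyc3 τ)
    (hw : IsWeight (PG L) w) (hw' : IsWeight (PG K) w')
    (k : Kinf L) (a : HK (PG L) A) (b : HK (PG K) B)
    {tA : A → A} (htA : ∀ (g : PG L) d, tA (g • d) = pt τ g • tA d)
    (hL : ∀ x : PG L, ¬ PEll (pnm τ x) → ∀ z : Xi L × A,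
      kfull k a z (x • Prod.map (Xi.tau (τ : L ≃+* L)) tA z) = 0)
    (hK : ∀ γ : PG K, ¬ PEll γ → ∀ z : Xi K × B,
      kfull (tinf (Xi3.pl τ s) k) b z (γ • z) = 0)
    (hK' : ∀ γ : PG K, PEll γ → ¬ IsPNorm τ γ → ∀ z : Xi K × B,
      kfull (tinf (Xi3.pl τ s) k) b z (γ • z) = 0)
    (hD : ∀ (x₀ : PG L) (γ : PG K), PEll γ → pnm τ x₀ = pup L γ →
      ∃ p : A → B, PushD (L := L) γ p (fun d => a.ker d (x₀ • tA d)) fun d => b.ker d (γ • d)) :
    ∫ z, aut (PG L) (kfull k a) z (Prod.map (Xi.tau (τ : L ≃+* L)) tA z)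
        ∂(muZ L A).withDensity w =
      ∫ z, aut (PG K) (kfull (tinf (Xi3.pl τ s) k) b) z z ∂(muZ K B).withDensity w' :=
  integral_aut_kfull_eq h3 hτ1 hs hτ hw hw' k a b htA (hfin_of_reg hw k a htA hL)
    (hfin_of_reg' hw' _ b hK) hL hK hK' hD

end main

end Fermat.Agent.LT.Dict

end
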