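import Fermat.Agent.LT.Tr.ClassSum
import Fermat.Agent.LT.Sttf.Main

/-!
# Twisted orbital integrals as class functions, and their comparison

`orbInt μ w₀ φ τ δ` : the integral of `φ z (δ • τ z)` over the quotient of `Z` by the twisted
stabiliser of `δ`; it only depends on the twisted class, and can be computed with any weight.
-/

set_option autoImplicit false
set_option linter.unusedSectionVars false

noncomputable section

open MeasureTheory MulAction
open scoped ENNReal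

namespace Fermat.Agent.LT.Dict

section abs

variable {G Z : Type*} [Group G] [MeasurableSpace Z] [MulAction G Z]

/-- the weight of a subgroup induced by a weight of the group -/
def subW (w₀ : Z → ℝ≥0∞) (H : Subgroup G) (z : Z) : ℝ≥0∞ := ∑' r : G ⧸ H, w₀ (r.out • z)

theorem isWeight_subW [Countable G] [MeasurableConstSMul G Z] {w₀ : Z → ℝ≥0∞}
    (h : IsWeight G w₀) (H : Subgroup G) : IsWeight H (subW w₀ H) := h.sub H

/-- **The twisted orbital integral.** -/
def orbInt {σ : G ≃* G} (μ : Measure Z) (w₀ : Z → ℝ≥0∞) (φ : Z → Z → ℂ) (τ : Z → Z)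
    (δ : Tw σ) : ℂ :=
  ∫ z, twTerm φ τ δ z ∂μ.withDensity (subW w₀ (stabilizer G δ))

variable [Countable G] [MeasurableConstSMul G Z] {μ : Measure Z} [SMulInvariantMeasure G Z μ]
  {w₀ : Z → ℝ≥0∞} {σ : G ≃* G} {φ : Z → Z → ℂ} {τ : Z → Z}

/-- The orbital integral does not depend on the weight. -/
theorem orbInt_eq (h : IsWeight G w₀) (hm : Measurable (Function.uncurry φ))
    (hφ : ∀ (g : G) x y, φ (g • x) (g • y) = φ x y) (hτm : Measurable τ)
    (hτ : ∀ (g : G) z, τ (g • z) = σ g • τ z) {δ : Tw σ} {w' : Z → ℝ≥0∞}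
    (hw' : IsWeight (stabilizer G δ) w') :
    orbInt μ w₀ φ τ δ = ∫ z, twTerm φ τ δ z ∂μ.withDensity w' := by
  refine (isWeight_subW h _).integral_eq hw' (measurable_twTerm hm hτm δ) ?_
  rintro ⟨g, hg⟩ z
  have h1 := twTerm_smul (σ := σ) hφ hτ g δ z
  rw [mem_stabilizer_iff.mp hg] at h1
  exact h1

omit [SMulInvariantMeasure G Z μ] [Countable G] in
/-- conjugation of weights of stabilisers -/
theorem isWeight_conj {X : Type*} [MulAction G X] {d : X} {g : G} {w' : Z → ℝ≥0∞}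
    (hw' : IsWeight (stabilizer G (g • d)) w') :
    IsWeight (stabilizer G d) (fun z => w' (g • z)) := by
  refine ⟨hw'.meas.comp (measurable_const_smul g), fun z => ?_⟩
  have h1 := hw'.sum_eq (g • z)
  rw [← (stabilizerEquivStabilizer (rfl : g • d = g • d)).toEquiv.tsum_eq] at h1
  rw [← h1]
  refine tsum_congr fun k => ?_
  have h2 : ((stabilizerEquivStabilizer (rfl : g • d = g • d)).toEquiv k) • g • z =
      g • k • z := by
    rw [Subgroup.smul_def, Subgroup.smul_def]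
    have h3 : (((stabilizerEquivStabilizer (rfl : g • d = g • d)).toEquiv k :
        stabilizer G (g • d)) : G) = g * k * g⁻¹ := rfl
    rw [h3, smul_smul, smul_smul]
    congr 1
    group
  rw [h2]

/-- **The orbital integral is a class function.** -/
theorem orbInt_smul (h : IsWeight G w₀) (hm : Measurable (Function.uncurry φ))
    (hφ : ∀ (g : G) x y, φ (g • x) (g • y) = φ x y) (hτm : Measurable τ)
    (hτ : ∀ (g : G) z, τ (g • z) = σ g • τ z) (g : G) (δ : Tw σ) :
    orbInt μ w₀ φ τ (g • δ) = orbInt μ w₀ φ τ δ := by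
  have hw' := isWeight_subW h (stabilizer G (g • δ))
  rw [orbInt_eq (μ := μ) h hm hφ hτm hτ (isWeight_conj hw'), orbInt, hw'.integral_eq_smul,
    (isWeight_conj hw').integral_eq_smul,
    ← (measurePreserving_smul g μ).integral_comp (measurableEmbedding_const_smul g)]
  refine integral_congr_ae (Filter.Eventually.of_forall fun z => ?_)
  simp only [twTerm_smul hφ hτ]

theorem orbInt_congr (h : IsWeight G w₀) (hm : Measurable (Function.uncurry φ))
    (hφ : ∀ (g : G) x y, φ (g • x) (g • y) = φ x y) (hτm : Measurable τ)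
    (hτ : ∀ (g : G) z, τ (g • z) = σ g • τ z) {δ δ' : Tw σ} (hδ : δ' ∈ orbit G δ) :
    orbInt μ w₀ φ τ δ' = orbInt μ w₀ φ τ δ := by
  obtain ⟨g, rfl⟩ := hδ
  exact orbInt_smul h hm hφ hτm hτ g δ

/-- the orbital integral as a function on the set of twisted classes -/
def orbCls (μ : Measure Z) (w₀ : Z → ℝ≥0∞) (φ : Z → Z → ℂ) (τ : Z → Z) (o : TwCls σ) : ℂ :=
  orbInt μ w₀ φ τ o.out

theorem orbCls_tcl (h : IsWeight G w₀) (hm : Measurable (Function.uncurry φ))
    (hφ : ∀ (g : G) x y, φ (g • x) (g • y) = φ x y) (hτm : Measurable τ)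
    (hτ : ∀ (g : G) z, τ (g • z) = σ g • τ z) (x : G) :
    orbCls μ w₀ φ τ (tcl σ x) = orbInt μ w₀ φ τ (Tw.of σ x) := by
  refine orbInt_congr h hm hφ hτm hτ ?_
  have h1 : tcl σ ((Tw.of σ).symm (tcl σ x).out) = tcl σ x := Quotient.out_eq' (tcl σ x)
  rw [tcl_eq_iff, Equiv.apply_symm_apply] at h1
  exact h1

/-- **The integral of the twisted diagonal is the sum of the orbital integrals.** -/
theorem integral_aut_eq_tsum_orbCls (h : IsWeight G w₀) (hm : Measurable (Function.uncurry φ))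
    (hφ : ∀ (g : G) x y, φ (g • x) (g • y) = φ x y) (hτm : Measurable τ)
    (hτ : ∀ (g : G) z, τ (g • z) = σ g • τ z)
    (hfin : ∫⁻ z, ∑' δ : G, ‖φ z (δ • τ z)‖ₑ ∂μ.withDensity w₀ ≠ ∞) :
    ∫ z, aut G φ z (τ z) ∂μ.withDensity w₀ = ∑' o : TwCls σ, orbCls μ w₀ φ τ o :=
  h.integral_aut_twist hm hφ hτm hτ (fun _ => isWeight_subW h _) hfin

/-- each orbital integral converges absolutely -/
theorem integrable_twTerm (h : IsWeight G w₀) (hm : Measurable (Function.uncurry φ))
    (hφ : ∀ (g : G) x y, φ (g • x) (g • y) = φ x y) (hτm : Measurable τ)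
    (hτ : ∀ (g : G) z, τ (g • z) = σ g • τ z)
    (hfin : ∫⁻ z, ∑' δ : G, ‖φ z (δ • τ z)‖ₑ ∂μ.withDensity w₀ ≠ ∞) {δ : Tw σ} {w' : Z → ℝ≥0∞}
    (hw' : IsWeight (stabilizer G δ) w') :
    Integrable (twTerm φ τ δ) (μ.withDensity w') := by
  -- first for the representatives of the classes
  have key : ∀ o : TwCls σ,
      Integrable (twTerm φ τ o.out) (μ.withDensity (subW w₀ (stabilizer G o.out))) := by
    intro o
    refine ⟨(measurable_twTerm hm hτm _).aestronglyMeasurable, ?_⟩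
    have h1 := lunfold (μ := μ) h (fun o : TwCls σ => isWeight_subW h (stabilizer G o.out))
      (F := fun (d : Tw σ) z => ‖twTerm φ τ d z‖ₑ)
      (fun d => (measurable_twTerm hm hτm d).enorm) (fun g d z => by rw [twTerm_smul hφ hτ])
    have h2 : ∫⁻ z, ∑' d : Tw σ, ‖twTerm φ τ d z‖ₑ ∂μ.withDensity w₀ ≠ ∞ := by
      convert hfin using 3 with z
      rw [← (Tw.of σ).tsum_eq]
      rfl
    rw [h1] at h2
    exact (ENNReal.ne_top_of_tsum_ne_top h2 o).lt_top
  obtain ⟨g, hg⟩ : ∃ g : G, g • (Quotient.mk'' δ : TwCls σ).out = δ := by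
    have h1 : (Quotient.mk'' (Quotient.mk'' δ : TwCls σ).out : TwCls σ) = Quotient.mk'' δ :=
      Quotient.out_eq' _
    rw [Quotient.eq''] at h1
    obtain ⟨k, hk⟩ := h1
    exact ⟨k⁻¹, inv_smul_eq_iff.mpr hk.symm⟩
  have hkey := key (Quotient.mk'' δ)
  revert hkey hg
  generalize (Quotient.mk'' δ : TwCls σ).out = d
  rintro rfl hkey
  have h3 := isWeight_conj hw'
  have h4 : Integrable (twTerm φ τ d) (μ.withDensity fun z => w' (g • z)) := by
    refine ((isWeight_subW h _).integrable_iff h3 (measurable_twTerm hm hτm d) ?_).mp hkey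
    rintro ⟨k, hk⟩ z
    have h1 := twTerm_smul (σ := σ) hφ hτ k d z
    rw [mem_stabilizer_iff.mp hk] at h1
    exact h1
  rw [h3.integrable_iff_smul] at h4
  rw [hw'.integrable_iff_smul,
    ← (measurePreserving_smul g μ).integrable_comp_emb (measurableEmbedding_const_smul g)]
  refine h4.congr (Filter.Eventually.of_forall fun z => ?_)
  simp only [Function.comp_apply, twTerm_smul hφ hτ]

end abs

/-! ### Comparison -/

section push

variable {G Z G' Z' : Type*} [Group G] [MeasurableSpace Z] [MulAction G Z] [Group G']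
  [MeasurableSpace Z'] [MulAction G' Z'] [Countable G] [MeasurableConstSMul G Z] {μ : Measure Z}
  [SMulInvariantMeasure G Z μ] [Countable G'] [MeasurableConstSMul G' Z'] {μ' : Measure Z'}
  [SMulInvariantMeasure G' Z' μ'] {w : Z → ℝ≥0∞} {w' : Z' → ℝ≥0∞} {σ : G ≃* G} {σ' : G' ≃* G'}
  {φ : Z → Z → ℂ} {φ' : Z' → Z' → ℂ} {τ : Z → Z} {τ' : Z' → Z'}

/-- **Comparison of two orbital integrals** by push-forward along a map which is equivariant under
the stabilisers. -/
theorem orbInt_eq_of_push (hw : IsWeight G w) (hw' : IsWeight G' w')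
    (hm : Measurable (Function.uncurry φ))
    (hφ : ∀ (g : G) x y, φ (g • x) (g • y) = φ x y) (hτm : Measurable τ)
    (hτ : ∀ (g : G) z, τ (g • z) = σ g • τ z)
    (hfin : ∫⁻ z, ∑' δ : G, ‖φ z (δ • τ z)‖ₑ ∂μ.withDensity w ≠ ∞)
    {j : G' →* G} (hj : Function.Injective j) {δ : Tw σ} {δ' : Tw σ'}
    (hst : stabilizer G δ = (stabilizer G' δ').map j) {S : Set Z} {p : Z → Z'}
    (hp : Measurable p)
    (hpS : ∀ t ∈ stabilizer G' δ', ∀ z ∈ S, p (j t • z) = t • p z)
    (hS : ∀ z, z ∉ S → twTerm φ τ δ z = 0)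
    (hpush : ∀ v : Z' → ℝ≥0∞, IsWeight (stabilizer G' δ') v →
      ∫ z, (v (p z)).toReal • twTerm φ τ δ z ∂μ =
        ∫ z, (v z).toReal • twTerm φ' τ' δ' z ∂μ') :
    orbInt μ w φ τ δ = orbInt μ' w' φ' τ' δ' := by
  let f : stabilizer G' δ' →* G := j.comp (stabilizer G' δ').subtype
  let _ : MulAction (stabilizer G' δ') Z := MulAction.compHom Z f
  have hsmul : ∀ (t : stabilizer G' δ') (z : Z), t • z = j t • z := fun t z => rfl
  have : MeasurableConstSMul (stabilizer G' δ') Z := ⟨fun t => measurable_const_smul (j t)⟩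
  have : SMulInvariantMeasure (stabilizer G' δ') Z μ :=
    ⟨fun t s hs => measure_preimage_smul μ (j t) s⟩
  have h1 : IsWeight (stabilizer G' δ') (subW w (stabilizer G δ)) := by
    have h2 := isWeight_subW hw (stabilizer G δ)
    refine ⟨h2.meas, fun z => ?_⟩
    have h3 := h2.sum_eq z
    let e : stabilizer G' δ' ≃ stabilizer G δ :=
      ((stabilizer G' δ').equivMapOfInjective j hj).toEquiv.trans (Equiv.setCongr (by rw [hst]))
    rw [← e.tsum_eq] at h3
    exact h3
  refine integral_push h1 (isWeight_subW hw' _) hp (fun t z hz => ?_) (fun t z => ?_) hS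
    (integrable_twTerm hw hm hφ hτm hτ hfin (isWeight_subW hw _)) (hpush _ (isWeight_subW hw' _))
  · rw [hsmul]
    exact hpS t t.2 z hz
  · rw [hsmul]
    have h2 := twTerm_smul (σ := σ) hφ hτ (j t) δ z
    have h3 : j t ∈ stabilizer G δ := by
      rw [hst]
      exact Subgroup.mem_map_of_mem j t.2
    rw [mem_stabilizer_iff.mp h3] at h2
    exact h2

end push

/-! ### The comparison of the two trace formulas -/

section compare

variable {K L : Type*} [Field K] [Field L] [Algebra K L] {τ : L ≃ₐ[K] L}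
  {Z Z' : Type*} [MeasurableSpace Z] [MulAction (PG L) Z] [MeasurableSpace Z']
  [MulAction (PG K) Z'] [Countable (PG L)] [MeasurableConstSMul (PG L) Z] {μ : Measure Z}
  [SMulInvariantMeasure (PG L) Z μ] [Countable (PG K)] [MeasurableConstSMul (PG K) Z']
  {μ' : Measure Z'} [SMulInvariantMeasure (PG K) Z' μ'] {w : Z → ℝ≥0∞} {w' : Z' → ℝ≥0∞}
  {φ : Z → Z → ℂ} {f : Z' → Z' → ℂ} {T : Z → Z}

/-- The local data at a pair `N x = γ`: an equivariant map on the support, with push-forward. -/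
structure PushAt (μ : Measure Z) (μ' : Measure Z') (φ : Z → Z → ℂ) (f : Z' → Z' → ℂ) (T : Z → Z)
    (x : PG L) (γ : PG K) : Prop where
  exists_push : ∃ (S : Set Z) (p : Z → Z'), Measurable p ∧
    (∀ t : PG K, t * γ = γ * t → ∀ z ∈ S, p (pup L t • z) = t • p z) ∧
    (∀ z, z ∉ S → φ z (x • T z) = 0) ∧
    ∀ v : Z' → ℝ≥0∞, IsWeight (Subgroup.centralizer {γ}) v →
      ∫ z, (v (p z)).toReal • φ z (x • T z) ∂μ = ∫ z, (v z).toReal • f z (γ • z) ∂μ'

/-- **Comparison of the geometric sides**, from the equality of the orbital integrals. -/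
theorem integral_aut_eq_of_orbInt (hτ : Cyc3 τ) (hw : IsWeight (PG L) w)
    (hw' : IsWeight (PG K) w') (hm : Measurable (Function.uncurry φ))
    (hφ : ∀ (g : PG L) x y, φ (g • x) (g • y) = φ x y) (hTm : Measurable T)
    (hT : ∀ (g : PG L) z, T (g • z) = pt τ g • T z)
    (hfin : ∫⁻ z, ∑' δ : PG L, ‖φ z (δ • T z)‖ₑ ∂μ.withDensity w ≠ ∞)
    (hm' : Measurable (Function.uncurry f))
    (hf : ∀ (g : PG K) x y, f (g • x) (g • y) = f x y)
    (hfin' : ∫⁻ z, ∑' δ : PG K, ‖f z (δ • z)‖ₑ ∂μ'.withDensity w' ≠ ∞)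
    (hL : ∀ x : PG L, ¬ PEll (pnm τ x) → ∀ z, φ z (x • T z) = 0)
    (hK : ∀ γ : PG K, ¬ PEll γ → ∀ z, f z (γ • z) = 0)
    (hK' : ∀ γ : PG K, PEll γ → ¬ IsPNorm τ γ → ∀ z, f z (γ • z) = 0)
    (hLK : ∀ (x : PG L) (γ : PG K), PEll γ → pnm τ x = pup L γ →
      orbInt μ w φ T (Tw.of (pt τ) x) = orbInt μ' w' f id (Tw.of (MulEquiv.refl (PG K)) γ)) :
    ∫ z, aut (PG L) φ z (T z) ∂μ.withDensity w = ∫ z, aut (PG K) f z z ∂μ'.withDensity w' := by
  have hid : ∀ (g : PG K) (z : Z'), id (g • z) = MulEquiv.refl (PG K) g • id z := fun _ _ => rfl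
  have e1 := integral_aut_eq_tsum_orbCls (σ := pt τ) hw hm hφ hTm hT hfin
  have e2 := integral_aut_eq_tsum_orbCls (σ := MulEquiv.refl (PG K)) (τ := id) hw' hm' hf
    measurable_id hid hfin'
  simp only [id] at e2
  rw [e1, e2]
  refine tsum_classes_eq hτ (fun x hx => ?_) (fun γ hγ => ?_) (fun γ hγ hn => ?_)
    (fun x γ hγ hx => ?_)
  · rw [orbCls_tcl hw hm hφ hTm hT, orbInt]
    simp only [twTerm_of, hL x hx, integral_zero]
  · rw [orbCls_tcl hw' hm' hf measurable_id hid, orbInt]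
    simp only [twTerm_of, id, hK γ hγ, integral_zero]
  · rw [orbCls_tcl hw' hm' hf measurable_id hid, orbInt]
    simp only [twTerm_of, id, hK' γ hγ hn, integral_zero]
  · rw [orbCls_tcl hw hm hφ hTm hT, orbCls_tcl hw' hm' hf measurable_id hid]
    exact hLK x γ hγ hx

/-- **Comparison of the geometric sides.** -/
theorem integral_aut_eq (hτ : Cyc3 τ) (hw : IsWeight (PG L) w) (hw' : IsWeight (PG K) w')
    (hm : Measurable (Function.uncurry φ))
    (hφ : ∀ (g : PG L) x y, φ (g • x) (g • y) = φ x y) (hTm : Measurable T)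
    (hT : ∀ (g : PG L) z, T (g • z) = pt τ g • T z)
    (hfin : ∫⁻ z, ∑' δ : PG L, ‖φ z (δ • T z)‖ₑ ∂μ.withDensity w ≠ ∞)
    (hm' : Measurable (Function.uncurry f))
    (hf : ∀ (g : PG K) x y, f (g • x) (g • y) = f x y)
    (hfin' : ∫⁻ z, ∑' δ : PG K, ‖f z (δ • z)‖ₑ ∂μ'.withDensity w' ≠ ∞)
    (hL : ∀ x : PG L, ¬ PEll (pnm τ x) → ∀ z, φ z (x • T z) = 0)
    (hK : ∀ γ : PG K, ¬ PEll γ → ∀ z, f z (γ • z) = 0)
    (hK' : ∀ γ : PG K, PEll γ → ¬ IsPNorm τ γ → ∀ z, f z (γ • z) = 0)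
    (hLK : ∀ (x : PG L) (γ : PG K), PEll γ → pnm τ x = pup L γ → PushAt μ μ' φ f T x γ) :
    ∫ z, aut (PG L) φ z (T z) ∂μ.withDensity w = ∫ z, aut (PG K) f z z ∂μ'.withDensity w' := by
  refine integral_aut_eq_of_orbInt hτ hw hw' hm hφ hTm hT hfin hm' hf hfin' hL hK hK'
    fun x γ hγ hx => ?_
  obtain ⟨S, p, hp, hpS, hS, hpush⟩ := (hLK x γ hγ hx).exists_push
  refine orbInt_eq_of_push hw hw' hm hφ hTm hT hfin (pup_injective (K := K) (L := L)) ?_ hp
    ?_ hS ?_
  · rw [stabilizer_eq_map hτ hγ hx, tw_stabilizer_refl]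
  · intro t ht z hz
    rw [tw_stabilizer_refl, Subgroup.mem_centralizer_singleton_iff] at ht
    exact hpS t ht z hz
  · intro v hv
    rw [tw_stabilizer_refl] at hv
    exact hpush v hv

end compare

end Fermat.Agent.LT.Dict

end
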