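import Fermat.Agent.LT.Match
import Fermat.Agent.LT.TauXi
import Fermat.Agent.LT.Tr.Dict

/-!
# The archimedean part of the comparison

`K` has one infinite place, `L / K` is cyclic of degree three, `L` has three infinite places,
permuted cyclically by `τ`.  For the product of three radial kernels on `Xi L` the push-forward of
`x ↦ k_L (x, x₀ • τ x)` by the first coordinate is `y ↦ k_K (y, γ • y)`, `N x₀ = γ`.
-/

set_option autoImplicit false

noncomputable section

open MeasureTheory NumberField Matrix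
open scoped ENNReal

namespace Fermat.Agent.LT.Dict

open H3

/-! ### Isometries of hyperbolic space -/

/-- measure preserving isometries -/
structure IsIsom (g : H3 ≃ᵐ H3) : Prop where
  mp : MeasurePreserving g volume volume
  cu : ∀ P Q, H3.cu (g P) (g Q) = H3.cu P Q

theorem IsIsom.refl : IsIsom (MeasurableEquiv.refl H3) where
  mp := MeasurePreserving.id _
  cu _ _ := rfl

theorem IsIsom.trans {g h : H3 ≃ᵐ H3} (hg : IsIsom g) (hh : IsIsom h) : IsIsom (g.trans h) where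
  mp := hh.mp.comp hg.mp
  cu _ _ := (hh.cu _ _).trans (hg.cu _ _)

theorem IsIsom.symm {g : H3 ≃ᵐ H3} (hg : IsIsom g) : IsIsom g.symm :=
  ⟨hg.mp.symm g, fun P Q => by
    rw [← hg.cu, MeasurableEquiv.apply_symm_apply, MeasurableEquiv.apply_symm_apply]⟩

/-- the action of an element of `GL₂(ℂ)` -/
def smulE (g : GL (Fin 2) ℂ) : H3 ≃ᵐ H3 := (Homeomorph.smul g).toMeasurableEquiv

@[simp] theorem smulE_apply (g : GL (Fin 2) ℂ) (P : H3) : smulE g P = g • P := rfl

theorem isIsom_smulE (g : GL (Fin 2) ℂ) : IsIsom (smulE g) :=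
  ⟨H3.measurePreserving_smul' g, fun P Q => cu_smul g P Q⟩

/-- the mirror image -/
def cjE : H3 ≃ᵐ H3 := cjHomeo.toMeasurableEquiv

theorem cjE_apply (P : H3) : cjE P = cj P := rfl

theorem isIsom_cjE : IsIsom cjE := ⟨measurePreserving_cj, fun P Q => cu_cj P Q⟩

open Classical in
/-- the comparison map of two embeddings -/
def cmpE {F : Type*} [Field F] (φ ψ : F →+* ℂ) : H3 ≃ᵐ H3 :=
  if φ = ψ then MeasurableEquiv.refl H3 else cjE

@[simp] theorem cmpE_apply {F : Type*} [Field F] (φ ψ : F →+* ℂ) (P : H3) :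
    cmpE φ ψ P = cmp φ ψ P := by
  by_cases h : φ = ψ
  · rw [cmpE, if_pos h, h, cmp_self]
    rfl
  · rw [cmpE, if_neg h, cmp_of_ne h]
    rfl

theorem isIsom_cmpE {F : Type*} [Field F] (φ ψ : F →+* ℂ) : IsIsom (cmpE φ ψ) := by
  unfold cmpE
  split_ifs
  · exact IsIsom.refl
  · exact isIsom_cjE

/-- radial kernels -/
def rk (κ : ℝ → ℂ) (P Q : H3) : ℂ := κ (cu P Q)

theorem IsIsom.rk {g : H3 ≃ᵐ H3} (hg : IsIsom g) (κ : ℝ → ℂ) (P Q : H3) :
    rk κ (g P) (g Q) = rk κ P Q := by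
  unfold Dict.rk
  rw [hg.cu]

theorem IsIsom.kcomp3 {g : H3 ≃ᵐ H3} (hg : IsIsom g) (κ₁ κ₂ κ₃ : ℝ → ℂ) (P Q : H3) :
    kcomp3 volume (Dict.rk κ₁) (Dict.rk κ₂) (Dict.rk κ₃) (g P) (g Q) =
      kcomp3 volume (Dict.rk κ₁) (Dict.rk κ₂) (Dict.rk κ₃) P Q := by
  unfold LT.kcomp3
  have he : MeasurePreserving (MeasurableEquiv.prodCongr g g)
      ((volume : Measure H3).prod volume) ((volume : Measure H3).prod volume) := hg.mp.prod hg.mp
  rw [← he.integral_comp']
  refine integral_congr_ae (Filter.Eventually.of_forall fun yz => ?_)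
  show Dict.rk κ₁ (g P) (g yz.1) * Dict.rk κ₂ (g yz.1) (g yz.2) * Dict.rk κ₃ (g yz.2) (g Q) = _
  rw [hg.rk, hg.rk, hg.rk]

/-! ### The places -/

variable {K L : Type*} [Field K] [Field L] [Algebra K L]

/-- The three infinite places of `L` are permuted cyclically by `τ`. -/
structure CycPlaces (τ : L ≃ₐ[K] L) (e : Fin 3 ≃ InfinitePlace L) : Prop where
  comap : ∀ i, (e i).comap ((τ : L ≃+* L) : L →+* L) = e (i + 1)

/-- the twisted action: `x ↦ x₀ • τ x` -/
def twAct (τ : L ≃ₐ[K] L) (x₀ : PG L) (x : Xi L) : Xi L := x₀ • Xi.tau (τ : L ≃+* L) x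

theorem pt_eq_tau (τ : L ≃ₐ[K] L) (x : PG L) : pt τ x = PG.tau (τ : L ≃+* L) x := by
  obtain ⟨g, rfl⟩ := pmk_surjective x
  rfl

theorem pup_eq_map (x : PG K) : pup L x = PG.map (algebraMap K L) x := by
  obtain ⟨g, rfl⟩ := pmk_surjective x
  rfl

theorem xi_tau_smul (τ : L ≃ₐ[K] L) (g : PG L) (x : Xi L) :
    Xi.tau (τ : L ≃+* L) (g • x) = pt τ g • Xi.tau (τ : L ≃+* L) x := by
  rw [pt_eq_tau]
  exact PG.xi_tau_smul _ g x

theorem xi_pr_smul {s : InfinitePlace K → InfinitePlace L}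
    (hs : Xi.IsAbove (algebraMap K L) s) (t : PG K) (x : Xi L) :
    Xi.pr (algebraMap K L) s (pup L t • x) = t • Xi.pr (algebraMap K L) s x := by
  obtain ⟨g, rfl⟩ := pmk_surjective t
  rw [pup_pmk, pmk_smul, pmk_smul]
  exact Xi.pr_smul hs g x

/-- `(x₀ τ)³ = N x₀`. -/
theorem twAct_three [IsTotallyComplex L] {τ : L ≃ₐ[K] L} (hτ : Cyc3 τ) (x₀ : PG L) (x : Xi L) :
    twAct τ x₀ (twAct τ x₀ (twAct τ x₀ x)) = pnm τ x₀ • x := by
  have h3 : (τ : L ≃+* L).trans ((τ : L ≃+* L).trans (τ : L ≃+* L)) = RingEquiv.refl L := by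
    ext a
    exact hτ.cube a
  have h4 : Xi.tau (τ : L ≃+* L) (Xi.tau (τ : L ≃+* L) (Xi.tau (τ : L ≃+* L) x)) = x := by
    rw [← Xi.tau_trans, ← Xi.tau_trans]
    rw [h3, Xi.tau_refl]
  simp only [twAct, xi_tau_smul]
  rw [h4, smul_smul, smul_smul, pnm]

/-! ### Coordinates -/

section coord

variable (τ : L ≃ₐ[K] L) (e : Fin 3 ≃ InfinitePlace L) (d : GL (Fin 2) L)

/-- the isometry `x (e (i+1)) ↦ (d • τ x) (e i)` -/
def gIso (i : Fin 3) : H3 ≃ᵐ H3 :=
  (cmpE ((e i).embedding.comp ((τ : L ≃+* L) : L →+* L)) (e (i + 1)).embedding).trans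
    (smulE (GeneralLinearGroup.map (n := Fin 2) (e i).embedding d))

theorem isIsom_gIso (i : Fin 3) : IsIsom (gIso τ e d i) :=
  (isIsom_cmpE _ _).trans (isIsom_smulE _)

variable {τ e}

theorem twAct_apply (he : CycPlaces τ e) (x : Xi L) (i : Fin 3) :
    twAct τ (pmk d) x (e i) = gIso τ e d i (x (e (i + 1))) := by
  rw [twAct, pmk_smul, Xi.smul_apply, Xi.tau_apply, he.comap i]
  show _ = GeneralLinearGroup.map (n := Fin 2) (e i).embedding d •
    cmpE ((e i).embedding.comp ((τ : L ≃+* L) : L →+* L)) (e (i + 1)).embedding (x (e (i + 1)))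
  rw [cmpE_apply]

end coord

/-- the kernel on `Xi L`: product of radial kernels -/
def kerXi {F : Type*} [Field F] [NumberField F] (κ : InfinitePlace F → ℝ → ℂ) (x x' : Xi F) : ℂ :=
  ∏ w, κ w (cu (x w) (x' w))

theorem kerXi_eq [NumberField L] (κ : InfinitePlace L → ℝ → ℂ) (e : Fin 3 ≃ InfinitePlace L)
    (x x' : Xi L) : kerXi κ x x' = rk (κ (e 0)) (x (e 0)) (x' (e 0)) *
      rk (κ (e 1)) (x (e 1)) (x' (e 1)) * rk (κ (e 2)) (x (e 2)) (x' (e 2)) := by
  unfold kerXi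
  rw [← e.prod_comp, Fin.prod_univ_three]
  rfl

/-- the transferred kernel on `Xi K` -/
def kerDown [Unique (InfinitePlace K)] (κ : InfinitePlace L → ℝ → ℂ)
    (e : Fin 3 ≃ InfinitePlace L) (y y' : Xi K) : ℂ :=
  kcomp3 volume (rk (κ (e 0))) (rk (κ (e 1))) (rk (κ (e 2))) (y default) (y' default)

/-- **The archimedean push-forward.** -/
structure PushInf (τ : L ≃ₐ[K] L) (kL : Xi L → Xi L → ℂ) (kK : Xi K → Xi K → ℂ)
    [NumberField K] [NumberField L] (x₀ : PG L) (γ : PG K) (q : Xi L → Xi K) : Prop where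
  meas : Measurable q
  equiv : ∀ (t : PG K) (x : Xi L), q (pup L t • x) = t • q x
  push : ∀ F : Xi K → ℝ, Measurable F → (∀ x, 0 ≤ F x ∧ F x ≤ 1) →
    Integrable (fun x => F (q x) • kL x (twAct τ x₀ x)) volume →
    ∫ x, F (q x) • kL x (twAct τ x₀ x) = ∫ y, F y • kK y (γ • y)

theorem pushInf [NumberField K] [NumberField L] [IsTotallyComplex L] [Unique (InfinitePlace K)]
    {τ : L ≃ₐ[K] L} (hτ : Cyc3 τ) {e : Fin 3 ≃ InfinitePlace L} (he : CycPlaces τ e)
    (κ : InfinitePlace L → ℝ → ℂ) {x₀ : PG L} {γ : PG K} (h : pnm τ x₀ = pup L γ) :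
    PushInf τ (kerXi κ) (kerDown κ e) x₀ γ (Xi.pr (algebraMap K L) fun _ => e 0) := by
  have hs : Xi.IsAbove (algebraMap K L) fun _ : InfinitePlace K => e 0 := fun v =>
    Subsingleton.elim _ _
  obtain ⟨d, rfl⟩ := pmk_surjective x₀
  set v : InfinitePlace K := default with hv
  set c : H3 ≃ᵐ H3 := cmpE v.embedding ((e 0).embedding.comp (algebraMap K L)) with hc
  have hcI : IsIsom c := isIsom_cmpE _ _
  have hpr : ∀ x : Xi L, Xi.pr (algebraMap K L) (fun _ => e 0) x = fun _ => c (x (e 0)) := by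
    intro x
    funext u
    obtain rfl : u = v := Subsingleton.elim _ _
    rw [Xi.pr_apply, hc, cmpE_apply]
  -- the composition of the three isometries is the action of `γ`
  have hN : ∀ y : Xi K, c (gIso τ e d 0 (gIso τ e d 1 (gIso τ e d 2 (c.symm (y v))))) =
      (γ • y) v := by
    intro y
    let x : Xi L := fun _ => c.symm (y v)
    have h1 : Xi.pr (algebraMap K L) (fun _ => e 0) x = y := by
      rw [hpr]
      funext u
      obtain rfl : u = v := Subsingleton.elim _ _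
      exact c.apply_symm_apply _
    have h2 := xi_pr_smul hs γ x
    rw [h1, ← h, ← twAct_three hτ, hpr] at h2
    have h3 := congrFun h2 v
    rw [← h3]
    have e0 : (2 : Fin 3) + 1 = 0 := rfl
    have e1 : (0 : Fin 3) + 1 = 1 := rfl
    have e2 : (1 : Fin 3) + 1 = 2 := rfl
    show _ = c (twAct τ (pmk d) (twAct τ (pmk d) (twAct τ (pmk d) x)) (e 0))
    rw [twAct_apply d he, twAct_apply d he, twAct_apply d he, e1, e2, e0]
  refine ⟨(Xi.continuous_pr _ _).measurable, xi_pr_smul hs, fun F hF hF1 hi => ?_⟩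
  have key := push_inf (κ := InfinitePlace K) e (volume : Measure H3)
    (f₁ := rk (κ (e 0))) (f₂ := rk (κ (e 1))) (f₃ := rk (κ (e 2)))
    (gIso τ e d 0) (gIso τ e d 1) (gIso τ e d 2) c (isIsom_gIso τ e d 0).mp
    (isIsom_gIso τ e d 1).mp hcI.mp (fun x y => (isIsom_gIso τ e d 0).rk _ x y)
    (fun x y => by
      rw [(isIsom_gIso τ e d 0).rk, (isIsom_gIso τ e d 1).rk]) F
  have hker : ∀ x : Xi L, kerXi κ x (twAct τ (pmk d) x) =
      rk (κ (e 0)) (x (e 0)) (gIso τ e d 0 (x (e 1))) *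
        rk (κ (e 1)) (x (e 1)) (gIso τ e d 1 (x (e 2))) *
        rk (κ (e 2)) (x (e 2)) (gIso τ e d 2 (x (e 0))) := by
    intro x
    rw [kerXi_eq κ e, twAct_apply d he, twAct_apply d he, twAct_apply d he]
    rfl
  simp only [hker, hpr] at hi ⊢
  have key' := key hi
  have h4 : ∫ y : Xi K, F y • kcomp3 volume (rk (κ (e 0))) (rk (κ (e 1))) (rk (κ (e 2)))
      (c.symm (y v)) (gIso τ e d 0 (gIso τ e d 1 (gIso τ e d 2 (c.symm (y v))))) =
      ∫ y : Xi K, F y • kerDown κ e y (γ • y) := by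
    refine integral_congr_ae (Filter.Eventually.of_forall fun y => ?_)
    beta_reduce
    rw [kerDown, ← hN y, ← hcI.kcomp3, c.apply_symm_apply]
  have h5 : (volume : Measure (Xi K)) = @Measure.pi (InfinitePlace K) (fun _ => H3)
      (Unique.fintype) _ fun _ => volume := by
    have h6 : (Unique.fintype : Fintype (InfinitePlace K)) = NumberField.InfinitePlace.fintype :=
      Subsingleton.elim _ _
    rw [h6]
    rfl
  refine Eq.trans ?_ h4
  rw [h5]
  exact key'

end Fermat.Agent.LT.Dict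

end
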