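import Fermat.Agent.LT.Tr.Orbital
import Fermat.Agent.LT.Tr.PushInf

/-!
# Comparison of the geometric sides for product kernels on `Xi × D`
-/

set_option autoImplicit false
set_option linter.unusedSectionVars false

noncomputable section

open MeasureTheory MulAction NumberField Matrix
open scoped ENNReal

namespace Fermat.Agent.LT.Dict

open H3

variable {K L : Type*} [Field K] [Field L] [Algebra K L]

open Classical in
/-- **The push-forward on the discrete part**, at the pair `N x₀ = γ`: `Φ d = a (d, x₀ τ d)`,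
`Ψ e = b (e, γ e)`. -/
structure PushD {A B : Type*} [MulAction (PG L) A] [MulAction (PG K) B] (γ : PG K) (p : A → B)
    (Φ : A → ℂ) (Ψ : B → ℂ) : Prop where
  equiv : ∀ t : PG K, t * γ = γ * t → ∀ a, Φ a ≠ 0 → p (pup L t • a) = t • p a
  fin : ∀ b, {a | Φ a ≠ 0 ∧ p a = b}.Finite
  sum : ∀ b, ∑ᶠ a, (if p a = b then Φ a else 0) = Ψ b

/-- from helper59's `IsPush` for any group which maps onto the centraliser of `γ` -/
theorem PushD.of_isPush {A B T : Type*} [MulAction (PG L) A] [MulAction (PG K) B] [Group T]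
    [MulAction T A] [MulAction T B] {γ : PG K} {p : A → B} {Φ : A → ℂ} {Ψ : B → ℂ}
    (h : IsPush T p Φ Ψ)
    (hT : ∀ t : PG K, t * γ = γ * t →
      ∃ t' : T, (∀ a : A, t' • a = pup L t • a) ∧ ∀ b : B, t' • b = t • b) :
    PushD (L := L) γ p Φ Ψ where
  equiv t ht a ha := by
    obtain ⟨t', h1, h2⟩ := hT t ht
    rw [← h1, ← h2]
    exact h.equiv t' a ha
  fin := h.fin
  sum := h.sum

section main

variable [NumberField K] [NumberField L]
  {A B : Type*} [MulAction (GL (Fin 2) L) A] [TrivScalar L A] [MulAction (GL (Fin 2) K) B]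
  [TrivScalar K B] [Countable A] [MeasurableSpace A] [MeasurableSingletonClass A] [Countable B]
  [MeasurableSpace B] [MeasurableSingletonClass B] [Countable (PG L)] [Countable (PG K)]
  {τ : L ≃ₐ[K] L} {w : Xi L × A → ℝ≥0∞} {w' : Xi K × B → ℝ≥0∞}

/-- product kernels -/
def pker {X D : Type*} (k : X → X → ℂ) (a : D → D → ℂ) (z z' : X × D) : ℂ :=
  k z.1 z'.1 * a z.2 z'.2

theorem measurable_pker {X : Type*} [MeasurableSpace X] {k : X → X → ℂ}
    (hk : Measurable (Function.uncurry k)) (a : A → A → ℂ) :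
    Measurable (Function.uncurry (pker k a)) := by
  have h1 : Measurable fun z : (X × A) × (X × A) => k z.1.1 z.2.1 :=
    hk.comp ((measurable_fst.comp measurable_fst).prodMk (measurable_fst.comp measurable_snd))
  have h2 : Measurable fun z : (X × A) × (X × A) => a z.1.2 z.2.2 :=
    (Measurable.of_discrete (f := Function.uncurry a)).comp
      ((measurable_snd.comp measurable_fst).prodMk (measurable_snd.comp measurable_snd))
  exact h1.mul h2

omit [Countable A] [MeasurableSpace A] [MeasurableSingletonClass A] in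
theorem pker_smul {G X D : Type*} [Group G] [MulAction G X] [MulAction G D] {k : X → X → ℂ}
    {a : D → D → ℂ} (hk : ∀ (g : G) x y, k (g • x) (g • y) = k x y)
    (ha : ∀ (g : G) x y, a (g • x) (g • y) = a x y) (g : G) (z z' : X × D) :
    pker k a (g • z) (g • z') = pker k a z z' := by
  unfold pker
  rw [Prod.smul_fst, Prod.smul_fst, Prod.smul_snd, Prod.smul_snd, hk, ha]

/-- **Equality of the orbital integrals** at a pair `N x₀ = γ`. -/
theorem orbInt_eq_prod (hτ : Cyc3 τ) (hw : IsWeight (PG L) w) (hw' : IsWeight (PG K) w')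
    {kL : Xi L → Xi L → ℂ} {kK : Xi K → Xi K → ℂ} {a : A → A → ℂ} {b : B → B → ℂ}
    {tA : A → A} (htA : ∀ (g : PG L) d, tA (g • d) = pt τ g • tA d)
    (hkL : Measurable (Function.uncurry kL)) (hkK : Measurable (Function.uncurry kK))
    (hkL' : ∀ (g : PG L) x y, kL (g • x) (g • y) = kL x y)
    (hkK' : ∀ (g : PG K) x y, kK (g • x) (g • y) = kK x y)
    (ha : ∀ (g : PG L) x y, a (g • x) (g • y) = a x y)
    (hb : ∀ (g : PG K) x y, b (g • x) (g • y) = b x y)
    (hfin : ∫⁻ z, ∑' δ : PG L, ‖pker kL a z (δ • Prod.map (Xi.tau (τ : L ≃+* L)) tA z)‖ₑ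
      ∂(muZ L A).withDensity w ≠ ∞)
    (hfin' : ∫⁻ z, ∑' δ : PG K, ‖pker kK b z (δ • z)‖ₑ ∂(muZ K B).withDensity w' ≠ ∞)
    {x₀ : PG L} {γ : PG K} (hγ : PEll γ) (hx : pnm τ x₀ = pup L γ)
    {q : Xi L → Xi K} (hq : PushInf τ kL kK x₀ γ q) {p : A → B}
    (hp : PushD (L := L) γ p (fun d => a d (x₀ • tA d)) fun d => b d (γ • d)) :
    orbInt (muZ L A) w (pker kL a) (Prod.map (Xi.tau (τ : L ≃+* L)) tA) (Tw.of (pt τ) x₀) =
      orbInt (muZ K B) w' (pker kK b) id (Tw.of (MulEquiv.refl (PG K)) γ) := by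
  -- the group `T` and its actions
  set T₀ : Subgroup (PG K) := Subgroup.centralizer {γ} with hT₀
  let f : T₀ →* PG L := (pup L).comp T₀.subtype
  let _ : MulAction T₀ (Xi L) := MulAction.compHom (Xi L) f
  let _ : MulAction T₀ A := MulAction.compHom A f
  have hsX : ∀ (t : T₀) (x : Xi L), t • x = pup L (t : PG K) • x := fun _ _ => rfl
  have hsA : ∀ (t : T₀) (d : A), t • d = pup L (t : PG K) • d := fun _ _ => rfl
  have hsZ : ∀ (t : T₀) (z : Xi L × A), t • z = pup L (t : PG K) • z := fun _ _ => rfl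
  have : MeasurableConstSMul T₀ (Xi L × A) :=
    ⟨fun t => measurable_const_smul (pup L (t : PG K))⟩
  have : SMulInvariantMeasure T₀ (Xi L × A) (muZ L A) :=
    ⟨fun t s hs => measure_preimage_smul (muZ L A) (pup L (t : PG K)) s⟩
  have : SMulInvariantMeasure T₀ (Xi L × A) ((volume : Measure (Xi L)).prod Measure.count) := this
  -- the data on the two sides
  have hkm : Measurable (Function.uncurry (pker kL a)) := measurable_pker hkL a
  have hkm' : Measurable (Function.uncurry (pker kK b)) := measurable_pker hkK b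
  have hinvL : ∀ (g : PG L) (z z' : Xi L × A), pker kL a (g • z) (g • z') = pker kL a z z' :=
    pker_smul hkL' ha
  have hinvK : ∀ (g : PG K) (z z' : Xi K × B), pker kK b (g • z) (g • z') = pker kK b z z' :=
    pker_smul hkK' hb
  set T : Xi L × A → Xi L × A := Prod.map (Xi.tau (τ : L ≃+* L)) tA with hT
  have hTm : Measurable T := (Xi.continuous_tau _).measurable.prodMap Measurable.of_discrete
  have hTe : ∀ (g : PG L) (z : Xi L × A), T (g • z) = pt τ g • T z := fun g z =>
    Prod.ext (xi_tau_smul τ g z.1) (htA g z.2)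
  have hid : ∀ (g : PG K) (z : Xi K × B), id (g • z) = MulEquiv.refl (PG K) g • id z :=
    fun _ _ => rfl
  have hstL := stabilizer_eq_map hτ hγ hx
  have hstK := tw_stabilizer_refl γ
  -- the weights
  have hW : IsWeight T₀ (subW w (stabilizer (PG L) (Tw.of (pt τ) x₀))) := by
    have h2 := isWeight_subW hw (stabilizer (PG L) (Tw.of (pt τ) x₀))
    refine ⟨h2.meas, fun z => ?_⟩
    have h3 := h2.sum_eq z
    let e : T₀ ≃ stabilizer (PG L) (Tw.of (pt τ) x₀) :=
      (T₀.equivMapOfInjective (pup L) pup_injective).toEquiv.trans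
        (Equiv.setCongr (by rw [hstL]))
    rw [← e.tsum_eq] at h3
    exact h3
  have hW' : IsWeight T₀ (subW w' T₀) := isWeight_subW hw' T₀
  have hi : Integrable (twTerm (pker kL a) T (Tw.of (pt τ) x₀))
      ((muZ L A).withDensity (subW w (stabilizer (PG L) (Tw.of (pt τ) x₀)))) :=
    integrable_twTerm hw hkm hinvL hTm hTe hfin (isWeight_subW hw _)
  have hi' : Integrable (twTerm (pker kK b) id (Tw.of (MulEquiv.refl (PG K)) γ))
      ((muZ K B).withDensity (subW w' T₀)) := by
    refine integrable_twTerm hw' hkm' hinvK measurable_id hid ?_ ?_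
    · simpa only [id] using hfin'
    · rw [hstK]
      exact hW'
  have hinv : ∀ (t : T₀) (z : Xi L × A),
      twTerm (pker kL a) T (Tw.of (pt τ) x₀) (t • z) =
        twTerm (pker kL a) T (Tw.of (pt τ) x₀) z := by
    intro t z
    have h1 := twTerm_smul (σ := pt τ) hinvL hTe (pup L (t : PG K)) (Tw.of (pt τ) x₀) z
    have h2 : pup L (t : PG K) ∈ stabilizer (PG L) (Tw.of (pt τ) x₀) := by
      rw [hstL]
      exact Subgroup.mem_map_of_mem _ t.2
    rw [mem_stabilizer_iff.mp h2] at h1
    exact h1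
  have hpush : IsPush T₀ p (fun d => a d (x₀ • tA d)) fun d => b d (γ • d) :=
    ⟨fun t d hd => hp.equiv t (Subgroup.mem_centralizer_singleton_iff.mp t.2) d hd, hp.fin,
      hp.sum⟩
  have hkx : Measurable fun x : Xi L => kL x (twAct τ x₀ x) := by
    refine hkL.comp (measurable_id.prodMk ?_)
    exact (measurable_const_smul x₀).comp (Xi.continuous_tau _).measurable
  have key := orb_eq (T := T₀) (μ := (volume : Measure (Xi L))) (μ' := (volume : Measure (Xi K)))
    hW hW' hq.meas hkx (fun t x _ => hq.equiv t x) hq.push hpush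
    (fun t z => hinv t z) hi hi'
  have hst : subW w' (stabilizer (PG K) (Tw.of (MulEquiv.refl (PG K)) γ)) = subW w' T₀ := by
    rw [hstK]
  rw [orbInt, orbInt, hst]
  exact key

/-! ### The kernels at infinity -/

omit [NumberField K] [NumberField L] in
theorem xi_smul_pg {F : Type*} [Field F] (g : GL (Fin 2) F) (x : Xi F) (w : InfinitePlace F) :
    ((pmk g : PG F) • x) w = (GeneralLinearGroup.map (n := Fin 2) w.embedding g) • x w := rfl

theorem kerXi_smul {F : Type*} [Field F] [NumberField F] (κ : InfinitePlace F → ℝ → ℂ)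
    (g : PG F) (x x' : Xi F) : kerXi κ (g • x) (g • x') = kerXi κ x x' := by
  obtain ⟨g, rfl⟩ := pmk_surjective g
  unfold kerXi
  simp only [xi_smul_pg, cu_smul]

theorem measurable_xi_apply {F : Type*} [Field F] (w : InfinitePlace F) :
    Measurable fun x : Xi F => x w := by
  have h : Measurable fun x : InfinitePlace F → H3 => x w := measurable_pi_apply w
  exact h

theorem measurable_xi_pair {F : Type*} [Field F] (w : InfinitePlace F) :
    Measurable fun p : Xi F × Xi F => ((p.1 w, p.2 w) : H3 × H3) := by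
  have h1 : Measurable fun p : Xi F × Xi F => p.1 w :=
    (measurable_xi_apply w).comp (measurable_fst : Measurable (Prod.fst : Xi F × Xi F → Xi F))
  have h2 : Measurable fun p : Xi F × Xi F => p.2 w :=
    (measurable_xi_apply w).comp (measurable_snd : Measurable (Prod.snd : Xi F × Xi F → Xi F))
  exact h1.prodMk h2

theorem measurable_cu_h3 : Measurable fun p : H3 × H3 => cu p.1 p.2 := continuous_cu.measurable

theorem measurable_cu_xi {F : Type*} [Field F] (w : InfinitePlace F) :
    Measurable fun p : Xi F × Xi F => cu (p.1 w) (p.2 w) := by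
  have h := measurable_cu_h3.comp (measurable_xi_pair w)
  have h2 : (fun p : Xi F × Xi F => cu (p.1 w) (p.2 w)) =
    (fun p : H3 × H3 => cu p.1 p.2) ∘ fun p : Xi F × Xi F => ((p.1 w, p.2 w) : H3 × H3) := rfl
  rw [h2]
  exact h

theorem measurable_kerXi {F : Type*} [Field F] [NumberField F] {κ : InfinitePlace F → ℝ → ℂ}
    (hκ : ∀ w, Measurable (κ w)) : Measurable (Function.uncurry (kerXi κ)) := by
  have h1 : Measurable fun p : Xi F × Xi F => ∏ w, κ w (cu (p.1 w) (p.2 w)) :=
    Finset.measurable_fun_prod _ fun w _ => (hκ w).comp (measurable_cu_xi w)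
  exact h1

theorem kerDown_smul [Unique (InfinitePlace K)] (κ : InfinitePlace L → ℝ → ℂ)
    (e : Fin 3 ≃ InfinitePlace L) (g : PG K) (y y' : Xi K) :
    kerDown κ e (g • y) (g • y') = kerDown κ e y y' := by
  obtain ⟨g, rfl⟩ := pmk_surjective g
  unfold kerDown
  rw [xi_smul_pg, xi_smul_pg]
  exact (isIsom_smulE _).kcomp3 _ _ _ _ _

theorem measurable_rk {κ : ℝ → ℂ} (hκ : Measurable κ) :
    Measurable (Function.uncurry (rk κ)) := hκ.comp continuous_cu.measurable

theorem measurable_kcomp3 {f₁ f₂ f₃ : H3 → H3 → ℂ} (h₁ : Measurable (Function.uncurry f₁))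
    (h₂ : Measurable (Function.uncurry f₂)) (h₃ : Measurable (Function.uncurry f₃)) :
    Measurable (Function.uncurry (kcomp3 volume f₁ f₂ f₃)) := by
  have h : Measurable (Function.uncurry fun (p : H3 × H3) (yz : H3 × H3) =>
      f₁ p.1 yz.1 * f₂ yz.1 yz.2 * f₃ yz.2 p.2) := by
    have e1 : Measurable fun q : (H3 × H3) × (H3 × H3) => f₁ q.1.1 q.2.1 :=
      h₁.comp ((measurable_fst.comp measurable_fst).prodMk (measurable_fst.comp measurable_snd))
    have e2 : Measurable fun q : (H3 × H3) × (H3 × H3) => f₂ q.2.1 q.2.2 :=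
      h₂.comp ((measurable_fst.comp measurable_snd).prodMk (measurable_snd.comp measurable_snd))
    have e3 : Measurable fun q : (H3 × H3) × (H3 × H3) => f₃ q.2.2 q.1.2 :=
      h₃.comp ((measurable_snd.comp measurable_snd).prodMk (measurable_snd.comp measurable_fst))
    exact (e1.mul e2).mul e3
  exact h.stronglyMeasurable.integral_prod_right.measurable

theorem measurable_kerDown [Unique (InfinitePlace K)] {κ : InfinitePlace L → ℝ → ℂ}
    (hκ : ∀ w, Measurable (κ w)) (e : Fin 3 ≃ InfinitePlace L) :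
    Measurable (Function.uncurry (kerDown (K := K) κ e)) := by
  have h1 := measurable_kcomp3 (measurable_rk (hκ (e 0))) (measurable_rk (hκ (e 1)))
    (measurable_rk (hκ (e 2)))
  have h2 := h1.comp (measurable_xi_pair (default : InfinitePlace K))
  have h3 : Function.uncurry (kerDown (K := K) κ e) =
    Function.uncurry (kcomp3 volume (rk (κ (e 0))) (rk (κ (e 1))) (rk (κ (e 2)))) ∘
      fun p : Xi K × Xi K => ((p.1 default, p.2 default) : H3 × H3) := rfl
  rw [h3]
  exact h2

/-- **Comparison of the geometric sides for product kernels.** -/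
theorem integral_aut_eq_prod [IsTotallyComplex L] [Unique (InfinitePlace K)] (hτ : Cyc3 τ)
    {e : Fin 3 ≃ InfinitePlace L} (he : CycPlaces τ e)
    (hw : IsWeight (PG L) w) (hw' : IsWeight (PG K) w')
    {κ : InfinitePlace L → ℝ → ℂ} (hκ : ∀ w, Measurable (κ w)) {a : A → A → ℂ} {b : B → B → ℂ}
    {tA : A → A} (htA : ∀ (g : PG L) d, tA (g • d) = pt τ g • tA d)
    (ha : ∀ (g : PG L) x y, a (g • x) (g • y) = a x y)
    (hb : ∀ (g : PG K) x y, b (g • x) (g • y) = b x y)
    (hfin : ∫⁻ z, ∑' δ : PG L,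
      ‖pker (kerXi κ) a z (δ • Prod.map (Xi.tau (τ : L ≃+* L)) tA z)‖ₑ
      ∂(muZ L A).withDensity w ≠ ∞)
    (hfin' : ∫⁻ z, ∑' δ : PG K, ‖pker (kerDown κ e) b z (δ • z)‖ₑ
      ∂(muZ K B).withDensity w' ≠ ∞)
    (hL : ∀ x : PG L, ¬ PEll (pnm τ x) → ∀ z : Xi L × A,
      pker (kerXi κ) a z (x • Prod.map (Xi.tau (τ : L ≃+* L)) tA z) = 0)
    (hK : ∀ γ : PG K, ¬ PEll γ → ∀ z : Xi K × B, pker (kerDown κ e) b z (γ • z) = 0)
    (hK' : ∀ γ : PG K, PEll γ → ¬ IsPNorm τ γ → ∀ z : Xi K × B,
      pker (kerDown κ e) b z (γ • z) = 0)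
    (hD : ∀ (x₀ : PG L) (γ : PG K), PEll γ → pnm τ x₀ = pup L γ →
      ∃ p : A → B, PushD (L := L) γ p (fun d => a d (x₀ • tA d)) fun d => b d (γ • d)) :
    ∫ z, aut (PG L) (pker (kerXi κ) a) z (Prod.map (Xi.tau (τ : L ≃+* L)) tA z)
        ∂(muZ L A).withDensity w =
      ∫ z, aut (PG K) (pker (kerDown κ e) b) z z ∂(muZ K B).withDensity w' := by
  have hkm := measurable_pker (A := A) (measurable_kerXi hκ) a
  have hkm' := measurable_pker (A := B) (measurable_kerDown (K := K) hκ e) b
  refine integral_aut_eq_of_orbInt hτ hw hw' hkm (pker_smul (kerXi_smul κ) ha)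
    ((Xi.continuous_tau _).measurable.prodMap Measurable.of_discrete)
    (fun g z => Prod.ext (xi_tau_smul τ g z.1) (htA g z.2)) hfin hkm'
    (pker_smul (kerDown_smul κ e) hb) hfin' hL hK hK' fun x₀ γ hγ hx => ?_
  obtain ⟨p, hp⟩ := hD x₀ γ hγ hx
  exact orbInt_eq_prod hτ hw hw' htA (measurable_kerXi hκ) (measurable_kerDown hκ e)
    (kerXi_smul κ) (kerDown_smul κ e) ha hb hfin hfin' hγ hx (pushInf hτ he κ hx) hp

end main

end Fermat.Agent.LT.Dict

end
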