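import Fermat.Agent.LT.Sttf.XiTr
import Fermat.Agent.LT.Auto.Pack
import Fermat.Agent.LT.Iso.Cat
import Fermat.Agent.LT.Desc.TauV

/-!
# One side of the comparison of traces

`W : List κ → Symb` multiplicative; `GoodP Kd hw W P` : the operator `O = ∑ P m • op (W m)` is
self-adjoint, vanishes on the orthogonal complement of `V` and is Hilbert–Schmidt on `V`.
`GoodP.hasSum_tau`, `GoodP.hasSum_id` : the traces of
`(∑ (P₁ P₂) m • op (W (l ++ m) * (1, X))) * τ`.
-/

set_option autoImplicit false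
set_option linter.unusedSectionVars false

noncomputable section

open MeasureTheory ENNReal MulAction ProbabilityTheory NumberField
open scoped InnerProductSpace ComplexConjugate

namespace Fermat.Agent.LT.Tr

open H3 Fermat.Agent.LT.Desc Fermat.Agent.LT.Iso Fermat.Agent.LT.Sttf

section Full

variable {G D : Type*} [Group G] [MulAction G D] {𝒦 : Type*} [CommSemigroup 𝒦]

theorem mul_mem_fullS_left (s : Symb G D 𝒦) {j : Symb G D 𝒦} (hj : j ∈ fullS G D 𝒦) :
    s * j ∈ fullS G D 𝒦 := by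
  have hj' : ((j.1, s.2 * j.2) : Symb G D 𝒦) ∈ fullS G D 𝒦 := hj
  have h1 : ((j.1, s.2 * j.2) : Symb G D 𝒦) * (s.1, 1) ∈ fullS G D 𝒦 := mul_mem_fullS _ hj'
  have h2 : s * j = ((j.1, s.2 * j.2) : Symb G D 𝒦) * (s.1, 1) := by
    refine Prod.ext (mul_comm _ _) ?_
    exact (mul_one _).symm
  rw [h2]
  exact h1

end Full

section Lin

variable {H : Type*} [NormedAddCommGroup H] [InnerProductSpace ℂ H] {M : Type*} [Monoid M]
  {ι : Type*} (φ : M →* (H →L[ℂ] H))

theorem sum_smul_mul_left (t : Finset ι) (c : ι → ℂ) (s : ι → M) (m : M) :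
    ∑ i ∈ t, c i • φ (m * s i) = φ m * ∑ i ∈ t, c i • φ (s i) := by
  rw [Finset.mul_sum]
  exact Finset.sum_congr rfl fun i _ => by rw [map_mul, mul_smul_comm]

theorem sum_smul_mul_right (t : Finset ι) (c : ι → ℂ) (s : ι → M) (m : M) :
    ∑ i ∈ t, c i • φ (s i * m) = (∑ i ∈ t, c i • φ (s i)) * φ m := by
  rw [Finset.sum_mul]
  exact Finset.sum_congr rfl fun i _ => by rw [map_mul, smul_mul_assoc]

theorem sum_smul_mul_sum_smul {κ : Type*}
    (W : List κ → M) (hW : ∀ l m, W (l ++ m) = W l * W m) (P₁ P₂ : List κ →₀ ℂ) (l : List κ)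
    (x : M) :
    (∑ m ∈ P₁.support, P₁ m • φ (W (l ++ m))) * ∑ m ∈ P₂.support, P₂ m • φ (W m * x) =
      (mulW P₁ P₂).sum fun m c => c • φ (W (l ++ m) * x) := by
  rw [sum_mulW P₁ P₂ fun m => φ (W (l ++ m) * x), Finset.sum_mul_sum, Finsupp.sum]
  refine Finset.sum_congr rfl fun m _ => ?_
  rw [Finsupp.sum]
  refine Finset.sum_congr rfl fun m' _ => ?_
  rw [smul_mul_smul_comm, ← map_mul]
  congr 2
  rw [← List.append_assoc, hW (l ++ m) m', mul_assoc]

/-- The adjoint of a product of the form `φ m * T`, `T` self-adjoint. -/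
theorem adjoint_mul_of_selfAdj [CompleteSpace H] {A A' T : H →L[ℂ] H}
    (hA : ContinuousLinearMap.adjoint A = A') (hT : ContinuousLinearMap.adjoint T = T) :
    ContinuousLinearMap.adjoint (A * T) = T * A' := by
  subst hA
  refine (ContinuousLinearMap.adjoint_comp A T).trans ?_
  rw [hT]
  rfl

end Lin

section Side

variable {F : Type*} [Field F] [NumberField F] [IsTotallyComplex F] {D : Type*}
  [MeasurableSpace D] [DiscreteMeasurableSpace D] [Countable D] [MulAction (GL (Fin 2) F) D]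
  [IsLevel F D] {w : Xi F × D → ℝ≥0∞} {𝒦 : Type*} [CommSemigroup 𝒦] [StarMul 𝒦]
  (Kd : KDat F D 𝒦) (hw : IsWeight (PG F) w) {κ : Type*}

/-- `V` is stable, in terms of `symOp`. -/
theorem stabS : StabRep (symOp Kd.toKerSg (exists_orbits F D) hw) (Kd.V hw) := Kd.stabV hw

/-- The operator of a polynomial on `L²`. -/
def opP (W : List κ → Symb (PG F) D 𝒦) (P : List κ →₀ ℂ) :
    autL2 (PG F) ((muXD (volume : Measure (Xi F)) D).withDensity w) →L[ℂ]
      autL2 (PG F) ((muXD (volume : Measure (Xi F)) D).withDensity w) :=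
  linS Kd.toKerSg (exists_orbits F D) hw P.support P W

/-- The hypotheses on the common factor. -/
structure GoodP (W : List κ → Symb (PG F) D 𝒦) (P : List κ →₀ ℂ) : Prop where
  full : ∀ m ∈ P.support, W m ∈ fullS (PG F) D 𝒦
  adj : ContinuousLinearMap.adjoint (opP Kd hw W P) = opP Kd hw W P
  kill : ∀ f : autL2 (PG F) ((muXD (volume : Measure (Xi F)) D).withDensity w),
    (f : Lp ℂ 2 ((muXD (volume : Measure (Xi F)) D).withDensity w)) ∈ (Kd.V hw)ᗮ →
      opP Kd hw W P f = 0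
  hs : IsHS (homS (stabS Kd hw) P.support P W)

variable {Kd hw} {W : List κ → Symb (PG F) D 𝒦} {P : List κ →₀ ℂ}

/-- `opP` in terms of the value of the polynomial in the letters. -/
theorem opP_eq_evA {a : κ → Symb (PG F) D 𝒦} (hW : ∀ m, W m = (m.map a).prod) :
    opP Kd hw W P = evA (fun k => Kd.op hw (a k)) P := by
  unfold opP linS evA
  rw [Finsupp.sum]
  refine Finset.sum_congr rfl fun m _ => ?_
  rw [hW, map_list_prod, List.map_map]
  rfl

/-- A criterion. -/
theorem GoodP.of_bound (full : ∀ m ∈ P.support, W m ∈ fullS (PG F) D 𝒦)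
    (adj : ContinuousLinearMap.adjoint (opP Kd hw W P) = opP Kd hw W P)
    (cusp : ∀ f, IsCusp (arep (opP Kd hw W P f))) {C : ℝ}
    (bound : ∀ f : autL2 (PG F) ((muXD (volume : Measure (Xi F)) D).withDensity w),
      IsCusp (arep f) → ∀ᵐ z ∂(muXD (volume : Measure (Xi F)) D).withDensity w,
        ‖arep (opP Kd hw W P f) z‖ ≤ C * ‖f‖) : GoodP Kd hw W P where
  full := full
  adj := adj
  kill f hf := by
    refine Kd.opSum_eq_zero hw full (fun g => ?_) hf
    have h1 : Kd.opSum hw P.support (fun i => conj (P i)) (fun i => sstar (W i)) =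
        opP Kd hw W P := by
      rw [← Kd.adjoint_opSum hw, ← adj]
      rfl
    rw [h1]
    exact cusp g
  hs := by
    have hfin : IsFiniteMeasure ((muXD (volume : Measure (Xi F)) D).withDensity w) :=
      isFiniteMeasure_weight F D hw
    refine isHS_of_ae (B := C) fun v => ?_
    have h1 := bound ⟨v, Kd.V_le hw v.2⟩ (Kd.isCusp_arep hw v.2)
    have h2 := coeFn_ae_arep (opP Kd hw W P ⟨v, Kd.V_le hw v.2⟩)
    have h5 := coe_homS (stabS Kd hw) P.support P W v
    rw [h5]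
    filter_upwards [h1, h2] with z h3 h4
    exact (congrArg norm h4).le.trans h3

/-- The operators of the symbols preserve the orthogonal complement of `V`. -/
theorem op_mem_orthogonal (s : Symb (PG F) D 𝒦)
    {f : autL2 (PG F) ((muXD (volume : Measure (Xi F)) D).withDensity w)}
    (hf : (f : Lp ℂ 2 ((muXD (volume : Measure (Xi F)) D).withDensity w)) ∈ (Kd.V hw)ᗮ) :
    (Kd.op hw s f : Lp ℂ 2 ((muXD (volume : Measure (Xi F)) D).withDensity w)) ∈
      (Kd.V hw)ᗮ := by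
  rw [Submodule.mem_orthogonal] at hf ⊢
  intro v hv
  have h1 := ContinuousLinearMap.adjoint_inner_left (Kd.op hw s) f ⟨v, Kd.V_le hw hv⟩
  rw [Kd.adjoint_op hw s] at h1
  have h2 := hf _ ((Kd.stabV hw).stab (sstar s) v hv)
  exact h1.symm.trans h2

variable {P₁ P₂ : List κ →₀ ℂ} (h₁ : GoodP Kd hw W P₁) (h₂ : GoodP Kd hw W P₂)
  (hW : ∀ l m, W (l ++ m) = W l * W m) (l : List κ) (X : HK (PG F) D)

include h₁ hW in
theorem GoodP.full_left : ∀ m ∈ P₁.support, W (l ++ m) ∈ fullS (PG F) D 𝒦 := fun m hm => by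
  rw [hW]
  exact mul_mem_fullS_left _ (h₁.full m hm)

include h₂ in
theorem GoodP.full_right :
    ∀ m ∈ P₂.support, W m * ((1, X) : Symb (PG F) D 𝒦) ∈ fullS (PG F) D 𝒦 := fun m hm =>
  mul_mem_fullS _ (h₂.full m hm)

theorem linS_left (hW : ∀ l m, W (l ++ m) = W l * W m) (l : List κ) :
    linS Kd.toKerSg (exists_orbits F D) hw P.support P (fun m => W (l ++ m)) =
      Kd.op hw (W l) * opP Kd hw W P := by
  have h : (fun m => W (l ++ m)) = fun m => W l * W m := funext fun m => hW l m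
  rw [h]
  exact sum_smul_mul_left (symOp Kd.toKerSg (exists_orbits F D) hw) P.support P W (W l)

theorem linS_right (X : HK (PG F) D) :
    linS Kd.toKerSg (exists_orbits F D) hw P.support P
      (fun m => W m * ((1, X) : Symb (PG F) D 𝒦)) = opP Kd hw W P * Kd.op hw (1, X) :=
  sum_smul_mul_right (symOp Kd.toKerSg (exists_orbits F D) hw) P.support P W (1, X)

include h₁ hW in
theorem GoodP.kill_left
    (f : autL2 (PG F) ((muXD (volume : Measure (Xi F)) D).withDensity w))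
    (hf : (f : Lp ℂ 2 ((muXD (volume : Measure (Xi F)) D).withDensity w)) ∈ (Kd.V hw)ᗮ) :
    ContinuousLinearMap.adjoint (linS Kd.toKerSg (exists_orbits F D) hw P₁.support P₁
      fun m => W (l ++ m)) f = 0 := by
  rw [linS_left hW l, adjoint_mul_of_selfAdj (Kd.adjoint_op hw (W l)) h₁.adj]
  exact h₁.kill _ (op_mem_orthogonal (sstar (W l)) hf)

include h₂ in
theorem GoodP.kill_right
    (f : autL2 (PG F) ((muXD (volume : Measure (Xi F)) D).withDensity w))
    (hf : (f : Lp ℂ 2 ((muXD (volume : Measure (Xi F)) D).withDensity w)) ∈ (Kd.V hw)ᗮ) :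
    linS Kd.toKerSg (exists_orbits F D) hw P₂.support P₂
      (fun m => W m * ((1, X) : Symb (PG F) D 𝒦)) f = 0 := by
  rw [linS_right X]
  exact h₂.kill _ (op_mem_orthogonal (1, X) hf)

theorem homS_left (hW : ∀ l m, W (l ++ m) = W l * W m) (l : List κ) :
    homS (stabS Kd hw) P.support P (fun m => W (l ++ m)) =
      (stabS Kd hw).hom (W l) * homS (stabS Kd hw) P.support P W := by
  have h : (fun m => W (l ++ m)) = fun m => W l * W m := funext fun m => hW l m
  rw [h]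
  exact sum_smul_mul_left (stabS Kd hw).hom P.support P W (W l)

theorem homS_right (X : HK (PG F) D) :
    homS (stabS Kd hw) P.support P (fun m => W m * ((1, X) : Symb (PG F) D 𝒦)) =
      homS (stabS Kd hw) P.support P W * (stabS Kd hw).hom (1, X) :=
  sum_smul_mul_right (stabS Kd hw).hom P.support P W (1, X)

include h₁ hW in
theorem GoodP.hs_left : IsHS (homS (stabS Kd hw) P₁.support P₁ fun m => W (l ++ m)) := by
  rw [homS_left hW l]
  exact h₁.hs.comp_left _

include h₂ in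
theorem GoodP.hs_right : IsHS (homS (stabS Kd hw) P₂.support P₂
    fun m => W m * ((1, X) : Symb (PG F) D 𝒦)) := by
  rw [homS_right X]
  exact h₂.hs.comp_right _

include hW in
theorem homS_mul_homS : homS (stabS Kd hw) P₁.support P₁ (fun m => W (l ++ m)) *
      homS (stabS Kd hw) P₂.support P₂ (fun m => W m * ((1, X) : Symb (PG F) D 𝒦)) =
    (mulW P₁ P₂).sum fun m c => c • (stabS Kd hw).hom (W (l ++ m) * (1, X)) :=
  sum_smul_mul_sum_smul (stabS Kd hw).hom W hW P₁ P₂ l (1, X)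

/-- The kernel whose twisted diagonal is integrated. -/
def kerP (Kd : KDat F D 𝒦) (W : List κ → Symb (PG F) D 𝒦) (P₁ P₂ : List κ →₀ ℂ) (l : List κ)
    (X : HK (PG F) D) : Xi F × D → Xi F × D → ℂ :=
  kerS Kd.toKerSg P₁.support P₁ (fun m => W (l ++ m)) P₂.support P₂
    (fun m => W m * ((1, X) : Symb (PG F) D 𝒦))

variable (hb : ∀ k, ∃ M : ℝ, ∀ x x' : Xi F, ‖Kd.kap k x x'‖ ≤ M)
  (hs : ∀ k, ∃ R : ℝ, ∀ x x' : Xi F, Kd.kap k x x' ≠ 0 → ∀ w, cu (x w) (x' w) ≤ R)

include hb hs h₁ h₂ hW in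
/-- **The trace over `L`.** -/
theorem GoodP.hasSum_tau {τ : F ≃+* F} {tD : D ≃ D}
    (htD : ∀ (g : PG F) d, tD (g • d) = PG.tau τ g • tD d)
    (hst : StabOp (stabS Kd hw).le ((tauHyp_tauZE htD).tauL hw)) {τV : Kd.V hw →L[ℂ] Kd.V hw}
    (hτV : ∀ v : Kd.V hw,
      ((τV v : Kd.V hw) : Lp ℂ 2 ((muXD (volume : Measure (Xi F)) D).withDensity w)) =
      (tauHyp_tauZE htD).symm.tauL hw ⟨v, (stabS Kd hw).le v.2⟩)
    {ι : Type*} (b : HilbertBasis ι ℂ (Kd.V hw)) :
    HasSum (fun i => ⟪b i, (((mulW P₁ P₂).sum fun m c =>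
        c • Kd.symV hw (W (l ++ m) * (1, X))) * τV) (b i)⟫_ℂ)
      (∫ z, aut (PG F) (kerP Kd W P₁ P₂ l X) z (tauZ τ tD z) ∂(muZ F D).withDensity w) := by
  have key := hasSum_tr_tau (κ := Kd.toKerSg) hb hs Kd.kap_star (stabS Kd hw) htD hst hτV
    (h₁.full_left hW l) (h₂.full_right X) (h₁.kill_left hW l) (h₂.kill_right X)
    (h₁.hs_left hW l) (h₂.hs_right X) b
  rw [← mul_assoc, homS_mul_homS hW l X] at key
  exact key

include hb hs h₁ h₂ hW in
/-- **The trace over `K`.** -/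
theorem GoodP.hasSum_id {ι : Type*} (b : HilbertBasis ι ℂ (Kd.V hw)) :
    HasSum (fun i => ⟪b i, ((mulW P₁ P₂).sum fun m c =>
        c • Kd.symV hw (W (l ++ m) * (1, X))) (b i)⟫_ℂ)
      (∫ z, aut (PG F) (kerP Kd W P₁ P₂ l X) z z ∂(muZ F D).withDensity w) := by
  have key := hasSum_tr_id (κ := Kd.toKerSg) hb hs Kd.kap_star (stabS Kd hw)
    (h₁.full_left hW l) (h₂.full_right X) (h₁.kill_left hW l) (h₂.kill_right X)
    (h₁.hs_left hW l) (h₂.hs_right X) b
  rw [homS_mul_homS hW l X] at key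
  exact key

include hb hs hW in
/-- **The geometric side** as a sum over the words. -/
theorem integral_kerP {ν : Measure (Xi F × D)} {T : Xi F × D → Xi F × D} (hT : Measurable T)
    (hfin : ∀ m₁ ∈ P₁.support, ∀ m₂ ∈ P₂.support,
      ∫⁻ z, ∑' g : PG F, ‖skerS Kd.toKerSg (W (l ++ (m₁ ++ m₂)) * ((1, X) : Symb (PG F) D 𝒦)) z
        (g • T z)‖ₑ ∂ν ≠ ∞) :
    ∫ z, aut (PG F) (kerP Kd W P₁ P₂ l X) z (T z) ∂ν =
      ∑ m₁ ∈ P₁.support, ∑ m₂ ∈ P₂.support, P₁ m₁ * P₂ m₂ *
        ∫ z, aut (PG F) (skerS Kd.toKerSg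
          (W (l ++ (m₁ ++ m₂)) * ((1, X) : Symb (PG F) D 𝒦))) z (T z) ∂ν := by
  have e : ∀ m₁ m₂ : List κ, W (l ++ m₁) * (W m₂ * ((1, X) : Symb (PG F) D 𝒦)) =
      W (l ++ (m₁ ++ m₂)) * ((1, X) : Symb (PG F) D 𝒦) := by
    intro m₁ m₂
    rw [← List.append_assoc, hW (l ++ m₁) m₂, mul_assoc]
  have key := integral_kerS (mX := (volume : Measure (Xi F))) (κ := Kd.toKerSg)
    (fun k a => Sttf.nker_sker Kd.toKerSg hb hs k a) (ν := ν) hT P₁.support P₁
    (fun m => W (l ++ m)) P₂.support P₂ (fun m => W m * ((1, X) : Symb (PG F) D 𝒦))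
    (fun i hi j hj => by rw [e]; exact hfin i hi j hj)
  simp only [e] at key
  exact key

end Side

end Fermat.Agent.LT.Tr

end
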